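import Mathlib
import Fermat.Agent.S37.ES.DegreeBeta
import Fermat.Agent.S48.B.Defs.Model

/-!
# PROJECT D (S48), part B, block B3 [B-ES]: the degrees of the two degeneracy maps `α₁`, `β₁`
(the `Γ₁(M)` twin of main's `S37/ES/DegreeBeta`, helper10)

`F = ℚ̄(X₁(M))`, `E = ℚ̄(X₁(M; ℓ)) = F ⊔ V_ℓ F` inside `ℚ̄((q))`, `α₁` the inclusion, `β₁` the
substitution `V_ℓ : q ↦ q^ℓ`.

HYPOTHESES (the `[B-deg]` seams of block B1, in the relative-degree form inside `ℚ̄((q))`):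
* `hF : [F : ℚ̄(J)] = d`, `0 < d`;
* `hE : [E : ℚ̄(J)] = d * (ℓ + 1)`.

THEOREMS: `finrankAlong_alpha1 = ℓ + 1`, `finrankAlong_beta1 = ℓ + 1`, and the relative degrees
`[E : F] = ℓ + 1 = [E : V_ℓ F]`.  The symmetric step `[E : ℚ̄(J)] = [E : ℚ̄(J(q^ℓ))]` is main's
level-free `relfinrank_mul_relfinrank_map` (prime-level modular equation).
-/

set_option autoImplicit false

noncomputable section

namespace Fermat.Agent.S48.B.ES.DegreeBeta1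

open ModularCurve IntermediateField AlgebraicCurve Fermat.Agent.S28.StepDeg
open Fermat.Agent.S48.B.Defs.Model Fermat.Agent.S37.ES.DegreeBeta

local notation "Kb" => AlgebraicClosure ℚ

variable (M ℓ : ℕ) [NeZero M] [NeZero ℓ]

/-- the function field of level `(M; ℓ)` over `ℚ̄` -/
abbrev F1pBar : IntermediateField Kb (LaurentSeries Kb) := laurentBaseChange Kb (F1p M ℓ)

/-- `ℚ̄(J) ⊆ ℚ̄(X₁(M))` -/
theorem kJ_le_F1Bar : kJ Kb ≤ F1Bar M :=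
  (kJ_le_bar M).trans (laurentBaseChange_mono Kb (full_le_F1 M))

/-- `ℚ̄(X₁(M)) ⊆ ℚ̄(X₁(M; ℓ))` -/
theorem F1Bar_le_F1pBar : F1Bar M ≤ F1pBar M ℓ :=
  laurentBaseChange_mono Kb (F1_le_F1p M ℓ)

/-- `ℚ̄(J) ⊆ ℚ̄(X₁(M; ℓ))` -/
theorem kJ_le_F1pBar : kJ Kb ≤ F1pBar M ℓ := (kJ_le_F1Bar M).trans (F1Bar_le_F1pBar M ℓ)

/-- `V_ℓ ℚ̄(X₁(M)) ⊆ ℚ̄(X₁(M; ℓ))` -/
theorem map_F1Bar_le_F1pBar : (F1Bar M).map (qExpandAlgHomC Kb ℓ) ≤ F1pBar M ℓ := by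
  rintro _ ⟨x, hx, rfl⟩
  exact (beta1 M ℓ Kb ⟨x, hx⟩).2

variable {ℓ}

/-- **`[ℚ̄(X₁(M; ℓ)) : ℚ̄(X₁(M))] = ℓ + 1`** inside `ℚ̄((q))`. -/
theorem relfinrank_F1Bar {d : ℕ} (hd : 0 < d)
    (hF : IntermediateField.relfinrank (kJ Kb) (F1Bar M) = d)
    (hE : IntermediateField.relfinrank (kJ Kb) (F1pBar M ℓ) = d * (ℓ + 1)) :
    IntermediateField.relfinrank (F1Bar M) (F1pBar M ℓ) = ℓ + 1 := by
  have h := IntermediateField.relfinrank_mul_relfinrank (kJ_le_F1Bar M) (F1Bar_le_F1pBar M ℓ)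
  rw [hF, hE] at h
  exact Nat.eq_of_mul_eq_mul_left hd h

/-- **`[ℚ̄(X₁(M; ℓ)) : V_ℓ ℚ̄(X₁(M))] = ℓ + 1`** inside `ℚ̄((q))`. -/
theorem relfinrank_map_F1Bar (hℓ : ℓ.Prime) {d : ℕ} (hd : 0 < d)
    (hF : IntermediateField.relfinrank (kJ Kb) (F1Bar M) = d)
    (hE : IntermediateField.relfinrank (kJ Kb) (F1pBar M ℓ) = d * (ℓ + 1)) :
    IntermediateField.relfinrank ((F1Bar M).map (qExpandAlgHomC Kb ℓ)) (F1pBar M ℓ) = ℓ + 1 := by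
  have : NeZero (ℓ * ℓ) := ⟨Nat.mul_ne_zero hℓ.ne_zero hℓ.ne_zero⟩
  obtain ⟨PL⟩ := nonempty_primeLevel hℓ
  have h := relfinrank_mul_relfinrank_map PL hℓ.two_le (F1Bar M) (F1pBar M ℓ)
    (kJ_le_F1Bar M) (kJ_le_F1pBar M ℓ) (map_F1Bar_le_F1pBar M ℓ)
  rw [hF, hE] at h
  exact Nat.eq_of_mul_eq_mul_left hd h

/-- **The degree of `α₁`**: `[ℚ̄(X₁(M; ℓ)) : α₁ ℚ̄(X₁(M))] = ℓ + 1`. -/
theorem finrankAlong_alpha1 {d : ℕ} (hd : 0 < d)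
    (hF : IntermediateField.relfinrank (kJ Kb) (F1Bar M) = d)
    (hE : IntermediateField.relfinrank (kJ Kb) (F1pBar M ℓ) = d * (ℓ + 1)) :
    finrankAlong Kb (alpha1 M ℓ Kb) = ℓ + 1 := by
  rw [finrankAlong_eq_relfinrank (AlgHom.id Kb (LaurentSeries Kb)) (alpha1 M ℓ Kb)
    (fun x => coe_alpha1 M ℓ Kb x)]
  have : (F1Bar M).map (AlgHom.id Kb (LaurentSeries Kb)) = F1Bar M := IntermediateField.map_id _
  rw [this]
  exact relfinrank_F1Bar M hd hF hE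

/-- **The degree of `β₁`**: `[ℚ̄(X₁(M; ℓ)) : β₁ ℚ̄(X₁(M))] = ℓ + 1` for a prime `ℓ`. -/
theorem finrankAlong_beta1 (hℓ : ℓ.Prime) {d : ℕ} (hd : 0 < d)
    (hF : IntermediateField.relfinrank (kJ Kb) (F1Bar M) = d)
    (hE : IntermediateField.relfinrank (kJ Kb) (F1pBar M ℓ) = d * (ℓ + 1)) :
    finrankAlong Kb (beta1 M ℓ Kb) = ℓ + 1 := by
  rw [finrankAlong_eq_relfinrank (qExpandAlgHomC Kb ℓ) (beta1 M ℓ Kb)
    (fun x => coe_beta1 M ℓ Kb x)]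
  exact relfinrank_map_F1Bar M hℓ hd hF hE

/-- `finrank` form of `relfinrank_F1Bar`. -/
theorem finrank_extendScalars_F1Bar {d : ℕ} (hd : 0 < d)
    (hF : IntermediateField.relfinrank (kJ Kb) (F1Bar M) = d)
    (hE : IntermediateField.relfinrank (kJ Kb) (F1pBar M ℓ) = d * (ℓ + 1)) :
    Module.finrank ↥(F1Bar M) ↥(IntermediateField.extendScalars (F1Bar_le_F1pBar M ℓ)) = ℓ + 1 := by
  rw [← IntermediateField.relfinrank_eq_finrank_of_le]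
  exact relfinrank_F1Bar M hd hF hE

/-- `finrank` form of `relfinrank_map_F1Bar`. -/
theorem finrank_extendScalars_map_F1Bar (hℓ : ℓ.Prime) {d : ℕ} (hd : 0 < d)
    (hF : IntermediateField.relfinrank (kJ Kb) (F1Bar M) = d)
    (hE : IntermediateField.relfinrank (kJ Kb) (F1pBar M ℓ) = d * (ℓ + 1)) :
    Module.finrank ↥((F1Bar M).map (qExpandAlgHomC Kb ℓ))
      ↥(IntermediateField.extendScalars (map_F1Bar_le_F1pBar M ℓ)) = ℓ + 1 := by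
  rw [← IntermediateField.relfinrank_eq_finrank_of_le]
  exact relfinrank_map_F1Bar M hℓ hd hF hE

end Fermat.Agent.S48.B.ES.DegreeBeta1

end
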