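import Mathlib
import Fermat.Agent.S48.B.B1.Seams
import Fermat.Agent.S48.B.B1.Seams2
import Fermat.Agent.S48.B.ES.DegreeBeta1

/-!
# PROJECT D (S48), part B, brick [B-ES]: the bridge from the seams `Deg1`, `Deg1p` of block B1 to the
degree hypotheses of `ES/DegreeBeta1`, `ES/NormAlpha1`, `ES/NormRed1` (helper10)

Block B1 states the degrees as `finrank ℚ̄⟮j⟯ F` (`j = jgen1 M : F1Bar M`, `jgen1p M ℓ`); the [B-ES]
files consume relative degrees inside `ℚ̄((q))` over `kJ ℚ̄ = ℚ̄(J(q))`.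

* `relfinrank_kJ_F1Bar`, `relfinrank_kJ_F1pBar` : the two forms agree;
* `finrankAlong_alpha1_of_seams`, `finrankAlong_beta1_of_seams` : `Deg1 M` and `Deg1p M ℓ` give
  `finrankAlong ℚ̄ (alpha1 M ℓ ℚ̄) = ℓ + 1 = finrankAlong ℚ̄ (beta1 M ℓ ℚ̄)`.
-/

set_option autoImplicit false

noncomputable section

namespace Fermat.Agent.S48.B.ES.DegreeBridge1

open ModularCurve IntermediateField AlgebraicCurve Fermat.Agent.S28.StepDeg
open Fermat.Agent.S48.B.Defs.Model Fermat.Agent.S48.B.ES.DegreeBeta1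
open Fermat.Agent.S48.B.B1.Seams Fermat.Agent.S48.B.B1.Seams2

local notation "Kb" => AlgebraicClosure ℚ

variable (M ℓ : ℕ) [NeZero M] [NeZero ℓ]

/-- the `q`-expansion of `jgen1 M` -/
theorem coe_jgen1 : ((jgen1 M : ↥(F1Bar M)) : LaurentSeries Kb) = jqModC Kb := by
  show ((IntermediateField.inclusion (laurentBaseChange_mono Kb (full_le_F1 M))
    (Fermat.Agent.S24.DegreeAlg.jgen M) : ↥(F1Bar M)) : LaurentSeries Kb) = jqModC Kb
  rw [IntermediateField.coe_inclusion]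
  exact Fermat.Agent.S18.B.Basic.coe_jgen_eq M

/-- the `q`-expansion of `jgen1p M ℓ` -/
theorem coe_jgen1p : ((jgen1p M ℓ : ↥(F1pBar M ℓ)) : LaurentSeries Kb) = jqModC Kb := by
  show ((IntermediateField.inclusion (laurentBaseChange_mono Kb (F1_le_F1p M ℓ))
    (jgen1 M) : ↥(F1pBar M ℓ)) : LaurentSeries Kb) = jqModC Kb
  rw [IntermediateField.coe_inclusion]
  exact coe_jgen1 M

/-- the abstract bridge: for `x : ↥E` with `q`-expansion `J`, `[E : ℚ̄(J)]` inside `ℚ̄((q))` is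
`finrank ℚ̄⟮x⟯ E`. -/
theorem relfinrank_kJ_eq (E : IntermediateField Kb (LaurentSeries Kb)) (x : ↥E)
    (hx : (x : LaurentSeries Kb) = jqModC Kb) :
    IntermediateField.relfinrank (kJ Kb) E = Module.finrank ↥Kb⟮x⟯ ↥E := by
  have h1 : (Kb⟮x⟯).map E.val = kJ Kb := by
    rw [IntermediateField.adjoin_map, Set.image_singleton, kJ]
    congr 2
  have h2 : (⊤ : IntermediateField Kb ↥E).map E.val = E := by
    rw [← AlgHom.fieldRange_eq_map, IntermediateField.fieldRange_val]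
  calc IntermediateField.relfinrank (kJ Kb) E
      = IntermediateField.relfinrank ((Kb⟮x⟯).map E.val)
          ((⊤ : IntermediateField Kb ↥E).map E.val) := by rw [h1, h2]
    _ = Module.finrank ↥Kb⟮x⟯ ↥E := by
        rw [IntermediateField.relfinrank_map_map, IntermediateField.relfinrank_top_right]

/-- `[ℚ̄(X₁(M)) : ℚ̄(J)]` inside `ℚ̄((q))` is the degree of block B1 -/
theorem relfinrank_kJ_F1Bar :
    IntermediateField.relfinrank (kJ Kb) (F1Bar M) = Module.finrank ↥Kb⟮jgen1 M⟯ ↥(F1Bar M) :=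
  relfinrank_kJ_eq (F1Bar M) (jgen1 M) (coe_jgen1 M)

/-- `[ℚ̄(X₁(M; ℓ)) : ℚ̄(J)]` inside `ℚ̄((q))` is the degree of block B1 -/
theorem relfinrank_kJ_F1pBar :
    IntermediateField.relfinrank (kJ Kb) (F1pBar M ℓ) =
      Module.finrank ↥Kb⟮jgen1p M ℓ⟯ ↥(F1pBar M ℓ) :=
  relfinrank_kJ_eq (F1pBar M ℓ) (jgen1p M ℓ) (coe_jgen1p M ℓ)

variable {M ℓ}

/-- `Deg1 M` gives `0 < [SL₂(ℤ) : ±Γ₁(M)]` -/
theorem card_Q1_pos (h1 : Deg1 M) : 0 < Nat.card (Q1 M) := by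
  rw [← h1.2]
  have := h1.1.finite
  exact Module.finrank_pos

/-- the two [B-deg] inputs of `DegreeBeta1` from the seams of block B1 -/
theorem inputs_of_seams (hℓ : ℓ.Prime) (hℓM : ¬ ℓ ∣ M) (h1 : Deg1 M) (hp : Deg1p M ℓ) :
    IntermediateField.relfinrank (kJ Kb) (F1Bar M) = Nat.card (Q1 M) ∧
      IntermediateField.relfinrank (kJ Kb) (F1pBar M ℓ) = Nat.card (Q1 M) * (ℓ + 1) :=
  ⟨(relfinrank_kJ_F1Bar M).trans h1.2, (relfinrank_kJ_F1pBar M ℓ).trans (hp hℓ hℓM)⟩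

/-- **The degree of `α₁` from `Deg1`, `Deg1p`.** -/
theorem finrankAlong_alpha1_of_seams (hℓ : ℓ.Prime) (hℓM : ¬ ℓ ∣ M) (h1 : Deg1 M)
    (hp : Deg1p M ℓ) : finrankAlong Kb (alpha1 M ℓ Kb) = ℓ + 1 :=
  finrankAlong_alpha1 M (card_Q1_pos h1) (inputs_of_seams hℓ hℓM h1 hp).1
    (inputs_of_seams hℓ hℓM h1 hp).2

/-- **The degree of `β₁` from `Deg1`, `Deg1p`.** -/
theorem finrankAlong_beta1_of_seams (hℓ : ℓ.Prime) (hℓM : ¬ ℓ ∣ M) (h1 : Deg1 M)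
    (hp : Deg1p M ℓ) : finrankAlong Kb (beta1 M ℓ Kb) = ℓ + 1 :=
  finrankAlong_beta1 M hℓ (card_Q1_pos h1) (inputs_of_seams hℓ hℓM h1 hp).1
    (inputs_of_seams hℓ hℓM h1 hp).2

/-- `[ℚ̄(X₁(M; ℓ)) : ℚ̄(X₁(M))] = ℓ + 1` from the seams -/
theorem relfinrank_F1Bar_of_seams (hℓ : ℓ.Prime) (hℓM : ¬ ℓ ∣ M) (h1 : Deg1 M)
    (hp : Deg1p M ℓ) :
    IntermediateField.relfinrank (F1Bar M) (F1pBar M ℓ) = ℓ + 1 :=
  relfinrank_F1Bar M (card_Q1_pos h1) (inputs_of_seams hℓ hℓM h1 hp).1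
    (inputs_of_seams hℓ hℓM h1 hp).2

end Fermat.Agent.S48.B.ES.DegreeBridge1

end
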