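import Mathlib
import Fermat.Agent.S48.B.Defs.Model

/-!
# PROJECT D (S48), part B, brick [B-ES] (helper8): uniqueness and base change of the diamond
automorphisms

`F_L = laurentBaseChange L (F1 M) = L(j(q^e), h_a)`.  A ring homomorphism out of `F_L` is determined
by its values on the constants and on the generators `j(q^e)`, `e ∣ M`, and `h_a`, `a ≠ 0`
(`ringHom_ext_baseChange`).  Consequences for `Model.IsDiamondAut`:

* `isDiamondAut_unique`       : at most one diamond automorphism for each `d`;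
* `isDiamondAut_refl`, `eq_refl_of_isDiamondAut` : for `d = 1` it is the identity;
* `isDiamondAut_trans`, `isDiamondAut_symm`   : products and inverses;
* `isDiamondAut_coeffMap_comm` : compatibility with the coefficientwise map along `ι : L →+* L'`;
* `isDiamondAut_diamondAut_of`, `diamondAut_eq_of` : `diamondAut M L d` is the diamond automorphism
  as soon as one exists.
-/

set_option autoImplicit false
set_option linter.unusedSectionVars false

noncomputable section

namespace Fermat.Agent.S48.B.ES.DiamondUnique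

open ModularCurve HahnSeries IntermediateField Fermat.Agent.S48.B.Defs.Model

/-! ### Coefficientwise maps between base changes -/

section CoeffMap

variable {L L' : Type*} [Field L] [Algebra ℚ L] [Field L'] [Algebra ℚ L']

theorem coeffMap_coeffEmb_of_ringHom (ι : L →+* L') (z : LaurentSeries ℚ) :
    coeffMap ι (coeffEmb L z) = coeffEmb L' z := by
  rw [coeffEmb, coeffMap_coeffMap]
  exact coeffMap_congr (RingHom.ext_rat _ _) z

theorem coeffMap_algebraMap_of_ringHom (ι : L →+* L') (c : L) :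
    coeffMap ι (algebraMap L (LaurentSeries L) c) = algebraMap L' (LaurentSeries L') (ι c) := by
  rw [algebraMap_laurentSeries_eq_single, algebraMap_laurentSeries_eq_single, coeffMap_single]

theorem coeffMap_injective_of_ringHom (ι : L →+* L') : Function.Injective (coeffMap ι) :=
  (coeffMap ι).injective

/-- the coefficientwise image of `L·F₀` lies in `L'·F₀` -/
theorem coeffMap_mem_baseChange (ι : L →+* L') {F₀ : IntermediateField ℚ (LaurentSeries ℚ)}
    {x : LaurentSeries L} (hx : x ∈ laurentBaseChange L F₀) :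
    coeffMap ι x ∈ laurentBaseChange L' F₀ := by
  rw [mem_laurentBaseChange_iff] at hx
  induction hx using Subfield.closure_induction with
  | mem y hy =>
      rcases hy with ⟨a, rfl⟩ | ⟨z, hz, rfl⟩
      · rw [coeffMap_algebraMap_of_ringHom]
        exact (laurentBaseChange L' F₀).algebraMap_mem _
      · rw [coeffMap_coeffEmb_of_ringHom]
        exact coeffEmb_mem_laurentBaseChange L' hz
  | one => rw [map_one]; exact one_mem _
  | add x y _ _ hx hy => rw [map_add]; exact add_mem hx hy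
  | neg x _ hx => rw [map_neg]; exact neg_mem hx
  | inv x _ hx => rw [map_inv₀]; exact inv_mem hx
  | mul x y _ _ hx hy => rw [map_mul]; exact mul_mem hx hy

/-- the coefficientwise map `L·F₀ → L'·F₀` along `ι` -/
def baseChangeMap (ι : L →+* L') (F₀ : IntermediateField ℚ (LaurentSeries ℚ)) :
    laurentBaseChange L F₀ →+* laurentBaseChange L' F₀ where
  toFun x := ⟨coeffMap ι (x : LaurentSeries L), coeffMap_mem_baseChange ι x.2⟩
  map_one' := Subtype.ext (map_one _)
  map_mul' _ _ := Subtype.ext (map_mul _ _ _)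
  map_zero' := Subtype.ext (map_zero _)
  map_add' _ _ := Subtype.ext (map_add _ _ _)

@[simp]
theorem coe_baseChangeMap (ι : L →+* L') (F₀ : IntermediateField ℚ (LaurentSeries ℚ))
    (x : laurentBaseChange L F₀) :
    ((baseChangeMap ι F₀ x : laurentBaseChange L' F₀) : LaurentSeries L') =
      coeffMap ι (x : LaurentSeries L) := rfl

theorem baseChangeMap_algebraMap (ι : L →+* L') (F₀ : IntermediateField ℚ (LaurentSeries ℚ))
    (c : L) :
    baseChangeMap ι F₀ (algebraMap L (laurentBaseChange L F₀) c) =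
      algebraMap L' (laurentBaseChange L' F₀) (ι c) :=
  Subtype.ext (coeffMap_algebraMap_of_ringHom ι c)

end CoeffMap

/-! ### Ring homomorphisms out of `F1 M` and out of `L·F1 M` -/

section Ext

variable (M : ℕ) [NeZero M] {L : Type*} [Field L] [Algebra ℚ L]

/-- a ring homomorphism out of `F1 M = ℚ(j(q^e), h_a)` is determined by its values on the
generators -/
theorem ringHom_ext_F1 {Ω : Type*} [DivisionRing Ω] (φ₁ φ₂ : F1 M →+* Ω)
    (hj : ∀ (e : ℕ) (_ : NeZero e) (he : e ∣ M),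
      φ₁ ⟨qExpand ℚ e jq, jqd_mem_F1 M he⟩ = φ₂ ⟨qExpand ℚ e jq, jqd_mem_F1 M he⟩)
    (hh : ∀ (a : ZMod M) (ha : a ≠ 0),
      φ₁ ⟨frickeH ℚ M a, frickeH_mem_F1 M ha⟩ = φ₂ ⟨frickeH ℚ M a, frickeH_mem_F1 M ha⟩) :
    φ₁ = φ₂ := by
  ext ⟨x, hx⟩
  have hx' : x ∈ IntermediateField.adjoin ℚ (divisorExpansions M ∪ frickeGenerators M) := hx
  induction hx' using IntermediateField.adjoin_induction with
  | mem y hy =>
      rcases hy with ⟨d, hd0, hd, rfl⟩ | ⟨a, ha, rfl⟩
      · exact hj d hd0 hd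
      · exact hh a ha
  | algebraMap r =>
      have e1 : (⟨algebraMap ℚ (LaurentSeries ℚ) r, hx⟩ : F1 M) = (r : F1 M) := by
        apply Subtype.ext
        rw [SubfieldClass.coe_ratCast]
        exact eq_ratCast _ r
      rw [e1, map_ratCast, map_ratCast]
  | add y z hy hz ihy ihz =>
      have e1 : (⟨y + z, hx⟩ : F1 M) = ⟨y, hy⟩ + ⟨z, hz⟩ := rfl
      rw [e1, map_add, map_add, ihy hy, ihz hz]
  | inv y hy ihy =>
      have e1 : (⟨y⁻¹, hx⟩ : F1 M) = (⟨y, hy⟩ : F1 M)⁻¹ := rfl
      rw [e1, map_inv₀, map_inv₀, ihy hy]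
  | mul y z hy hz ihy ihz =>
      have e1 : (⟨y * z, hx⟩ : F1 M) = ⟨y, hy⟩ * ⟨z, hz⟩ := rfl
      rw [e1, map_mul, map_mul, ihy hy, ihz hz]

/-- the coefficientwise embedding `F1 M → L·F1 M` -/
def embF1 (L : Type*) [Field L] [Algebra ℚ L] : F1 M →+* laurentBaseChange L (F1 M) where
  toFun y := ⟨coeffEmb L (y : LaurentSeries ℚ), coeffEmb_mem_laurentBaseChange L y.2⟩
  map_one' := Subtype.ext (map_one _)
  map_mul' _ _ := Subtype.ext (map_mul _ _ _)
  map_zero' := Subtype.ext (map_zero _)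
  map_add' _ _ := Subtype.ext (map_add _ _ _)

/-- **A ring homomorphism out of `L·F1 M` is determined by its values on the constants and on the
generators `j(q^e)`, `h_a`.** -/
theorem ringHom_ext_baseChange {Ω : Type*} [DivisionRing Ω]
    (φ₁ φ₂ : laurentBaseChange L (F1 M) →+* Ω)
    (hc : ∀ c : L, φ₁ (algebraMap L (laurentBaseChange L (F1 M)) c) =
      φ₂ (algebraMap L (laurentBaseChange L (F1 M)) c))
    (hj : ∀ (e : ℕ) (_ : NeZero e) (he : e ∣ M),
      φ₁ ⟨coeffEmb L (qExpand ℚ e jq), coeffEmb_mem_laurentBaseChange L (jqd_mem_F1 M he)⟩ =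
        φ₂ ⟨coeffEmb L (qExpand ℚ e jq), coeffEmb_mem_laurentBaseChange L (jqd_mem_F1 M he)⟩)
    (hh : ∀ (a : ZMod M) (ha : a ≠ 0),
      φ₁ ⟨coeffEmb L (frickeH ℚ M a), coeffEmb_mem_laurentBaseChange L (frickeH_mem_F1 M ha)⟩ =
        φ₂ ⟨coeffEmb L (frickeH ℚ M a),
          coeffEmb_mem_laurentBaseChange L (frickeH_mem_F1 M ha)⟩) :
    φ₁ = φ₂ := by
  have h0 : φ₁.comp (embF1 M L) = φ₂.comp (embF1 M L) :=
    ringHom_ext_F1 M _ _ (fun e he0 he => hj e he0 he) (fun a ha => hh a ha)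
  ext ⟨x, hx⟩
  have hx' := mem_laurentBaseChange_iff.mp hx
  induction hx' using Subfield.closure_induction with
  | mem y hy =>
      rcases hy with ⟨c, rfl⟩ | ⟨z, hz, rfl⟩
      · exact hc c
      · exact RingHom.congr_fun h0 ⟨z, hz⟩
  | one =>
      have e1 : (⟨1, hx⟩ : laurentBaseChange L (F1 M)) = 1 := rfl
      rw [e1, map_one, map_one]
  | add y z hy hz ihy ihz =>
      have e1 : (⟨y + z, hx⟩ : laurentBaseChange L (F1 M)) = ⟨y, hy⟩ + ⟨z, hz⟩ := rfl
      rw [e1, map_add, map_add, ihy hy, ihz hz]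
  | neg y hy ihy =>
      have e1 : (⟨-y, hx⟩ : laurentBaseChange L (F1 M)) = -⟨y, hy⟩ := rfl
      rw [e1, map_neg, map_neg, ihy hy]
  | inv y hy ihy =>
      have e1 : (⟨y⁻¹, hx⟩ : laurentBaseChange L (F1 M)) =
          (⟨y, hy⟩ : laurentBaseChange L (F1 M))⁻¹ := rfl
      rw [e1, map_inv₀, map_inv₀, ihy hy]
  | mul y z hy hz ihy ihz =>
      have e1 : (⟨y * z, hx⟩ : laurentBaseChange L (F1 M)) = ⟨y, hy⟩ * ⟨z, hz⟩ := rfl
      rw [e1, map_mul, map_mul, ihy hy, ihz hz]

end Ext

/-! ### Diamond automorphisms -/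

section Diamond

variable {M : ℕ} [NeZero M] {L : Type*} [Field L] [Algebra ℚ L]

/-- the generator `j(q^e)` of `L·F1 M` -/
def jGen (M : ℕ) [NeZero M] (L : Type*) [Field L] [Algebra ℚ L] (e : ℕ) [NeZero e] (he : e ∣ M) :
    laurentBaseChange L (F1 M) :=
  ⟨coeffEmb L (qExpand ℚ e jq), coeffEmb_mem_laurentBaseChange L (jqd_mem_F1 M he)⟩

/-- the generator `h_a` of `L·F1 M` -/
def hGen (M : ℕ) [NeZero M] (L : Type*) [Field L] [Algebra ℚ L] (a : ZMod M) (ha : a ≠ 0) :
    laurentBaseChange L (F1 M) :=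
  ⟨coeffEmb L (frickeH ℚ M a), coeffEmb_mem_laurentBaseChange L (frickeH_mem_F1 M ha)⟩

theorem unit_mul_ne_zero (d : (ZMod M)ˣ) {a : ZMod M} (ha : a ≠ 0) : (d : ZMod M) * a ≠ 0 :=
  fun h => ha ((Units.mul_right_eq_zero d).mp h)

theorem apply_jGen {d : (ZMod M)ˣ}
    {δ : laurentBaseChange L (F1 M) ≃ₐ[L] laurentBaseChange L (F1 M)}
    (h : IsDiamondAut M L d δ) (e : ℕ) [he0 : NeZero e] (he : e ∣ M) :
    δ (jGen M L e he) = jGen M L e he :=
  h.1 e he0 he _ rfl

theorem apply_hGen {d : (ZMod M)ˣ}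
    {δ : laurentBaseChange L (F1 M) ≃ₐ[L] laurentBaseChange L (F1 M)}
    (h : IsDiamondAut M L d δ) (a : ZMod M) (ha : a ≠ 0) :
    δ (hGen M L a ha) = hGen M L ((d : ZMod M) * a) (unit_mul_ne_zero d ha) :=
  h.2 a ha _ _ rfl rfl

/-- `IsDiamondAut` from the values on the generators -/
theorem isDiamondAut_iff {d : (ZMod M)ˣ}
    {δ : laurentBaseChange L (F1 M) ≃ₐ[L] laurentBaseChange L (F1 M)} :
    IsDiamondAut M L d δ ↔
      (∀ (e : ℕ) (_ : NeZero e) (he : e ∣ M), δ (jGen M L e he) = jGen M L e he) ∧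
      ∀ (a : ZMod M) (ha : a ≠ 0),
        δ (hGen M L a ha) = hGen M L ((d : ZMod M) * a) (unit_mul_ne_zero d ha) := by
  constructor
  · intro h
    exact ⟨fun e he0 he => apply_jGen h e he, fun a ha => apply_hGen h a ha⟩
  · rintro ⟨h1, h2⟩
    refine ⟨fun e he0 he y hy => ?_, fun a ha y y' hy hy' => ?_⟩
    · have : y = jGen M L e he := Subtype.ext hy
      rw [this]
      exact h1 e he0 he
    · have e1 : y = hGen M L a ha := Subtype.ext hy
      have e2 : y' = hGen M L ((d : ZMod M) * a) (unit_mul_ne_zero d ha) := Subtype.ext hy'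
      rw [e1, e2]
      exact h2 a ha

/-- **Uniqueness of the diamond automorphisms.** -/
theorem isDiamondAut_unique {d : (ZMod M)ˣ}
    {δ δ' : laurentBaseChange L (F1 M) ≃ₐ[L] laurentBaseChange L (F1 M)}
    (h : IsDiamondAut M L d δ) (h' : IsDiamondAut M L d δ') : δ = δ' := by
  have : (δ : laurentBaseChange L (F1 M) →+* laurentBaseChange L (F1 M)) =
      (δ' : laurentBaseChange L (F1 M) →+* laurentBaseChange L (F1 M)) := by
    refine ringHom_ext_baseChange M _ _ (fun c => ?_) (fun e he0 he => ?_) (fun a ha => ?_)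
    · show δ (algebraMap L _ c) = δ' (algebraMap L _ c)
      rw [AlgEquiv.commutes, AlgEquiv.commutes]
    · show δ (jGen M L e he) = δ' (jGen M L e he)
      rw [apply_jGen h, apply_jGen h']
    · show δ (hGen M L a ha) = δ' (hGen M L a ha)
      rw [apply_hGen h, apply_hGen h']
  exact AlgEquiv.ext fun x => RingHom.congr_fun this x

theorem isDiamondAut_refl : IsDiamondAut M L 1 AlgEquiv.refl := by
  rw [isDiamondAut_iff]
  refine ⟨fun e he0 he => rfl, fun a ha => ?_⟩
  apply Subtype.ext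
  show coeffEmb L (frickeH ℚ M a) = coeffEmb L (frickeH ℚ M (((1 : (ZMod M)ˣ) : ZMod M) * a))
  rw [Units.val_one, one_mul]

/-- for `d = 1` the diamond automorphism is the identity -/
theorem eq_refl_of_isDiamondAut {δ : laurentBaseChange L (F1 M) ≃ₐ[L] laurentBaseChange L (F1 M)}
    (h : IsDiamondAut M L 1 δ) : δ = AlgEquiv.refl :=
  isDiamondAut_unique h isDiamondAut_refl

theorem apply_of_isDiamondAut_one
    {δ : laurentBaseChange L (F1 M) ≃ₐ[L] laurentBaseChange L (F1 M)}
    (h : IsDiamondAut M L 1 δ) (x : laurentBaseChange L (F1 M)) : δ x = x := by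
  rw [eq_refl_of_isDiamondAut h]
  rfl

/-- `⟨d⟩^* ∘ ⟨d'⟩^*` is `⟨d' d⟩^*` -/
theorem isDiamondAut_trans {d d' : (ZMod M)ˣ}
    {δ δ' : laurentBaseChange L (F1 M) ≃ₐ[L] laurentBaseChange L (F1 M)}
    (h : IsDiamondAut M L d δ) (h' : IsDiamondAut M L d' δ') :
    IsDiamondAut M L (d' * d) (δ.trans δ') := by
  rw [isDiamondAut_iff]
  refine ⟨fun e he0 he => ?_, fun a ha => ?_⟩
  · show δ' (δ (jGen M L e he)) = _
    rw [apply_jGen h, apply_jGen h']
  · show δ' (δ (hGen M L a ha)) = _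
    rw [apply_hGen h, apply_hGen h']
    apply Subtype.ext
    show coeffEmb L (frickeH ℚ M ((d' : ZMod M) * ((d : ZMod M) * a))) =
      coeffEmb L (frickeH ℚ M ((((d' * d : (ZMod M)ˣ)) : ZMod M) * a))
    rw [Units.val_mul, mul_assoc]

/-- the inverse of `⟨d⟩^*` is `⟨d⁻¹⟩^*` -/
theorem isDiamondAut_symm {d : (ZMod M)ˣ}
    {δ : laurentBaseChange L (F1 M) ≃ₐ[L] laurentBaseChange L (F1 M)}
    (h : IsDiamondAut M L d δ) : IsDiamondAut M L d⁻¹ δ.symm := by
  rw [isDiamondAut_iff]
  refine ⟨fun e he0 he => ?_, fun a ha => ?_⟩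
  · rw [AlgEquiv.symm_apply_eq, apply_jGen h]
  · rw [AlgEquiv.symm_apply_eq, apply_hGen h]
    apply Subtype.ext
    show coeffEmb L (frickeH ℚ M a) =
      coeffEmb L (frickeH ℚ M ((d : ZMod M) * (((d⁻¹ : (ZMod M)ˣ) : ZMod M) * a)))
    rw [← mul_assoc, Units.mul_inv, one_mul]

/-- `diamondAut M L d` is a diamond automorphism as soon as one exists -/
theorem isDiamondAut_diamondAut_of {d : (ZMod M)ˣ}
    {δ : laurentBaseChange L (F1 M) ≃ₐ[L] laurentBaseChange L (F1 M)}
    (h : IsDiamondAut M L d δ) : IsDiamondAut M L d (diamondAut M L d) :=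
  isDiamondAut_diamondAut M L ⟨δ, h⟩

theorem diamondAut_eq_of {d : (ZMod M)ˣ}
    {δ : laurentBaseChange L (F1 M) ≃ₐ[L] laurentBaseChange L (F1 M)}
    (h : IsDiamondAut M L d δ) : diamondAut M L d = δ :=
  isDiamondAut_unique (isDiamondAut_diamondAut_of h) h

/-- **Base change.** The diamond automorphisms over `L` and over `L'` correspond under the
coefficientwise map along `ι : L →+* L'`. -/
theorem isDiamondAut_coeffMap_comm {L' : Type*} [Field L'] [Algebra ℚ L'] (ι : L →+* L')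
    {d : (ZMod M)ˣ}
    {δ : laurentBaseChange L (F1 M) ≃ₐ[L] laurentBaseChange L (F1 M)}
    {δ' : laurentBaseChange L' (F1 M) ≃ₐ[L'] laurentBaseChange L' (F1 M)}
    (h : IsDiamondAut M L d δ) (h' : IsDiamondAut M L' d δ') (x : laurentBaseChange L (F1 M)) :
    baseChangeMap ι (F1 M) (δ x) = δ' (baseChangeMap ι (F1 M) x) := by
  have key : (baseChangeMap ι (F1 M)).comp
        (δ : laurentBaseChange L (F1 M) →+* laurentBaseChange L (F1 M)) =
      ((δ' : laurentBaseChange L' (F1 M) →+* laurentBaseChange L' (F1 M))).comp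
        (baseChangeMap ι (F1 M)) := by
    have hjG : ∀ (e : ℕ) [NeZero e] (he : e ∣ M),
        baseChangeMap ι (F1 M) (jGen M L e he) = jGen M L' e he := fun e _ he =>
      Subtype.ext (coeffMap_coeffEmb_of_ringHom ι _)
    have hhG : ∀ (a : ZMod M) (ha : a ≠ 0),
        baseChangeMap ι (F1 M) (hGen M L a ha) = hGen M L' a ha := fun a ha =>
      Subtype.ext (coeffMap_coeffEmb_of_ringHom ι _)
    refine ringHom_ext_baseChange M _ _ (fun c => ?_) (fun e he0 he => ?_) (fun a ha => ?_)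
    · show baseChangeMap ι (F1 M) (δ (algebraMap L _ c)) =
        δ' (baseChangeMap ι (F1 M) (algebraMap L _ c))
      rw [AlgEquiv.commutes, baseChangeMap_algebraMap, AlgEquiv.commutes]
    · show baseChangeMap ι (F1 M) (δ (jGen M L e he)) = δ' (baseChangeMap ι (F1 M) (jGen M L e he))
      rw [apply_jGen h, hjG, apply_jGen h']
    · show baseChangeMap ι (F1 M) (δ (hGen M L a ha)) = δ' (baseChangeMap ι (F1 M) (hGen M L a ha))
      rw [apply_hGen h, hhG, hhG, apply_hGen h']
  exact RingHom.congr_fun key x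

/-- the same on the level of series -/
theorem isDiamondAut_coeffMap_apply {L' : Type*} [Field L'] [Algebra ℚ L'] (ι : L →+* L')
    {d : (ZMod M)ˣ}
    {δ : laurentBaseChange L (F1 M) ≃ₐ[L] laurentBaseChange L (F1 M)}
    {δ' : laurentBaseChange L' (F1 M) ≃ₐ[L'] laurentBaseChange L' (F1 M)}
    (h : IsDiamondAut M L d δ) (h' : IsDiamondAut M L' d δ') (x : laurentBaseChange L (F1 M)) :
    coeffMap ι ((δ x : laurentBaseChange L (F1 M)) : LaurentSeries L) =
      ((δ' (baseChangeMap ι (F1 M) x) : laurentBaseChange L' (F1 M)) : LaurentSeries L') :=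
  congrArg Subtype.val (isDiamondAut_coeffMap_comm ι h h' x)

end Diamond

end Fermat.Agent.S48.B.ES.DiamondUnique

end
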