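import Mathlib
import Fermat.Prelude.Def_ModularForm_HeckeOperator
import Fermat.Prelude.Def_ModularCurve_X0
import Fermat.Prelude.Def_ModularCurve_LaurentCoeff
import Fermat.Agent.S23.QRing
import Fermat.Agent.S24.LaurentCusp
import Fermat.Agent.S24.RepHom

/-!
# PROJECT D (S48), part B, brick [B-ES] (helper8): `q^{1/ℓ}`-expansions of `1`-periodic functions and
of their substitutions `τ ↦ τ/ℓ`, `τ ↦ ℓτ`

For `F : ℍ → ℂ` with a `q`-expansion (`IsQ F` of `S23/QRing`: `1`-periodic, holomorphic, bounded at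
`i∞`) and `ℓ ≥ 1`:

* `cuspHolHomL ℓ` : the `q_ℓ`-expansion as an expansion functional (`S24.RepHom.HolHom`);
* `cuspExp_of_isQ` : `cuspExp ℓ F = (qx F)(q^ℓ)`;
* `isCuspHol_slash_heckeMatrix`, `cuspExp_slash_heckeMatrix_zero` :
  `F ∣[k] (1 0; 0 ℓ) = ℓ⁻¹ F(τ/ℓ)` is `ℓ`-periodic and its `q_ℓ`-expansion is `ℓ⁻¹ · qx F`;
* `isQ_slash_heckeDiagMatrix`, `qx_slash_heckeDiagMatrix` :
  `F ∣[k] (ℓ 0; 0 1) = ℓ^{k-1} F(ℓτ)` has the `q`-expansion `ℓ^{k-1} (qx F)(q^ℓ)`.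
-/

set_option autoImplicit false
set_option linter.unusedSectionVars false

noncomputable section

namespace Fermat.Agent.S48.B.ES.CuspSub

open UpperHalfPlane hiding I
open Complex ModularForm ModularCurve Function
open Fermat.Agent.S23.QRing Fermat.Agent.S24.LaurentCusp
open Fermat.Agent.S24.RepHom (HolHom ofPS)
open scoped ModularForm Manifold MatrixGroups

local notation "𝕢" => Function.Periodic.qParam

variable {ℓ : ℕ} [NeZero ℓ]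

/-! ### The expansion functional -/

omit [NeZero ℓ] in
theorem algebraMap_eq_C (c : ℂ) : algebraMap ℂ (LaurentSeries ℂ) c = HahnSeries.C c :=
  LaurentSeries.algebraMap_apply ℂ c

/-- the `q_ℓ`-expansion at `i∞` as an expansion functional on `IsCuspHol ℓ` -/
def cuspHolHomL (ℓ : ℕ) [NeZero ℓ] : HolHom (IsCuspHol ℓ) (LaurentSeries ℂ) where
  T := cuspExp ℓ
  P_mul := fun _ _ hf hg => hf.mul hg
  map_add := fun _ _ hf hg => cuspExp_add hf hg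
  map_mul := fun _ _ hf hg => cuspExp_mul hf hg
  map_const := fun c => by rw [cuspExp_const, algebraMap_eq_C]
  inj := fun _ hf h => (cuspExp_eq_zero_iff hf).1 h

@[simp] theorem cuspHolHomL_T (f : ℍ → ℂ) : (cuspHolHomL ℓ).T f = cuspExp ℓ f := rfl

/-! ### `1`-periodic functions -/

theorem isCuspHol_of_isQ {F : ℍ → ℂ} (hF : IsQ F) : IsCuspHol ℓ F where
  hol := hF.holo
  per := by
    have h1 : Periodic (F ∘ ofComplex) ((1 : ℕ) : ℝ) := by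
      rw [Nat.cast_one]
      exact hF.periodic
    exact periodic_of_dvd (N := ℓ) (w := 1) (d := ℓ) (one_mul ℓ) h1
  bdd := hF.bdd

/-- the `q_ℓ`-expansion of a `1`-periodic function is its `q`-expansion in `q^ℓ` -/
theorem cuspExp_of_isQ {F : ℍ → ℂ} (hF : IsQ F) :
    cuspExp ℓ F = qExpand ℂ ℓ (ofPS (qx F)) := by
  have hcoeff : ∀ n : ℕ, (qExpansion (ℓ : ℝ) F).coeff n =
      if ℓ ∣ n then (qx F).coeff (n / ℓ) else 0 := by
    intro n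
    have h1 : Periodic (F ∘ ofComplex) ((1 : ℕ) : ℝ) := by
      rw [Nat.cast_one]
      exact hF.periodic
    have := qExpansion_coeff_of_period (N := ℓ) (w := 1) (d := ℓ) (one_mul ℓ) one_pos hF.holo h1
      hF.bdd n
    rw [this]
    show _ = if ℓ ∣ n then (qExpansion 1 F).coeff (n / ℓ) else 0
    rw [Nat.cast_one]
  ext m
  rw [cuspExp]
  rcases lt_or_ge m 0 with hm | hm
  · rw [ofPowerSeries_coeff_of_neg _ hm]
    by_cases hdm : (ℓ : ℤ) ∣ m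
    · obtain ⟨c, rfl⟩ := hdm
      rw [qExpand_coeff_mul]
      have hc : c < 0 := by
        by_contra hc
        have : 0 ≤ (ℓ : ℤ) * c := mul_nonneg (by positivity) (not_lt.mp hc)
        omega
      rw [ofPowerSeries_coeff_of_neg _ hc]
    · rw [qExpand_coeff_of_not_dvd ℓ _ hdm]
  · obtain ⟨n, rfl⟩ := Int.eq_ofNat_of_zero_le hm
    rw [HahnSeries.ofPowerSeries_apply_coeff, hcoeff]
    by_cases hdn : ℓ ∣ n
    · rw [if_pos hdn]
      obtain ⟨c, rfl⟩ := hdn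
      rw [Nat.mul_div_cancel_left _ (Nat.pos_of_ne_zero (NeZero.ne ℓ))]
      push_cast
      rw [qExpand_coeff_mul, HahnSeries.ofPowerSeries_apply_coeff]
    · rw [if_neg hdn, qExpand_coeff_of_not_dvd ℓ _ (by rwa [Int.natCast_dvd_natCast])]

/-! ### The substitution `τ ↦ τ / ℓ` -/

/-- `τ ↦ F (τ / ℓ)` -/
def subL (ℓ : ℕ) (F : ℍ → ℂ) : ℍ → ℂ := fun τ => F (heckeMatrix ℓ 0 • τ)

theorem ne_zeroL : ℓ ≠ 0 := NeZero.ne ℓ

theorem coe_heckeMatrix_zero_smul (τ : ℍ) :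
    ((heckeMatrix ℓ 0 • τ : ℍ) : ℂ) = (τ : ℂ) / ℓ := by
  rw [coe_heckeMatrix_smul ne_zeroL]
  simp

theorem im_heckeMatrix_zero_smul (τ : ℍ) : (heckeMatrix ℓ 0 • τ : ℍ).im = τ.im / ℓ := by
  have h := congrArg Complex.im (coe_heckeMatrix_zero_smul (ℓ := ℓ) τ)
  rw [UpperHalfPlane.coe_im] at h
  rw [h]
  have : ((ℓ : ℂ)) = ((ℓ : ℝ) : ℂ) := by push_cast; rfl
  rw [this, Complex.div_ofReal_im, UpperHalfPlane.coe_im]

theorem slash_heckeMatrix_zero_eq (k : ℤ) (F : ℍ → ℂ) :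
    F ∣[k] heckeMatrix ℓ 0 = (ℓ : ℂ)⁻¹ • subL ℓ F := by
  funext τ
  rw [slash_heckeMatrix_apply k ne_zeroL]
  rfl

theorem subL_eq_smul_slash (F : ℍ → ℂ) :
    subL ℓ F = (ℓ : ℂ) • (F ∣[(0 : ℤ)] heckeMatrix ℓ 0) := by
  have hℓ : (ℓ : ℂ) ≠ 0 := by exact_mod_cast ne_zeroL (ℓ := ℓ)
  rw [slash_heckeMatrix_zero_eq, smul_smul, mul_inv_cancel₀ hℓ, one_smul]

theorem heckeMatrix_zero_smul_vadd (τ : ℍ) :
    heckeMatrix ℓ 0 • ((ℓ : ℝ) +ᵥ τ) = (1 : ℝ) +ᵥ (heckeMatrix ℓ 0 • τ : ℍ) := by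
  have hℓ : (ℓ : ℂ) ≠ 0 := by exact_mod_cast ne_zeroL (ℓ := ℓ)
  apply UpperHalfPlane.ext
  rw [coe_heckeMatrix_zero_smul, UpperHalfPlane.coe_vadd, UpperHalfPlane.coe_vadd,
    coe_heckeMatrix_zero_smul]
  push_cast
  field_simp

theorem isQ_apply_one_vadd {F : ℍ → ℂ} (hF : IsQ F) (τ : ℍ) : F ((1 : ℝ) +ᵥ τ) = F τ := by
  have h := hF.periodic (τ : ℂ)
  simp only [comp_apply] at h
  have h1 : ofComplex ((τ : ℂ) + 1) = (1 : ℝ) +ᵥ τ := by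
    have := ofComplex_add_real (z := (τ : ℂ)) τ.2 1
    rw [UpperHalfPlane.ofComplex_apply] at this
    simpa using this
  rw [h1, UpperHalfPlane.ofComplex_apply] at h
  exact h

theorem isCuspHol_subL {F : ℍ → ℂ} (hF : IsQ F) : IsCuspHol ℓ (subL ℓ F) where
  hol := by
    rw [subL_eq_smul_slash]
    have h1 : MDiff (F ∣[(0 : ℤ)] heckeMatrix ℓ 0) := hF.holo.slash 0 _
    have h2 : ((ℓ : ℂ) • (F ∣[(0 : ℤ)] heckeMatrix ℓ 0)) =
        (fun _ : ℍ => (ℓ : ℂ)) * (F ∣[(0 : ℤ)] heckeMatrix ℓ 0) := by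
      funext τ
      simp
    rw [h2]
    exact mdifferentiable_const.mul h1
  per := by
    intro z
    by_cases hz : 0 < im z
    · have hz' : 0 < im (z + ((ℓ : ℝ) : ℂ)) := by simpa using hz
      show subL ℓ F (ofComplex (z + ((ℓ : ℝ) : ℂ))) = subL ℓ F (ofComplex z)
      rw [ofComplex_add_real hz]
      show F (heckeMatrix ℓ 0 • ((ℓ : ℝ) +ᵥ ofComplex z)) = F (heckeMatrix ℓ 0 • ofComplex z)
      rw [heckeMatrix_zero_smul_vadd, isQ_apply_one_vadd hF]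
    · have hz0 : im z ≤ 0 := not_lt.mp hz
      have hz' : im (z + ((ℓ : ℝ) : ℂ)) ≤ 0 := by simpa using hz0
      show subL ℓ F (ofComplex (z + ((ℓ : ℝ) : ℂ))) = subL ℓ F (ofComplex z)
      rw [ofComplex_apply_of_im_nonpos hz', ofComplex_apply_of_im_nonpos hz0]
  bdd := by
    have h := hF.bdd
    rw [UpperHalfPlane.isBoundedAtImInfty_iff] at h ⊢
    obtain ⟨C, A, hCA⟩ := h
    refine ⟨C, (ℓ : ℝ) * A, fun z hz => hCA _ ?_⟩
    rw [im_heckeMatrix_zero_smul]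
    have hℓ : (0 : ℝ) < (ℓ : ℝ) := by exact_mod_cast Nat.pos_of_ne_zero (ne_zeroL (ℓ := ℓ))
    rw [le_div_iff₀ hℓ, mul_comm]
    exact hz

theorem qParam_one_heckeMatrix_zero_smul (τ : ℍ) :
    𝕢 (1 : ℝ) ((heckeMatrix ℓ 0 • τ : ℍ) : ℂ) = 𝕢 (ℓ : ℝ) (τ : ℂ) := by
  rw [coe_heckeMatrix_zero_smul]
  simp only [Function.Periodic.qParam]
  congr 1
  push_cast
  ring

/-- the `q_ℓ`-expansion of `τ ↦ F (τ / ℓ)` is the `q`-expansion of `F` -/
theorem cuspExp_subL {F : ℍ → ℂ} (hF : IsQ F) : cuspExp ℓ (subL ℓ F) = ofPS (qx F) := by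
  have hcoeff : ∀ m : ℕ, (qExpansion (ℓ : ℝ) (subL ℓ F)).coeff m = (qx F).coeff m := by
    intro m
    refine coeff_unique (c := fun m => (qx F).coeff m) IsCuspHol.natCast_pos
      (isCuspHol_subL hF).analyticAt ?_ m
    intro τ
    have h1 := hasSum_qExpansion one_pos hF.periodic hF.holo hF.bdd (heckeMatrix ℓ 0 • τ)
    rw [qParam_one_heckeMatrix_zero_smul] at h1
    exact h1
  rw [cuspExp]
  congr 1
  ext m
  exact hcoeff m

theorem isCuspHol_slash_heckeMatrix_zero {F : ℍ → ℂ} (hF : IsQ F) (k : ℤ) :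
    IsCuspHol ℓ (F ∣[k] heckeMatrix ℓ 0) := by
  rw [slash_heckeMatrix_zero_eq]
  exact (isCuspHol_subL hF).smul _

/-- **`q_ℓ`-expansion of `F ∣[k] (1 0; 0 ℓ)`** -/
theorem cuspExp_slash_heckeMatrix_zero {F : ℍ → ℂ} (hF : IsQ F) (k : ℤ) :
    cuspExp ℓ (F ∣[k] heckeMatrix ℓ 0) = HahnSeries.C ((ℓ : ℂ)⁻¹) * ofPS (qx F) := by
  rw [slash_heckeMatrix_zero_eq, cuspExp_smul _ (isCuspHol_subL hF), cuspExp_subL hF]

/-! ### The substitution `τ ↦ ℓ τ` -/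

/-- `τ ↦ F (ℓ τ)` -/
def dilL (ℓ : ℕ) (F : ℍ → ℂ) : ℍ → ℂ := fun τ => F (heckeDiagMatrix ℓ • τ)

theorem im_heckeDiagMatrix_smul (τ : ℍ) : (heckeDiagMatrix ℓ • τ : ℍ).im = ℓ * τ.im := by
  have h := congrArg Complex.im (coe_heckeDiagMatrix_smul (ne_zeroL (ℓ := ℓ)) τ)
  rw [UpperHalfPlane.coe_im] at h
  rw [h]
  have h2 : ((ℓ : ℂ)) = ((ℓ : ℝ) : ℂ) := by push_cast; rfl
  rw [h2, Complex.im_ofReal_mul, UpperHalfPlane.coe_im]

theorem slash_heckeDiagMatrix_eq (k : ℤ) (F : ℍ → ℂ) :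
    F ∣[k] heckeDiagMatrix ℓ = ((ℓ : ℂ) ^ (k - 1)) • dilL ℓ F := by
  funext τ
  rw [slash_heckeDiagMatrix_apply k ne_zeroL]
  rfl

theorem dilL_eq_smul_slash (F : ℍ → ℂ) :
    dilL ℓ F = (ℓ : ℂ) • (F ∣[(0 : ℤ)] heckeDiagMatrix ℓ) := by
  have hℓ : (ℓ : ℂ) ≠ 0 := by exact_mod_cast ne_zeroL (ℓ := ℓ)
  rw [slash_heckeDiagMatrix_eq, smul_smul, zero_sub, zpow_neg_one, mul_inv_cancel₀ hℓ, one_smul]

theorem heckeDiagMatrix_smul_vadd (τ : ℍ) :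
    heckeDiagMatrix ℓ • ((1 : ℝ) +ᵥ τ) = (ℓ : ℝ) +ᵥ (heckeDiagMatrix ℓ • τ : ℍ) := by
  apply UpperHalfPlane.ext
  rw [coe_heckeDiagMatrix_smul ne_zeroL, UpperHalfPlane.coe_vadd, UpperHalfPlane.coe_vadd,
    coe_heckeDiagMatrix_smul ne_zeroL]
  push_cast
  ring

theorem isQ_apply_nat_vadd {F : ℍ → ℂ} (hF : IsQ F) (n : ℕ) (τ : ℍ) :
    F ((n : ℝ) +ᵥ τ) = F τ := by
  induction n with
  | zero =>
    congr 1
    apply UpperHalfPlane.ext
    rw [UpperHalfPlane.coe_vadd]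
    push_cast
    ring
  | succ n ih =>
    have h1 : ((n + 1 : ℕ) : ℝ) +ᵥ τ = (1 : ℝ) +ᵥ ((n : ℝ) +ᵥ τ) := by
      apply UpperHalfPlane.ext
      simp only [UpperHalfPlane.coe_vadd]
      push_cast
      ring
    rw [h1, isQ_apply_one_vadd hF, ih]

theorem isQ_dilL {F : ℍ → ℂ} (hF : IsQ F) : IsQ (dilL ℓ F) where
  holo := by
    rw [dilL_eq_smul_slash]
    have h1 : MDiff (F ∣[(0 : ℤ)] heckeDiagMatrix ℓ) := hF.holo.slash 0 _
    have h2 : ((ℓ : ℂ) • (F ∣[(0 : ℤ)] heckeDiagMatrix ℓ)) =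
        (fun _ : ℍ => (ℓ : ℂ)) * (F ∣[(0 : ℤ)] heckeDiagMatrix ℓ) := by
      funext τ
      simp
    rw [h2]
    exact mdifferentiable_const.mul h1
  periodic := by
    intro z
    by_cases hz : 0 < im z
    · have hz' : 0 < im (z + ((1 : ℝ) : ℂ)) := by simpa using hz
      have h0 : z + 1 = z + ((1 : ℝ) : ℂ) := by push_cast; rfl
      show dilL ℓ F (ofComplex (z + 1)) = dilL ℓ F (ofComplex z)
      rw [h0, ofComplex_add_real hz]
      show F (heckeDiagMatrix ℓ • ((1 : ℝ) +ᵥ ofComplex z)) = F (heckeDiagMatrix ℓ • ofComplex z)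
      rw [heckeDiagMatrix_smul_vadd, isQ_apply_nat_vadd hF]
    · have hz0 : im z ≤ 0 := not_lt.mp hz
      have hz' : im (z + 1) ≤ 0 := by simpa using hz0
      show dilL ℓ F (ofComplex (z + 1)) = dilL ℓ F (ofComplex z)
      rw [ofComplex_apply_of_im_nonpos hz', ofComplex_apply_of_im_nonpos hz0]
  bdd := by
    have h := hF.bdd
    rw [UpperHalfPlane.isBoundedAtImInfty_iff] at h ⊢
    obtain ⟨C, A, hCA⟩ := h
    refine ⟨C, max A 0, fun z hz => hCA _ ?_⟩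
    rw [im_heckeDiagMatrix_smul]
    have hℓ : (1 : ℝ) ≤ (ℓ : ℝ) := by exact_mod_cast Nat.one_le_iff_ne_zero.mpr (ne_zeroL (ℓ := ℓ))
    have hA : A ≤ z.im := (le_max_left A 0).trans hz
    have h0 : 0 ≤ z.im := (le_max_right A 0).trans hz
    nlinarith

theorem qParam_one_heckeDiagMatrix_smul (τ : ℍ) :
    𝕢 (1 : ℝ) ((heckeDiagMatrix ℓ • τ : ℍ) : ℂ) = 𝕢 (1 : ℝ) (τ : ℂ) ^ ℓ := by
  rw [coe_heckeDiagMatrix_smul ne_zeroL]
  simp only [Function.Periodic.qParam, ← Complex.exp_nat_mul]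
  congr 1
  push_cast
  ring

theorem qx_dilL_coeff {F : ℍ → ℂ} (hF : IsQ F) (n : ℕ) :
    (qx (dilL ℓ F)).coeff n = if ℓ ∣ n then (qx F).coeff (n / ℓ) else 0 := by
  have hℓ0 : 0 < ℓ := Nat.pos_of_ne_zero (ne_zeroL (ℓ := ℓ))
  refine coeff_unique (c := fun n => if ℓ ∣ n then (qx F).coeff (n / ℓ) else 0) one_pos
    (isQ_dilL hF).analyticAt ?_ n
  intro τ
  have h1 := hasSum_qExpansion one_pos hF.periodic hF.holo hF.bdd (heckeDiagMatrix ℓ • τ)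
  rw [qParam_one_heckeDiagMatrix_smul] at h1
  have hinj : Function.Injective (fun m : ℕ => ℓ * m) := fun a b h =>
    Nat.eq_of_mul_eq_mul_left hℓ0 h
  rw [← hinj.hasSum_iff]
  · refine h1.congr_fun ?_ |> fun h => h
    intro m
    simp only [comp_apply]
    rw [if_pos (Dvd.intro m rfl), Nat.mul_div_cancel_left m hℓ0, pow_mul]
    rfl
  · intro m hm
    have hnd : ¬ ℓ ∣ m := by
      rintro ⟨k, rfl⟩
      exact hm ⟨k, rfl⟩
    simp only [if_neg hnd, zero_smul]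

/-- the `q`-expansion of `τ ↦ F (ℓ τ)` is `(qx F)(q^ℓ)` -/
theorem ofPS_qx_dilL {F : ℍ → ℂ} (hF : IsQ F) :
    ofPS (qx (dilL ℓ F)) = qExpand ℂ ℓ (ofPS (qx F)) := by
  ext m
  rcases lt_or_ge m 0 with hm | hm
  · rw [ofPowerSeries_coeff_of_neg _ hm]
    by_cases hdm : (ℓ : ℤ) ∣ m
    · obtain ⟨c, rfl⟩ := hdm
      rw [qExpand_coeff_mul]
      have hc : c < 0 := by
        by_contra hc
        have : 0 ≤ (ℓ : ℤ) * c := mul_nonneg (by positivity) (not_lt.mp hc)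
        omega
      rw [ofPowerSeries_coeff_of_neg _ hc]
    · rw [qExpand_coeff_of_not_dvd ℓ _ hdm]
  · obtain ⟨n, rfl⟩ := Int.eq_ofNat_of_zero_le hm
    rw [HahnSeries.ofPowerSeries_apply_coeff, qx_dilL_coeff hF]
    by_cases hdn : ℓ ∣ n
    · rw [if_pos hdn]
      obtain ⟨c, rfl⟩ := hdn
      rw [Nat.mul_div_cancel_left _ (Nat.pos_of_ne_zero (NeZero.ne ℓ))]
      push_cast
      rw [qExpand_coeff_mul, HahnSeries.ofPowerSeries_apply_coeff]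
    · rw [if_neg hdn, qExpand_coeff_of_not_dvd ℓ _ (by rwa [Int.natCast_dvd_natCast])]

theorem isQ_slash_heckeDiagMatrix {F : ℍ → ℂ} (hF : IsQ F) (k : ℤ) :
    IsQ (F ∣[k] heckeDiagMatrix ℓ) := by
  rw [slash_heckeDiagMatrix_eq]
  exact (isQ_dilL hF).smul _

/-- **`q`-expansion of `F ∣[k] (ℓ 0; 0 1)`** -/
theorem ofPS_qx_slash_heckeDiagMatrix {F : ℍ → ℂ} (hF : IsQ F) (k : ℤ) :
    ofPS (qx (F ∣[k] heckeDiagMatrix ℓ)) =
      HahnSeries.C ((ℓ : ℂ) ^ (k - 1)) * qExpand ℂ ℓ (ofPS (qx F)) := by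
  rw [slash_heckeDiagMatrix_eq, qx_smul _ (isQ_dilL hF), ← ofPS_qx_dilL hF,
    PowerSeries.smul_eq_C_mul, map_mul, HahnSeries.ofPowerSeries_C]

end Fermat.Agent.S48.B.ES.CuspSub

end
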