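import Mathlib
import Fermat.Agent.S20.IsMF
import Fermat.Agent.S23.QRing
import Fermat.Agent.S24.RepHom

/-!
# PROJECT D (S48), part B, brick [B-ES] (helper8): `S24/RepHom` for an arbitrary subgroup
`Γ ≤ SL(2, ℤ)` containing `T`

Verbatim twin of main's `Fermat/Agent/S24/RepHom.lean` with the level `Γ₀(N)` replaced by a variable
subgroup `Γ` of `SL(2, ℤ)` with `T ∈ Γ` (so that forms have `q`-expansions in `q`).  Main's level-free
vocabulary (`HolHom`, `Lval`, `slash_ne_zero`, `mdiff_slash`, `slash_eq_of_isMF_levelOne`) is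
imported, not copied.  Names carry the suffix `G`.

Used at `Γ = Γ₁(M) ⊓ Γ₀(ℓ)` for the analytic Atkin-Lehner embeddings (`ES/AtkinLehner.lean`).
-/

set_option autoImplicit false
set_option linter.unusedSectionVars false

noncomputable section

namespace Fermat.Agent.S48.B.ES.RepG

open UpperHalfPlane CongruenceSubgroup Fermat.Agent.S20 Fermat.Agent.S23.QRing
open Fermat.Agent.S24.RepHom (HolHom mdiff_of_isMF mdiff_slash slash_ne_zero Lval
  slash_eq_of_isMF_levelOne ofPS ofPS_injective)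

open scoped ModularForm Manifold MatrixGroups

/-- a subgroup of `SL(2, ℤ)` as a subgroup of `GL(2, ℝ)` (the level of the forms) -/
abbrev GG (Γ : Subgroup SL(2, ℤ)) : Subgroup (GL (Fin 2) ℝ) := (Γ : Subgroup (GL (Fin 2) ℝ))

variable {Γ : Subgroup SL(2, ℤ)} [hT : Fact (ModularGroup.T ∈ Γ)]

theorem one_mem_strictPeriodsG : (1 : ℝ) ∈ (GG Γ).strictPeriods := by
  rw [Subgroup.strictPeriods_eq_zmultiples_one_of_T_mem hT.out]
  exact AddSubgroup.mem_zmultiples 1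

/-- A form for `Γ ∋ T` has a `q`-expansion in the sense of `QRing`. -/
theorem isQ_of_modularFormG {k : ℤ} (f : ModularForm (GG Γ) k) : IsQ f :=
  haveI : Fact (IsCusp OnePoint.infty (GG Γ)) :=
    ⟨Subgroup.isCusp_of_mem_strictPeriods one_pos one_mem_strictPeriodsG⟩
  { periodic := SlashInvariantFormClass.periodic_comp_ofComplex f one_mem_strictPeriodsG
    holo := ModularFormClass.holo f
    bdd := ModularFormClass.bdd_at_infty f }

theorem isQ_of_isMFG {k : ℤ} {a : ℍ → ℂ} (h : IsMF (GG Γ) k a) : IsQ a := by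
  obtain ⟨F, rfl⟩ := h
  exact isQ_of_modularFormG F

/-- The pair `(a, b)` of forms of weight `k` represents the Laurent series `g`. -/
structure IsRepOfG (Γ : Subgroup SL(2, ℤ)) (g : LaurentSeries ℂ) (k : ℤ) (a b : ℍ → ℂ) : Prop where
  ha : IsMF (GG Γ) k a
  hb : IsMF (GG Γ) k b
  hb0 : b ≠ 0
  eq : ofPS (qx a) = g * ofPS (qx b)

/-- `g` is the `q`-expansion of a quotient of two forms of the same weight for `Γ`. -/
def IsRepCG (Γ : Subgroup SL(2, ℤ)) (g : LaurentSeries ℂ) : Prop := ∃ (k : ℤ) (a b : ℍ → ℂ), IsRepOfG Γ g k a b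

namespace IsRepOfG

variable {g g' : LaurentSeries ℂ} {k k' : ℤ} {a b a' b' : ℍ → ℂ}

theorem qx_b_ne_zero (h : IsRepOfG Γ g k a b) : ofPS (qx b) ≠ 0 := by
  intro h0
  have : qx b = 0 := ofPS_injective (by rw [h0, map_zero])
  exact h.hb0 ((qx_eq_zero_iff (isQ_of_isMFG h.hb)).mp this)

theorem zero : IsRepOfG Γ 0 0 (0 : ℍ → ℂ) (1 : ℍ → ℂ) where
  ha := IsMF.zero
  hb := IsMF.const 1
  hb0 := one_ne_zero
  eq := by rw [qx_zero, map_zero, zero_mul]

theorem one : IsRepOfG Γ 1 0 (1 : ℍ → ℂ) (1 : ℍ → ℂ) where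
  ha := IsMF.const 1
  hb := IsMF.const 1
  hb0 := one_ne_zero
  eq := by rw [one_mul]

theorem const (c : ℂ) : IsRepOfG Γ (HahnSeries.C c) 0 (fun _ => c) (1 : ℍ → ℂ) where
  ha := IsMF.const c
  hb := IsMF.const 1
  hb0 := one_ne_zero
  eq := by rw [qx_const, qx_one, map_one, mul_one, HahnSeries.ofPowerSeries_C]

theorem mul_ne_zero' (h : IsRepOfG Γ g k a b) (h' : IsRepOfG Γ g' k' a' b') : b * b' ≠ 0 := by
  intro h0
  have h1 : qx (b * b') = 0 := by rw [h0, qx_zero]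
  rw [qx_mul (isQ_of_isMFG h.hb) (isQ_of_isMFG h'.hb)] at h1
  rcases mul_eq_zero.mp h1 with h2 | h2
  · exact h.hb0 ((qx_eq_zero_iff (isQ_of_isMFG h.hb)).mp h2)
  · exact h'.hb0 ((qx_eq_zero_iff (isQ_of_isMFG h'.hb)).mp h2)

theorem mul (h : IsRepOfG Γ g k a b) (h' : IsRepOfG Γ g' k' a' b') :
    IsRepOfG Γ (g * g') (k + k') (a * a') (b * b') where
  ha := h.ha.mul h'.ha
  hb := h.hb.mul h'.hb
  hb0 := h.mul_ne_zero' h'
  eq := by
    rw [qx_mul (isQ_of_isMFG h.ha) (isQ_of_isMFG h'.ha), qx_mul (isQ_of_isMFG h.hb) (isQ_of_isMFG h'.hb),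
      map_mul, map_mul, h.eq, h'.eq]
    ring

theorem add (h : IsRepOfG Γ g k a b) (h' : IsRepOfG Γ g' k' a' b') :
    IsRepOfG Γ (g + g') (k + k') (a * b' + a' * b) (b * b') where
  ha := (h.ha.mul h'.hb).add ((h'.ha.mul h.hb).cast (add_comm k' k))
  hb := h.hb.mul h'.hb
  hb0 := h.mul_ne_zero' h'
  eq := by
    have hab' := (isQ_of_isMFG h.ha).mul (isQ_of_isMFG h'.hb)
    have ha'b := (isQ_of_isMFG h'.ha).mul (isQ_of_isMFG h.hb)
    rw [qx_add hab' ha'b, qx_mul (isQ_of_isMFG h.ha) (isQ_of_isMFG h'.hb),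
      qx_mul (isQ_of_isMFG h'.ha) (isQ_of_isMFG h.hb), qx_mul (isQ_of_isMFG h.hb) (isQ_of_isMFG h'.hb),
      map_add, map_mul, map_mul, map_mul, h.eq, h'.eq]
    ring

theorem neg (h : IsRepOfG Γ g k a b) : IsRepOfG Γ (-g) k (-a) b where
  ha := h.ha.neg
  hb := h.hb
  hb0 := h.hb0
  eq := by
    rw [qx_neg (isQ_of_isMFG h.ha), map_neg, h.eq]
    exact (neg_mul g (ofPS (qx b))).symm

theorem inv (h : IsRepOfG Γ g k a b) (hg : g ≠ 0) : IsRepOfG Γ g⁻¹ k b a where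
  ha := h.hb
  hb := h.ha
  hb0 := by
    intro h0
    have h1 := h.eq
    rw [h0, qx_zero, map_zero] at h1
    rcases mul_eq_zero.mp h1.symm with h2 | h2
    · exact hg h2
    · exact h.qx_b_ne_zero h2
  eq := by rw [h.eq, ← mul_assoc, inv_mul_cancel₀ hg, one_mul]

/-- Two representatives of the same series are proportional. -/
theorem cross (h : IsRepOfG Γ g k a b) (h' : IsRepOfG Γ g k' a' b') : a * b' = a' * b := by
  have hab' := (isQ_of_isMFG h.ha).mul (isQ_of_isMFG h'.hb)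
  have ha'b := (isQ_of_isMFG h'.ha).mul (isQ_of_isMFG h.hb)
  refine qx_injective hab' ha'b (ofPS_injective ?_)
  rw [qx_mul (isQ_of_isMFG h.ha) (isQ_of_isMFG h'.hb), qx_mul (isQ_of_isMFG h'.ha) (isQ_of_isMFG h.hb),
    map_mul, map_mul, h.eq, h'.eq]
  ring

end IsRepOfG

/-- The field of `q`-expansions of modular functions for `Γ` (quotients of forms of equal
weight), as a subfield of `ℂ((q))`. -/
def repFieldG (Γ : Subgroup SL(2, ℤ)) [Fact (ModularGroup.T ∈ Γ)] : Subfield (LaurentSeries ℂ) where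
  carrier := {g | IsRepCG Γ g}
  mul_mem' := by
    rintro g g' ⟨k, a, b, h⟩ ⟨k', a', b', h'⟩
    exact ⟨_, _, _, h.mul h'⟩
  one_mem' := ⟨_, _, _, IsRepOfG.one⟩
  add_mem' := by
    rintro g g' ⟨k, a, b, h⟩ ⟨k', a', b', h'⟩
    exact ⟨_, _, _, h.add h'⟩
  zero_mem' := ⟨_, _, _, IsRepOfG.zero⟩
  neg_mem' := by
    rintro g ⟨k, a, b, h⟩
    exact ⟨_, _, _, h.neg⟩
  inv_mem' := by
    rintro g ⟨k, a, b, h⟩
    by_cases hg : g = 0
    · subst hg
      rw [inv_zero]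
      exact ⟨_, _, _, IsRepOfG.zero⟩
    · exact ⟨_, _, _, h.inv hg⟩

theorem mem_repFieldG {g : LaurentSeries ℂ} : g ∈ repFieldG Γ ↔ IsRepCG Γ g := Iff.rfl

/-- The class `P` contains all translates by `γ` of forms for `Γ`. -/
def SlashPG (Γ : Subgroup SL(2, ℤ)) (P : (ℍ → ℂ) → Prop) (γ : SL(2, ℤ)) : Prop :=
  ∀ (k : ℤ) (a : ℍ → ℂ), IsMF (GG Γ) k a → P (a ∣[k] γ)

/-- Holomorphy is preserved by all translates. -/
theorem slashPG_mdiff (Γ : Subgroup SL(2, ℤ)) (γ : SL(2, ℤ)) : SlashPG Γ (fun f => MDiff f) γ :=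
  fun _ _ h => mdiff_slash γ (mdiff_of_isMF h)

/-! ### The homomorphisms `LmapG` -/

section LmapG

variable {P : (ℍ → ℂ) → Prop} {Ω : Type*} [Field Ω] [Algebra ℂ Ω] (T : HolHom P Ω)
  (γ : SL(2, ℤ))

variable {T γ}

theorem denG_ne_zero (hP : SlashPG Γ P γ) {g : LaurentSeries ℂ} {k : ℤ} {a b : ℍ → ℂ}
    (h : IsRepOfG Γ g k a b) : T.T (b ∣[k] γ) ≠ 0 :=
  T.ne_zero (hP k b h.hb) (slash_ne_zero γ h.hb0)

/-- `Lval` does not depend on the representative. -/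
theorem LvalG_eq (hP : SlashPG Γ P γ) {g : LaurentSeries ℂ} {k k' : ℤ} {a b a' b' : ℍ → ℂ}
    (h : IsRepOfG Γ g k a b) (h' : IsRepOfG Γ g k' a' b') :
    Lval T γ k a b = Lval T γ k' a' b' := by
  unfold Lval
  rw [div_eq_div_iff (denG_ne_zero hP h) (denG_ne_zero hP h')]
  have hc := h.cross h'
  have h1 : (a * b') ∣[k + k'] γ = (a ∣[k] γ) * (b' ∣[k'] γ) := ModularForm.mul_slash_SL2 k k' γ a b'
  have h2 : (a' * b) ∣[k' + k] γ = (a' ∣[k'] γ) * (b ∣[k] γ) := ModularForm.mul_slash_SL2 k' k γ a' b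
  rw [add_comm k' k, ← hc, h1] at h2
  have h3 := congrArg T.T h2
  rw [T.map_mul _ _ (hP k a h.ha) (hP k' b' h'.hb),
    T.map_mul _ _ (hP k' a' h'.ha) (hP k b h.hb)] at h3
  exact h3

variable (T γ)

/-- The underlying function of `LmapG`. -/
def LfunG (g : repFieldG Γ) : Ω :=
  Lval T γ (Classical.choose g.2) (Classical.choose (Classical.choose_spec g.2))
    (Classical.choose (Classical.choose_spec (Classical.choose_spec g.2)))

variable {T γ}

theorem LfunG_eq (hP : SlashPG Γ P γ) (g : repFieldG Γ) {k : ℤ} {a b : ℍ → ℂ}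
    (h : IsRepOfG Γ (g : LaurentSeries ℂ) k a b) :
    LfunG T γ g = Lval T γ k a b :=
  LvalG_eq hP (Classical.choose_spec (Classical.choose_spec (Classical.choose_spec g.2))) h

variable (T γ)

/-- **The homomorphism attached to an expansion functional and a coset representative.** -/
def LmapG (hP : SlashPG Γ P γ) : repFieldG Γ →+* Ω where
  toFun := LfunG T γ
  map_one' := by
    rw [LfunG_eq hP (1 : repFieldG Γ) (IsRepOfG.one (Γ := Γ))]
    unfold Lval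
    exact div_self (denG_ne_zero hP (IsRepOfG.one (Γ := Γ)))
  map_mul' := by
    rintro ⟨g, k, a, b, h⟩ ⟨g', k', a', b', h'⟩
    have e1 : LfunG T γ ⟨g, k, a, b, h⟩ = Lval T γ k a b := LfunG_eq hP _ h
    have e2 : LfunG T γ ⟨g', k', a', b', h'⟩ = Lval T γ k' a' b' := LfunG_eq hP _ h'
    have e3 : LfunG T γ ((⟨g, k, a, b, h⟩ : repFieldG Γ) * (⟨g', k', a', b', h'⟩ : repFieldG Γ))
        = Lval T γ (k + k') (a * a') (b * b') := LfunG_eq hP _ (h.mul h')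
    rw [e1, e2, e3]
    unfold Lval
    rw [ModularForm.mul_slash_SL2, ModularForm.mul_slash_SL2,
      T.map_mul _ _ (hP k a h.ha) (hP k' a' h'.ha),
      T.map_mul _ _ (hP k b h.hb) (hP k' b' h'.hb),
      mul_div_mul_comm]
  map_zero' := by
    rw [LfunG_eq hP (0 : repFieldG Γ) (IsRepOfG.zero (Γ := Γ))]
    unfold Lval
    rw [SlashAction.zero_slash, T.map_zero, zero_div]
  map_add' := by
    rintro ⟨g, k, a, b, h⟩ ⟨g', k', a', b', h'⟩
    have e1 : LfunG T γ ⟨g, k, a, b, h⟩ = Lval T γ k a b := LfunG_eq hP _ h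
    have e2 : LfunG T γ ⟨g', k', a', b', h'⟩ = Lval T γ k' a' b' := LfunG_eq hP _ h'
    have e3 : LfunG T γ ((⟨g, k, a, b, h⟩ : repFieldG Γ) + (⟨g', k', a', b', h'⟩ : repFieldG Γ))
        = Lval T γ (k + k') (a * b' + a' * b) (b * b') := LfunG_eq hP _ (h.add h')
    rw [e1, e2, e3]
    unfold Lval
    have hb := denG_ne_zero (T := T) hP h
    have hb' := denG_ne_zero (T := T) hP h'
    have h2 : (a' * b) ∣[k + k'] γ = (a' ∣[k'] γ) * (b ∣[k] γ) := by
      rw [add_comm k k']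
      exact ModularForm.mul_slash_SL2 k' k γ a' b
    rw [SlashAction.add_slash, ModularForm.mul_slash_SL2, h2, ModularForm.mul_slash_SL2,
      T.map_add _ _
        (T.P_mul _ _ (hP k a h.ha) (hP k' b' h'.hb))
        (T.P_mul _ _ (hP k' a' h'.ha) (hP k b h.hb)),
      T.map_mul _ _ (hP k a h.ha) (hP k' b' h'.hb),
      T.map_mul _ _ (hP k' a' h'.ha) (hP k b h.hb),
      T.map_mul _ _ (hP k b h.hb) (hP k' b' h'.hb)]
    field_simp

variable {T γ}

/-- **Characterisation of `LmapG`.** -/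
theorem LmapG_spec (hP : SlashPG Γ P γ) (g : repFieldG Γ) {k : ℤ} {a b : ℍ → ℂ}
    (h : IsRepOfG Γ (g : LaurentSeries ℂ) k a b) :
    LmapG T γ hP g * T.T (b ∣[k] γ) = T.T (a ∣[k] γ) := by
  show LfunG T γ g * _ = _
  rw [LfunG_eq hP g h]
  unfold Lval
  exact div_mul_cancel₀ _ (denG_ne_zero hP h)

theorem LmapG_eq_div (hP : SlashPG Γ P γ) (g : repFieldG Γ) {k : ℤ} {a b : ℍ → ℂ}
    (h : IsRepOfG Γ (g : LaurentSeries ℂ) k a b) :
    LmapG T γ hP g = T.T (a ∣[k] γ) / T.T (b ∣[k] γ) :=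
  LfunG_eq hP g h

theorem const_mem_repFieldG (c : ℂ) : HahnSeries.C c ∈ repFieldG Γ :=
  ⟨_, _, _, IsRepOfG.const c⟩

/-- On constants, `LmapG` is the structure map. -/
theorem LmapG_const (hP : SlashPG Γ P γ) (c : ℂ) (hc : HahnSeries.C c ∈ repFieldG Γ) :
    LmapG T γ hP ⟨HahnSeries.C c, hc⟩ = algebraMap ℂ Ω c := by
  rw [LmapG_eq_div (T := T) hP ⟨HahnSeries.C c, hc⟩ (IsRepOfG.const (Γ := Γ) c)]
  have h1 : (fun _ : ℍ => c) ∣[(0 : ℤ)] γ = fun _ => c := ModularForm.is_invariant_const γ c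
  have h2 : (1 : ℍ → ℂ) ∣[(0 : ℤ)] γ = 1 := ModularForm.is_invariant_const γ 1
  rw [h1, h2, T.map_const, T.map_one, div_one]

/-- On quotients of level one forms, `LmapG T γ` does not depend on `γ`. -/
theorem LmapG_levelOne (hP : SlashPG Γ P γ) (g : repFieldG Γ) {k : ℤ} {a b : ℍ → ℂ}
    (h : IsRepOfG Γ (g : LaurentSeries ℂ) k a b) (ha : IsMF 𝒮ℒ k a) (hb : IsMF 𝒮ℒ k b) :
    LmapG T γ hP g = T.T a / T.T b := by
  rw [LmapG_eq_div hP g h, slash_eq_of_isMF_levelOne ha, slash_eq_of_isMF_levelOne hb]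

/-- Translates by `δ * γ`, `δ ∈ Γ`, are translates by `γ`. -/
theorem slashG_mul_left_of_mem {δ : SL(2, ℤ)} (hδ : δ ∈ Γ) {k : ℤ} {c : ℍ → ℂ}
    (hc : IsMF (GG Γ) k c) : c ∣[k] (δ * γ) = c ∣[k] γ := by
  obtain ⟨F, rfl⟩ := hc
  rw [SlashAction.slash_mul]
  congr 1
  rw [ModularForm.SL_slash]
  exact SlashInvariantFormClass.slash_action_eq F _ ⟨δ, hδ, rfl⟩

theorem slashPG_mul_left {δ : SL(2, ℤ)} (hδ : δ ∈ Γ) (hP : SlashPG Γ P γ) :
    SlashPG Γ P (δ * γ) := fun k a h => by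
  rw [slashG_mul_left_of_mem hδ h]
  exact hP k a h

/-- `LmapG T γ` only depends on the coset `Γ γ`. -/
theorem LmapG_mul_left {δ : SL(2, ℤ)} (hδ : δ ∈ Γ) (hP : SlashPG Γ P γ) :
    LmapG (Γ := Γ) T (δ * γ) (slashPG_mul_left hδ hP) = LmapG T γ hP := by
  ext ⟨g, k, a, b, h⟩
  rw [LmapG_eq_div _ _ h, LmapG_eq_div _ _ h, slashG_mul_left_of_mem hδ h.ha,
    slashG_mul_left_of_mem hδ h.hb]

end LmapG

end Fermat.Agent.S48.B.ES.RepG
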