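import Mathlib
import Fermat.Prelude.Def_ModularForm_HeckeOperator
import Fermat.Agent.S48.B.ES.RepG
import Fermat.Agent.S48.B.ES.CuspSub

/-!
# PROJECT D (S48), part B, brick [B-ES] (helper8): the analytic Atkin-Lehner embeddings

`Γ = Γ₁(M) ⊓ Γ₀(ℓ)`.  For `γ = (a b; c d) ∈ SL(2, ℤ)` with `M ∣ c` and `d = ℓ e` put
`γ₁ = (ℓ a, b; c, e) ∈ Γ₀(M)`, so that `diag(ℓ, 1) γ = γ₁ diag(1, ℓ)`.  The `q_ℓ`-expansion at the
translate by `γ` is a ring homomorphism `ρ : repFieldG Γ → ℂ((q))` (`LmapG`), and for every series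
`x` represented by forms `(A, B)` on `Γ₁(M)`:

* `ρ x = ((A ∣ γ) / (B ∣ γ))(q^ℓ)`          (`A ∣ γ` is `1`-periodic: `γ` normalises `Γ₁(M)`),
* `ρ (x(q^ℓ)) = (A ∣ γ₁) / (B ∣ γ₁)`          (`(A(ℓ·)) ∣ γ = ℓ^{-k} (A ∣ γ₁)(·/ℓ)`).
-/

set_option autoImplicit false
set_option linter.unusedSectionVars false

noncomputable section

namespace Fermat.Agent.S48.B.ES.AtkinLehner

open UpperHalfPlane hiding I
open CongruenceSubgroup ModularForm ModularCurve Matrix.SpecialLinearGroup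
open Fermat.Agent.S20 Fermat.Agent.S23.QRing Fermat.Agent.S24.LaurentCusp
open Fermat.Agent.S24.RepHom (HolHom mdiff_of_isMF mdiff_slash slash_ne_zero ofPS ofPS_injective)
open Fermat.Agent.S48.B.ES.RepG Fermat.Agent.S48.B.ES.CuspSub
open scoped ModularForm Manifold MatrixGroups Pointwise

variable (M ℓ : ℕ) [NeZero M] [NeZero ℓ]

/-- `Γ₁(M) ⊓ Γ₀(ℓ)` -/
def Gml : Subgroup SL(2, ℤ) := Gamma1 M ⊓ Gamma0 ℓ

theorem T_mem_Gamma1 : ModularGroup.T ∈ Gamma1 M := by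
  rw [Gamma1_mem]
  simp [ModularGroup.T]

theorem T_mem_Gamma0 : ModularGroup.T ∈ Gamma0 ℓ := by
  rw [Gamma0_mem]
  simp [ModularGroup.T]

instance factT1 : Fact (ModularGroup.T ∈ Gamma1 M) := ⟨T_mem_Gamma1 M⟩

instance factT : Fact (ModularGroup.T ∈ Gml M ℓ) := ⟨⟨T_mem_Gamma1 M, T_mem_Gamma0 ℓ⟩⟩

instance finiteIndexGml : (Gml M ℓ).FiniteIndex := by
  unfold Gml
  infer_instance

theorem Gml_le_Gamma1 : Gml M ℓ ≤ Gamma1 M := inf_le_left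

/-! ### Conjugates of the translations -/

omit [NeZero M] [NeZero ℓ] in
theorem conj_T_zpow_apply (γ : SL(2, ℤ)) (n : ℤ) :
    ((γ * ModularGroup.T ^ n * γ⁻¹ : SL(2, ℤ)) 0 0 = 1 - n * γ 0 0 * γ 1 0) ∧
    ((γ * ModularGroup.T ^ n * γ⁻¹ : SL(2, ℤ)) 1 1 = 1 + n * γ 0 0 * γ 1 0) ∧
    ((γ * ModularGroup.T ^ n * γ⁻¹ : SL(2, ℤ)) 1 0 = - n * γ 1 0 * γ 1 0) := by
  have hdet := Matrix.SpecialLinearGroup.det_coe γ
  rw [Matrix.det_fin_two] at hdet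
  refine ⟨?_, ?_, ?_⟩
  all_goals
    rw [Matrix.SpecialLinearGroup.coe_mul, Matrix.SpecialLinearGroup.coe_mul,
      Matrix.SpecialLinearGroup.coe_inv,
      Matrix.adjugate_fin_two, ModularGroup.coe_T_zpow, Matrix.mul_apply, Fin.sum_univ_two,
      Matrix.mul_apply, Matrix.mul_apply, Fin.sum_univ_two, Fin.sum_univ_two]
    simp only [Matrix.of_apply, Matrix.cons_val', Matrix.cons_val_zero, Matrix.cons_val_one,
      Matrix.empty_val', Matrix.cons_val_fin_one]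
  · linear_combination hdet
  · linear_combination hdet
  · ring

omit [NeZero ℓ] in
/-- `γ T^n γ⁻¹ ∈ Γ₁(M)` for `γ ∈ Γ₀(M)` -/
theorem conj_T_zpow_mem_Gamma1 {γ : SL(2, ℤ)} (hM : (M : ℤ) ∣ γ 1 0) (n : ℤ) :
    γ * ModularGroup.T ^ n * γ⁻¹ ∈ Gamma1 M := by
  obtain ⟨h00, h11, h10⟩ := conj_T_zpow_apply γ n
  have hc : ((γ 1 0 : ℤ) : ZMod M) = 0 := (ZMod.intCast_zmod_eq_zero_iff_dvd _ M).mpr hM
  rw [Gamma1_mem, h00, h11, h10]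
  push_cast
  rw [hc]
  simp

omit [NeZero M] in
/-- `γ T^ℓ γ⁻¹ ∈ Γ₀(ℓ)` for every `γ` -/
theorem conj_T_zpow_mem_Gamma0 (γ : SL(2, ℤ)) :
    γ * ModularGroup.T ^ (ℓ : ℤ) * γ⁻¹ ∈ Gamma0 ℓ := by
  obtain ⟨-, -, h10⟩ := conj_T_zpow_apply γ (ℓ : ℤ)
  rw [Gamma0_mem, h10]
  push_cast
  simp

theorem conj_T_zpow_mem_Gml {γ : SL(2, ℤ)} (hM : (M : ℤ) ∣ γ 1 0) :
    γ * ModularGroup.T ^ (ℓ : ℤ) * γ⁻¹ ∈ Gml M ℓ :=
  ⟨conj_T_zpow_mem_Gamma1 M hM _, conj_T_zpow_mem_Gamma0 ℓ γ⟩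

/-! ### Slashes of forms on a subgroup -/

section Generic

variable {Γ : Subgroup SL(2, ℤ)}

/-- twin of `S24.LaurentCusp.slash_conj_invariant` for an arbitrary subgroup -/
theorem slash_conj_invariantG {k : ℤ} {A : ℍ → ℂ} (hA : IsMF (GG Γ) k A) (γ δ : SL(2, ℤ))
    (hδ : γ * δ * γ⁻¹ ∈ Γ) : (A ∣[k] γ) ∣[k] δ = A ∣[k] γ := by
  obtain ⟨F, rfl⟩ := hA
  have hmem : (Matrix.SpecialLinearGroup.mapGL ℝ (γ * δ * γ⁻¹)) ∈ GG Γ :=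
    Subgroup.mem_map_of_mem _ hδ
  have hinv : ⇑F ∣[k] (γ * δ * γ⁻¹) = ⇑F :=
    SlashInvariantForm.slash_action_eqn F _ hmem
  calc (⇑F ∣[k] γ) ∣[k] δ = ⇑F ∣[k] (γ * δ) := (SlashAction.slash_mul k γ δ ⇑F).symm
    _ = ⇑F ∣[k] ((γ * δ * γ⁻¹) * γ) := by
        congr 1
        group
    _ = (⇑F ∣[k] (γ * δ * γ⁻¹)) ∣[k] γ := SlashAction.slash_mul k _ γ ⇑F
    _ = ⇑F ∣[k] γ := by rw [hinv]

theorem isCuspHol_slashG [Γ.FiniteIndex] {k : ℤ} {A : ℍ → ℂ} (hA : IsMF (GG Γ) k A)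
    (γ : SL(2, ℤ)) {w : ℕ} (hw : γ * ModularGroup.T ^ (w : ℤ) * γ⁻¹ ∈ Γ) :
    IsCuspHol w (A ∣[k] γ) where
  hol := mdiff_slash γ (mdiff_of_isMF hA)
  per := periodic_of_slash_T_zpow (slash_conj_invariantG hA γ _ hw)
  bdd := by
    obtain ⟨F, rfl⟩ := hA
    exact ModularFormClass.bdd_at_infty_slash F γ

theorem isQ_slashG [Γ.FiniteIndex] {k : ℤ} {A : ℍ → ℂ} (hA : IsMF (GG Γ) k A)
    (γ : SL(2, ℤ)) (hw : γ * ModularGroup.T * γ⁻¹ ∈ Γ) : IsQ (A ∣[k] γ) := by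
  have h := isCuspHol_slashG hA γ (w := 1) (by simpa using hw)
  exact ⟨by simpa using h.per, h.hol, h.bdd⟩

end Generic

/-- the translates by `γ ∈ Γ₀(M)` of forms on `Γ₁(M) ⊓ Γ₀(ℓ)` are `ℓ`-periodic -/
theorem slashPG_Gml {γ : SL(2, ℤ)} (hM : (M : ℤ) ∣ γ 1 0) :
    SlashPG (Gml M ℓ) (IsCuspHol ℓ) γ :=
  fun _ _ hA => isCuspHol_slashG hA γ (conj_T_zpow_mem_Gml M ℓ hM)

/-- the translates by `γ ∈ Γ₀(M)` of forms on `Γ₁(M)` are `1`-periodic -/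
theorem isQ_slash_Gamma1 {γ : SL(2, ℤ)} (hM : (M : ℤ) ∣ γ 1 0) {k : ℤ} {A : ℍ → ℂ}
    (hA : IsMF (GG (Gamma1 M)) k A) : IsQ (A ∣[k] γ) :=
  isQ_slashG hA γ (by simpa using conj_T_zpow_mem_Gamma1 M hM 1)

/-! ### The two matrix identities -/

/-- `(a, ℓ b; e, d)` for `g = (a, b; ℓ e, d)` : `diag(ℓ,1) g = conjDiag g diag(ℓ,1)` -/
def conjDiag (g : SL(2, ℤ)) (e : ℤ) (he : g 1 0 = ℓ * e) : SL(2, ℤ) :=
  ⟨!![g 0 0, ℓ * g 0 1; e, g 1 1], by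
    have hdet := Matrix.SpecialLinearGroup.det_coe g
    rw [Matrix.det_fin_two] at hdet
    rw [Matrix.det_fin_two_of]
    linear_combination hdet + (g 0 1) * he⟩

theorem coe_conjDiag (g : SL(2, ℤ)) (e : ℤ) (he : g 1 0 = ℓ * e) :
    (conjDiag ℓ g e he : Matrix (Fin 2) (Fin 2) ℤ) = !![g 0 0, ℓ * g 0 1; e, g 1 1] := rfl

theorem heckeDiagMatrix_mul_mapGL (g : SL(2, ℤ)) (e : ℤ) (he : g 1 0 = ℓ * e) :
    heckeDiagMatrix ℓ * mapGL ℝ g = mapGL ℝ (conjDiag ℓ g e he) * heckeDiagMatrix ℓ := by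
  have hp : ℓ ≠ 0 := NeZero.ne ℓ
  ext i j
  fin_cases i <;> fin_cases j <;>
    simp [coe_conjDiag, hp, Matrix.mul_apply, Fin.sum_univ_two]
  all_goals first
    | (have := congrArg (Int.cast : ℤ → ℝ) he; push_cast at this ⊢; linear_combination this)
    | (have := congrArg (Int.cast : ℤ → ℝ) he; push_cast at this ⊢; linear_combination -this)
    | ring1

/-- `γ₁ = (ℓ a, b; c, e)` for `γ = (a, b; c, ℓ e)` : `diag(ℓ,1) γ = γ₁ diag(1,ℓ)` -/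
def alMatrix (γ : SL(2, ℤ)) (e : ℤ) (he : γ 1 1 = ℓ * e) : SL(2, ℤ) :=
  ⟨!![ℓ * γ 0 0, γ 0 1; γ 1 0, e], by
    have hdet := Matrix.SpecialLinearGroup.det_coe γ
    rw [Matrix.det_fin_two] at hdet
    rw [Matrix.det_fin_two_of]
    linear_combination hdet - (γ 0 0) * he⟩

theorem coe_alMatrix (γ : SL(2, ℤ)) (e : ℤ) (he : γ 1 1 = ℓ * e) :
    (alMatrix ℓ γ e he : Matrix (Fin 2) (Fin 2) ℤ) = !![ℓ * γ 0 0, γ 0 1; γ 1 0, e] := rfl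

theorem alMatrix_apply_zero_zero (γ : SL(2, ℤ)) (e : ℤ) (he : γ 1 1 = ℓ * e) :
    (alMatrix ℓ γ e he) 0 0 = ℓ * γ 0 0 := rfl

theorem alMatrix_apply_one_zero (γ : SL(2, ℤ)) (e : ℤ) (he : γ 1 1 = ℓ * e) :
    (alMatrix ℓ γ e he) 1 0 = γ 1 0 := rfl

theorem heckeDiagMatrix_mul_mapGL_al (γ : SL(2, ℤ)) (e : ℤ) (he : γ 1 1 = ℓ * e) :
    heckeDiagMatrix ℓ * mapGL ℝ γ = mapGL ℝ (alMatrix ℓ γ e he) * heckeMatrix ℓ 0 := by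
  have hp : ℓ ≠ 0 := NeZero.ne ℓ
  ext i j
  fin_cases i <;> fin_cases j <;>
    simp [coe_alMatrix, hp, Matrix.mul_apply, Fin.sum_univ_two]
  all_goals first
    | (have := congrArg (Int.cast : ℤ → ℝ) he; push_cast at this ⊢; linear_combination this)
    | (have := congrArg (Int.cast : ℤ → ℝ) he; push_cast at this ⊢; linear_combination -this)
    | ring1

/-! ### Level raising `Γ₁(M) → Γ₁(M) ⊓ Γ₀(ℓ)` -/

theorem conjDiag_mem_Gamma1 (hℓM : ℓ.Coprime M) {g : SL(2, ℤ)} (hg : g ∈ Gamma1 M) (e : ℤ)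
    (he : g 1 0 = ℓ * e) : conjDiag ℓ g e he ∈ Gamma1 M := by
  rw [Gamma1_mem] at hg ⊢
  obtain ⟨h00, h11, h10⟩ := hg
  refine ⟨h00, h11, ?_⟩
  show ((e : ℤ) : ZMod M) = 0
  rw [he] at h10
  push_cast at h10
  have hu : IsUnit ((ℓ : ℕ) : ZMod M) := by
    have := (ZMod.unitOfCoprime ℓ hℓM).isUnit
    rwa [ZMod.coe_unitOfCoprime] at this
  exact (hu.mul_right_eq_zero).mp h10

/-- `A(ℓ τ)` (up to the constant `ℓ^{k-1}`) is a form on `Γ₁(M) ⊓ Γ₀(ℓ)` -/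
theorem isMF_slash_heckeDiagMatrix (hℓM : ℓ.Coprime M) {k : ℤ} {A : ℍ → ℂ}
    (hA : IsMF (GG (Gamma1 M)) k A) : IsMF (GG (Gml M ℓ)) k (A ∣[k] heckeDiagMatrix ℓ) := by
  obtain ⟨F, rfl⟩ := hA
  have h1 : IsMF (ConjAct.toConjAct (heckeDiagMatrix ℓ)⁻¹ • GG (Gamma1 M)) k
      (⇑F ∣[k] heckeDiagMatrix ℓ) := ⟨ModularForm.translate F (heckeDiagMatrix ℓ), rfl⟩
  refine h1.mono ?_
  rintro x ⟨g, hg, rfl⟩
  rw [Subgroup.mem_pointwise_smul_iff_inv_smul_mem]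
  have hg0 : g ∈ Gamma0 ℓ := hg.2
  rw [Gamma0_mem] at hg0
  obtain ⟨e, he⟩ := (ZMod.intCast_zmod_eq_zero_iff_dvd _ ℓ).mp hg0
  refine ⟨conjDiag ℓ g e he, conjDiag_mem_Gamma1 M ℓ hℓM hg.1 e he, ?_⟩
  have h := heckeDiagMatrix_mul_mapGL ℓ g e he
  rw [← map_inv, inv_inv, ConjAct.smul_def, ConjAct.ofConjAct_toConjAct]
  exact (eq_mul_inv_of_mul_eq h.symm)

/-! ### Representatives at the two levels -/

section Reps

variable {M ℓ}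

omit [NeZero M] [NeZero ℓ] in
theorem isRepOfG_mono {Γ Γ' : Subgroup SL(2, ℤ)} (h : Γ' ≤ Γ) {x : LaurentSeries ℂ} {k : ℤ}
    {A B : ℍ → ℂ} (hr : IsRepOfG Γ x k A B) : IsRepOfG Γ' x k A B :=
  ⟨hr.ha.mono (Subgroup.map_mono h), hr.hb.mono (Subgroup.map_mono h), hr.hb0, hr.eq⟩

omit [NeZero M] [NeZero ℓ] in
theorem slashGL_ne_zero (g : GL (Fin 2) ℝ) {k : ℤ} {B : ℍ → ℂ} (hB : B ≠ 0) : B ∣[k] g ≠ 0 := by
  intro h0
  apply hB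
  have : (B ∣[k] g) ∣[k] g⁻¹ = B := by
    rw [← SlashAction.slash_mul, mul_inv_cancel, SlashAction.slash_one]
  rw [← this, h0, SlashAction.zero_slash]

/-- `x(q^ℓ)` is represented by `(A(ℓ·), B(ℓ·))` at level `Γ₁(M) ⊓ Γ₀(ℓ)` -/
theorem isRepOfG_raise (hℓM : ℓ.Coprime M) {x : LaurentSeries ℂ} {k : ℤ} {A B : ℍ → ℂ}
    (hr : IsRepOfG (Gamma1 M) x k A B) :
    IsRepOfG (Gml M ℓ) (qExpand ℂ ℓ x) k (A ∣[k] heckeDiagMatrix ℓ) (B ∣[k] heckeDiagMatrix ℓ) where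
  ha := isMF_slash_heckeDiagMatrix M ℓ hℓM hr.ha
  hb := isMF_slash_heckeDiagMatrix M ℓ hℓM hr.hb
  hb0 := slashGL_ne_zero _ hr.hb0
  eq := by
    rw [ofPS_qx_slash_heckeDiagMatrix (isQ_of_isMFG hr.ha) k,
      ofPS_qx_slash_heckeDiagMatrix (isQ_of_isMFG hr.hb) k, hr.eq, map_mul]
    ring

end Reps

/-! ### The embeddings -/

/-- **The analytic Atkin-Lehner embedding.**  For `γ = (a b; c d)`, `M ∣ c`, `d = ℓ e`, and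
`γ₁ = (ℓ a, b; c, e)`: a ring homomorphism `ρ` on the field of modular functions of level
`Γ₁(M) ⊓ Γ₀(ℓ)` with `ρ x = ((A∣γ)/(B∣γ))(q^ℓ)` and `ρ (x(q^ℓ)) = (A∣γ₁)/(B∣γ₁)` for every `x`
represented by forms `(A, B)` on `Γ₁(M)`. -/
theorem exists_rhoC (hℓM : ℓ.Coprime M) (γ : SL(2, ℤ)) (hM : (M : ℤ) ∣ γ 1 0) (e : ℤ)
    (he : γ 1 1 = ℓ * e) :
    ∃ ρ : repFieldG (Gml M ℓ) →+* LaurentSeries ℂ,
      (∀ (x : LaurentSeries ℂ) (k : ℤ) (A B : ℍ → ℂ) (hr : IsRepOfG (Gamma1 M) x k A B),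
        ρ ⟨x, k, A, B, isRepOfG_mono (Gml_le_Gamma1 M ℓ) hr⟩ *
            qExpand ℂ ℓ (ofPS (qx (B ∣[k] γ))) = qExpand ℂ ℓ (ofPS (qx (A ∣[k] γ)))) ∧
      (∀ (x : LaurentSeries ℂ) (k : ℤ) (A B : ℍ → ℂ) (hr : IsRepOfG (Gamma1 M) x k A B),
        ρ ⟨qExpand ℂ ℓ x, k, _, _, isRepOfG_raise hℓM hr⟩ *
            ofPS (qx (B ∣[k] alMatrix ℓ γ e he)) = ofPS (qx (A ∣[k] alMatrix ℓ γ e he))) ∧
      (∀ c : ℂ, ρ ⟨HahnSeries.C c, const_mem_repFieldG c⟩ = HahnSeries.C c) := by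
  have hP := slashPG_Gml M ℓ hM
  refine ⟨LmapG (cuspHolHomL ℓ) γ hP, ?_, ?_, ?_⟩
  · intro x k A B hr
    have h := LmapG_spec (T := cuspHolHomL ℓ) hP
      ⟨x, k, A, B, isRepOfG_mono (Gml_le_Gamma1 M ℓ) hr⟩ (isRepOfG_mono (Gml_le_Gamma1 M ℓ) hr)
    rw [cuspHolHomL_T, cuspHolHomL_T, cuspExp_of_isQ (isQ_slash_Gamma1 M hM hr.ha),
      cuspExp_of_isQ (isQ_slash_Gamma1 M hM hr.hb)] at h
    exact h
  · intro x k A B hr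
    have hM1 : (M : ℤ) ∣ (alMatrix ℓ γ e he) 1 0 := by
      rw [alMatrix_apply_one_zero]
      exact hM
    have hsl : ∀ C : ℍ → ℂ, (C ∣[k] heckeDiagMatrix ℓ) ∣[k] γ =
        (C ∣[k] alMatrix ℓ γ e he) ∣[k] heckeMatrix ℓ 0 := by
      intro C
      have h1 : (C ∣[k] heckeDiagMatrix ℓ) ∣[k] γ =
          C ∣[k] (heckeDiagMatrix ℓ * mapGL ℝ γ) := by
        rw [SlashAction.slash_mul]
        rfl
      rw [h1, heckeDiagMatrix_mul_mapGL_al ℓ γ e he, SlashAction.slash_mul]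
      rfl
    have h := LmapG_spec (T := cuspHolHomL ℓ) hP
      ⟨qExpand ℂ ℓ x, k, _, _, isRepOfG_raise hℓM hr⟩ (isRepOfG_raise hℓM hr)
    rw [cuspHolHomL_T, cuspHolHomL_T, hsl A, hsl B,
      cuspExp_slash_heckeMatrix_zero (isQ_slash_Gamma1 M hM1 hr.ha) k,
      cuspExp_slash_heckeMatrix_zero (isQ_slash_Gamma1 M hM1 hr.hb) k] at h
    have hc : (HahnSeries.C ((ℓ : ℂ)⁻¹) : LaurentSeries ℂ) ≠ 0 :=
      (map_ne_zero (HahnSeries.C : ℂ →+* LaurentSeries ℂ)).mpr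
        (inv_ne_zero (by exact_mod_cast NeZero.ne ℓ))
    apply mul_left_cancel₀ hc
    rw [← h]
    ring
  · intro c
    rw [LmapG_const (T := cuspHolHomL ℓ) hP c (const_mem_repFieldG c),
      algebraMap_laurentSeries_eq_single]
    rfl

end Fermat.Agent.S48.B.ES.AtkinLehner

end
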