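import Mathlib
import Fermat.Agent.S48.B.Defs.Model

/-!
# PROJECT D (S48), part B, brick [B-ES]: the seam between the analytic Atkin-Lehner embeddings and
the norm computations (helper8)

`F = ℚ̄(X₁(M))`, `E = ℚ̄(X₁(M; ℓ))` inside `ℚ̄((q))`, `α = alpha1` (inclusion), `β = beta1`
(`V : q ↦ q^ℓ`), `ℓ` prime to `M`, `u_ℓ = ZMod.unitOfCoprime ℓ hℓM`.

* `HasRhoA M ℓ hℓM` : the extra embedding of `E` over `α F` (after `V`):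
  `ρ (α x) = V (V x)`, `ρ (β x) = V (δ x)`, `δ = ⟨ℓ⟩^*` (`h_a ↦ h_{ℓ a}`).
  Moduli: the cusp `(Tate(q^{ℓ² M}), q^{ℓ²}, ⟨q^{ℓ M}⟩)`.
  Consumer: `N_{E/αF}(β u)(q^ℓ) = u(q^{ℓ²}) ∏_b (δ u)(ζ^b q)`, the norm behind `heckeStar1 = α_* β^*`.
* `HasRhoB M ℓ hℓM` : the extra embedding of `E` over `β F`:
  `ρ (β x) = V x`, `ρ (α x) = V (V (δ' x))`, `δ' = ⟨ℓ⁻¹⟩^*` (main's `S37.ES.NormAlpha.HasRho`, twisted).
  Consumer: `N_{E/βF}(α u)(q^ℓ) = (δ' u)(q^{ℓ²}) ∏_b u(ζ^b q)`, the norm behind `hecke1 = β_* α^*`.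

Producer of both: `ES/Descent.lean` (analytic: `Lmap` of the `q^{1/ℓ}`-expansion at a translate).
-/

set_option autoImplicit false

noncomputable section

namespace Fermat.Agent.S48.B.ES.RhoSeam

open ModularCurve HahnSeries IntermediateField Fermat.Agent.S48.B.Defs.Model

local notation "Kb" => AlgebraicClosure ℚ

variable (M ℓ : ℕ) [NeZero M] [NeZero ℓ] (hℓM : ℓ.Coprime M)

/-- the extra embedding of `ℚ̄(X₁(M; ℓ))` over `α ℚ̄(X₁(M))`, normalised by `V` -/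
def HasRhoA : Prop :=
  ∃ (ρ : ↥(laurentBaseChange Kb (F1p M ℓ)) →+* LaurentSeries Kb)
    (δ : ↥(laurentBaseChange Kb (F1 M)) ≃ₐ[Kb] ↥(laurentBaseChange Kb (F1 M))),
    IsDiamondAut M Kb (ZMod.unitOfCoprime ℓ hℓM) δ ∧
    (∀ x : ↥(laurentBaseChange Kb (F1 M)),
      ρ (alpha1 M ℓ Kb x) = qExpand Kb ℓ (qExpand Kb ℓ (x : LaurentSeries Kb))) ∧
    (∀ x : ↥(laurentBaseChange Kb (F1 M)),
      ρ (beta1 M ℓ Kb x) = qExpand Kb ℓ ((δ x : ↥(laurentBaseChange Kb (F1 M))) : LaurentSeries Kb))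

/-- the extra embedding of `ℚ̄(X₁(M; ℓ))` over `β ℚ̄(X₁(M))` -/
def HasRhoB : Prop :=
  ∃ (ρ : ↥(laurentBaseChange Kb (F1p M ℓ)) →+* LaurentSeries Kb)
    (δ : ↥(laurentBaseChange Kb (F1 M)) ≃ₐ[Kb] ↥(laurentBaseChange Kb (F1 M))),
    IsDiamondAut M Kb (ZMod.unitOfCoprime ℓ hℓM)⁻¹ δ ∧
    (∀ x : ↥(laurentBaseChange Kb (F1 M)),
      ρ (beta1 M ℓ Kb x) = qExpand Kb ℓ (x : LaurentSeries Kb)) ∧
    (∀ x : ↥(laurentBaseChange Kb (F1 M)),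
      ρ (alpha1 M ℓ Kb x) =
        qExpand Kb ℓ (qExpand Kb ℓ ((δ x : ↥(laurentBaseChange Kb (F1 M))) : LaurentSeries Kb)))

end Fermat.Agent.S48.B.ES.RhoSeam

end
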