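import Mathlib
import Fermat.Agent.S18.B.Basic
import Fermat.Agent.S37.ES.NormAlpha
import Fermat.Agent.S48.B.ES.RhoSeam
import Fermat.Agent.S48.B.ES.DegreeBeta1

/-!
# PROJECT D (S48), part B, brick [B-ES]: the two norms behind `T_ℓ` and `T_ℓ^*` on `X₁(M)`, in
characteristic zero (the `Γ₁(M)` twin of main's `S37/ES/NormAlpha`, helper10)

`F = ℚ̄(X₁(M))`, `E = ℚ̄(X₁(M; ℓ))` inside `Ω = ℚ̄((q))`, `α = alpha1` (inclusion), `β = beta1`
(`V : q ↦ q^ℓ`), `ℓ` a prime, `ζ` a primitive `ℓ`-th root of unity.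

* `normAlpha1 M ℓ u = N_{E/βF} (α u)`, `normBeta1 M ℓ u = N_{E/αF} (β u)`;
* (B) `qExpand_normAlpha1_of` / `qExpand_normAlpha1` : from `HasRhoB` and `[E : βF] = ℓ + 1`,
  `V (N_{E/βF} (α u)) = V (V (δ u)) * ∏_{b < ℓ} u(ζ^b q)`, `δ = ⟨ℓ⁻¹⟩^*`;
* (A) `qExpand_normBeta1_of` / `qExpand_normBeta1` : from `HasRhoA` and `[E : αF] = ℓ + 1`,
  `V (N_{E/αF} (β u)) = V (V u) * ∏_{b < ℓ} (δ u)(ζ^b q)`, `δ = ⟨ℓ⟩^*`.

The `_of` forms take the embedding `ρ` and the automorphism `δ` as variables (only `δ J = J` is used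
of `δ`); the seam forms produce `δ` together with its `IsDiamondAut` certificate.
-/

set_option autoImplicit false
set_option linter.unusedSectionVars false
set_option linter.style.haveILetI false

noncomputable section

namespace Fermat.Agent.S48.B.ES.NormAlpha1

open ModularCurve IntermediateField AlgebraicCurve HahnSeries
open Fermat.Agent.S28.LaurentRescale Fermat.Agent.S28.StepDeg
open Fermat.Agent.S48.B.Defs.Model Fermat.Agent.S48.B.ES.RhoSeam Fermat.Agent.S48.B.ES.DegreeBeta1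

local notation "Kb" => AlgebraicClosure ℚ

variable (M ℓ : ℕ) [NeZero M] [NeZero ℓ]

/-! ### The function `J` and the two norms -/

/-- `J = j(q)` as an element of `ℚ̄(X₁(M))` -/
def jF : ↥(F1Bar M) := ⟨jqModC Kb, kJ_le_F1Bar M jqModC_mem_kJ⟩

@[simp]
theorem coe_jF : ((jF M : ↥(F1Bar M)) : LaurentSeries Kb) = jqModC Kb := rfl

variable {M} in
/-- a diamond automorphism fixes `J` -/
theorem isDiamondAut_jF {d : (ZMod M)ˣ} {δ : ↥(F1Bar M) ≃ₐ[Kb] ↥(F1Bar M)}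
    (hδ : IsDiamondAut M Kb d δ) : δ (jF M) = jF M := by
  refine hδ.1 1 ⟨one_ne_zero⟩ (one_dvd M) (jF M) ?_
  rw [qExpand_one_apply, Fermat.Agent.S18.B.Basic.coeffEmb_jq]
  rfl

/-- `N_{E/βF} (α u)` for `u ∈ F = ℚ̄(X₁(M))` : the norm behind `T_ℓ = β_* α^*` -/
def normAlpha1 (u : ↥(F1Bar M)) : ↥(F1Bar M) :=
  letI := algebraAlong (beta1 M ℓ Kb)
  Algebra.norm ↥(F1Bar M) (alpha1 M ℓ Kb u)

/-- `N_{E/αF} (β u)` for `u ∈ F = ℚ̄(X₁(M))` : the norm behind `T_ℓ^* = α_* β^*` -/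
def normBeta1 (u : ↥(F1Bar M)) : ↥(F1Bar M) :=
  letI := algebraAlong (alpha1 M ℓ Kb)
  Algebra.norm ↥(F1Bar M) (beta1 M ℓ Kb u)

theorem normAlpha1_def (u : ↥(F1Bar M)) :
    letI := algebraAlong (beta1 M ℓ Kb)
    normAlpha1 M ℓ u = Algebra.norm ↥(F1Bar M) (alpha1 M ℓ Kb u) := rfl

theorem normBeta1_def (u : ↥(F1Bar M)) :
    letI := algebraAlong (alpha1 M ℓ Kb)
    normBeta1 M ℓ u = Algebra.norm ↥(F1Bar M) (beta1 M ℓ Kb u) := rfl

theorem normAlpha1_mul (u v : ↥(F1Bar M)) :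
    normAlpha1 M ℓ (u * v) = normAlpha1 M ℓ u * normAlpha1 M ℓ v := by
  unfold normAlpha1
  rw [map_mul, map_mul]

theorem normBeta1_mul (u v : ↥(F1Bar M)) :
    normBeta1 M ℓ (u * v) = normBeta1 M ℓ u * normBeta1 M ℓ v := by
  unfold normBeta1
  rw [map_mul, map_mul]

theorem normAlpha1_one : normAlpha1 M ℓ 1 = 1 := by
  unfold normAlpha1
  rw [map_one, map_one]

theorem normBeta1_one : normBeta1 M ℓ 1 = 1 := by
  unfold normBeta1
  rw [map_one, map_one]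

variable {M ℓ}

/-! ### (B) the norm along `β` of `α u` -/

/-- The family of `ℓ + 1` embeddings of `E` over `β F`. -/
def embB (ρ : ↥(F1pBar M ℓ) →+* LaurentSeries Kb) (ζ : Kbˣ) :
    Option (Fin ℓ) → (↥(F1pBar M ℓ) →+* LaurentSeries Kb)
  | none => ρ
  | some b => ((rescaleU (ζ ^ (b : ℕ)) : LaurentSeries Kb ≃+* LaurentSeries Kb) :
      LaurentSeries Kb →+* LaurentSeries Kb).comp (F1pBar M ℓ).val

theorem embB_none (ρ : ↥(F1pBar M ℓ) →+* LaurentSeries Kb) (ζ : Kbˣ) (y : ↥(F1pBar M ℓ)) :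
    embB ρ ζ none y = ρ y := rfl

theorem embB_some (ρ : ↥(F1pBar M ℓ) →+* LaurentSeries Kb) (ζ : Kbˣ) (b : Fin ℓ)
    (y : ↥(F1pBar M ℓ)) :
    embB ρ ζ (some b) y = rescaleU (ζ ^ (b : ℕ)) (y : LaurentSeries Kb) := rfl

/-- **The norm along `β` of `α u`** (characteristic zero, exact), with `ρ` and `δ` as variables. -/
theorem qExpand_normAlpha1_of (hℓ : ℓ.Prime)
    (hdeg : finrankAlong Kb (beta1 M ℓ Kb) = ℓ + 1)
    (ρ : ↥(F1pBar M ℓ) →+* LaurentSeries Kb) (δ : ↥(F1Bar M) → ↥(F1Bar M))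
    (hδj : δ (jF M) = jF M)
    (hρβ : ∀ x : ↥(F1Bar M), ρ (beta1 M ℓ Kb x) = qExpand Kb ℓ (x : LaurentSeries Kb))
    (hρα : ∀ x : ↥(F1Bar M), ρ (alpha1 M ℓ Kb x) =
      qExpand Kb ℓ (qExpand Kb ℓ ((δ x : ↥(F1Bar M)) : LaurentSeries Kb)))
    {ζ : Kbˣ} (hζ : IsPrimitiveRoot ζ ℓ) (u : ↥(F1Bar M)) :
    qExpand Kb ℓ ((normAlpha1 M ℓ u : ↥(F1Bar M)) : LaurentSeries Kb) =
      qExpand Kb ℓ (qExpand Kb ℓ ((δ u : ↥(F1Bar M)) : LaurentSeries Kb)) *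
        ∏ b ∈ Finset.range ℓ, rescaleU (ζ ^ b) (u : LaurentSeries Kb) := by
  classical
  letI := algebraAlong (beta1 M ℓ Kb)
  have hζℓ : ζ ^ ℓ = 1 := hζ.pow_eq_one
  -- finiteness, separability, degree
  have hdeg' : Module.finrank ↥(F1Bar M) ↥(F1pBar M ℓ) = ℓ + 1 := hdeg
  haveI : Module.Finite ↥(F1Bar M) ↥(F1pBar M ℓ) :=
    Module.finite_of_finrank_pos (by rw [hdeg']; exact Nat.succ_pos ℓ)
  haveI : FiniteDimensional ↥(F1Bar M) ↥(F1pBar M ℓ) := this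
  haveI : Algebra.IsSeparable ↥(F1Bar M) ↥(F1pBar M ℓ) :=
    Algebra.IsAlgebraic.isSeparable_of_perfectField
  have hcard : Fintype.card (Option (Fin ℓ)) = Module.finrank ↥(F1Bar M) ↥(F1pBar M ℓ) := by
    rw [hdeg', Fintype.card_option, Fintype.card_fin]
  -- the base homomorphism
  set L0 : ↥(F1Bar M) →+* LaurentSeries Kb := (qExpand Kb ℓ).comp (F1Bar M).val with hL0
  have halg : ∀ y : ↥(F1Bar M),
      algebraMap ↥(F1Bar M) ↥(F1pBar M ℓ) y = beta1 M ℓ Kb y := fun _ => rfl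
  have hbase : ∀ (q : Option (Fin ℓ)) (y : ↥(F1Bar M)),
      embB ρ ζ q (algebraMap ↥(F1Bar M) ↥(F1pBar M ℓ) y) = L0 y := by
    intro q y
    rw [halg]
    cases q with
    | none =>
      rw [embB_none, hρβ]
      rfl
    | some b =>
      rw [embB_some, coe_beta1, rescaleU_qExpand, ← pow_mul, mul_comm, pow_mul, hζℓ, one_pow,
        rescaleU_one]
      rfl
  -- the values at `α J`
  have hval_none : embB ρ ζ none (alpha1 M ℓ Kb (jF M)) =
      qExpand Kb ℓ (qExpand Kb ℓ (jqModC Kb)) := by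
    rw [embB_none, hρα, hδj, coe_jF]
  have hval_some : ∀ b : Fin ℓ, embB ρ ζ (some b) (alpha1 M ℓ Kb (jF M)) =
      rescaleU (ζ ^ (b : ℕ)) (jqModC Kb) := by
    intro b
    rw [embB_some, coe_alpha1, coe_jF]
  have hinj : Function.Injective (embB ρ ζ) := by
    intro a b hab
    have h1 := congrArg (fun f : ↥(F1pBar M ℓ) →+* LaurentSeries Kb =>
      f (alpha1 M ℓ Kb (jF M))) hab
    beta_reduce at h1
    have hℓ2 : (2 : ℤ) ≤ ℓ := by exact_mod_cast hℓ.two_le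
    have hord_some : ∀ b : Fin ℓ, (rescaleU (ζ ^ (b : ℕ)) (jqModC Kb)).order = -1 :=
      fun b => order_rescaleU_jqModC _
    have hord_none : (qExpand Kb ℓ (qExpand Kb ℓ (jqModC Kb))).order = -((ℓ : ℤ) * (ℓ : ℤ)) := by
      rw [order_qExpand, order_qExpand, order_jqModC]
      ring
    have hne : ∀ b : Fin ℓ, qExpand Kb ℓ (qExpand Kb ℓ (jqModC Kb)) ≠
        rescaleU (ζ ^ (b : ℕ)) (jqModC Kb) := by
      intro b h
      have := congrArg HahnSeries.order h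
      rw [hord_none, hord_some] at this
      nlinarith
    cases a with
    | none =>
      cases b with
      | none => rfl
      | some b =>
        rw [hval_none, hval_some] at h1
        exact absurd h1 (hne b)
    | some a =>
      cases b with
      | none =>
        rw [hval_none, hval_some] at h1
        exact absurd h1.symm (hne a)
      | some b =>
        rw [hval_some, hval_some] at h1
        have h3 : ζ ^ (a : ℕ) = ζ ^ (b : ℕ) :=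
          eq_of_rescaleU_eq (by rw [coeff_jqModC_neg_one Kb]; exact one_ne_zero) h1
        have h4 : (a : ℕ) = (b : ℕ) := hζ.pow_inj a.2 b.2 h3
        exact congrArg some (Fin.ext h4)
  have hnorm := Fermat.Agent.S24.AllPlaces.map_norm_eq_prod (embB ρ ζ) hinj hcard L0 hbase
    (alpha1 M ℓ Kb u)
  rw [Fintype.prod_option, embB_none, hρα] at hnorm
  have hsome : ∀ b : Fin ℓ, embB ρ ζ (some b) (alpha1 M ℓ Kb u) =
      rescaleU (ζ ^ (b : ℕ)) (u : LaurentSeries Kb) := by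
    intro b
    rw [embB_some, coe_alpha1]
  rw [Finset.prod_congr rfl (fun b _ => hsome b),
    Fin.prod_univ_eq_prod_range (fun b => rescaleU (ζ ^ b) (u : LaurentSeries Kb)) ℓ] at hnorm
  exact hnorm

/-- **The norm along `β` of `α u`** from the seam `HasRhoB` : `δ = ⟨ℓ⁻¹⟩^*`. -/
theorem qExpand_normAlpha1 (hℓ : ℓ.Prime) (hℓM : ℓ.Coprime M)
    (hdeg : finrankAlong Kb (beta1 M ℓ Kb) = ℓ + 1) (hρ : HasRhoB M ℓ hℓM) :
    ∃ δ : ↥(F1Bar M) ≃ₐ[Kb] ↥(F1Bar M),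
      IsDiamondAut M Kb (ZMod.unitOfCoprime ℓ hℓM)⁻¹ δ ∧
      ∀ (ζ : Kbˣ), IsPrimitiveRoot ζ ℓ → ∀ u : ↥(F1Bar M),
        qExpand Kb ℓ ((normAlpha1 M ℓ u : ↥(F1Bar M)) : LaurentSeries Kb) =
          qExpand Kb ℓ (qExpand Kb ℓ ((δ u : ↥(F1Bar M)) : LaurentSeries Kb)) *
            ∏ b ∈ Finset.range ℓ, rescaleU (ζ ^ b) (u : LaurentSeries Kb) := by
  obtain ⟨ρ, δ, hδ, hρβ, hρα⟩ := hρ
  exact ⟨δ, hδ, fun ζ hζ u =>
    qExpand_normAlpha1_of hℓ hdeg ρ δ (isDiamondAut_jF hδ) hρβ hρα hζ u⟩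

/-! ### (A) the norm along `α` of `β u` -/

/-- The family of `ℓ + 1` embeddings of `E` over `α F`. -/
def embA (ρ : ↥(F1pBar M ℓ) →+* LaurentSeries Kb) (ξ : Kbˣ) :
    Option (Fin ℓ) → (↥(F1pBar M ℓ) →+* LaurentSeries Kb)
  | none => ((qExpand Kb ℓ).comp (qExpand Kb ℓ)).comp (F1pBar M ℓ).val
  | some b => ((rescaleU (ξ ^ (b : ℕ)) : LaurentSeries Kb ≃+* LaurentSeries Kb) :
      LaurentSeries Kb →+* LaurentSeries Kb).comp ρ

theorem embA_none (ρ : ↥(F1pBar M ℓ) →+* LaurentSeries Kb) (ξ : Kbˣ) (y : ↥(F1pBar M ℓ)) :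
    embA ρ ξ none y = qExpand Kb ℓ (qExpand Kb ℓ (y : LaurentSeries Kb)) := rfl

theorem embA_some (ρ : ↥(F1pBar M ℓ) →+* LaurentSeries Kb) (ξ : Kbˣ) (b : Fin ℓ)
    (y : ↥(F1pBar M ℓ)) :
    embA ρ ξ (some b) y = rescaleU (ξ ^ (b : ℕ)) (ρ y) := rfl

/-- **The norm along `α` of `β u`** (characteristic zero, exact), with `ρ` and `δ` as variables. -/
theorem qExpand_normBeta1_of (hℓ : ℓ.Prime)
    (hdeg : finrankAlong Kb (alpha1 M ℓ Kb) = ℓ + 1)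
    (ρ : ↥(F1pBar M ℓ) →+* LaurentSeries Kb) (δ : ↥(F1Bar M) → ↥(F1Bar M))
    (hδj : δ (jF M) = jF M)
    (hρα : ∀ x : ↥(F1Bar M), ρ (alpha1 M ℓ Kb x) =
      qExpand Kb ℓ (qExpand Kb ℓ (x : LaurentSeries Kb)))
    (hρβ : ∀ x : ↥(F1Bar M), ρ (beta1 M ℓ Kb x) =
      qExpand Kb ℓ ((δ x : ↥(F1Bar M)) : LaurentSeries Kb))
    {ζ : Kbˣ} (hζ : IsPrimitiveRoot ζ ℓ) (u : ↥(F1Bar M)) :
    qExpand Kb ℓ ((normBeta1 M ℓ u : ↥(F1Bar M)) : LaurentSeries Kb) =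
      qExpand Kb ℓ (qExpand Kb ℓ (u : LaurentSeries Kb)) *
        ∏ b ∈ Finset.range ℓ, rescaleU (ζ ^ b) ((δ u : ↥(F1Bar M)) : LaurentSeries Kb) := by
  classical
  letI := algebraAlong (alpha1 M ℓ Kb)
  -- a root `ξ` of `ζ`
  obtain ⟨ξ0, hξ0⟩ := IsAlgClosed.exists_pow_nat_eq (ζ : Kb) hℓ.pos
  have hξ0ne : ξ0 ≠ 0 := by
    rintro rfl
    rw [zero_pow hℓ.ne_zero] at hξ0
    exact ζ.ne_zero hξ0.symm
  set ξ : Kbˣ := Units.mk0 ξ0 hξ0ne with hξdef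
  have hξ : ξ ^ ℓ = ζ := Units.ext (by rw [Units.val_pow_eq_pow_val]; exact hξ0)
  have hζℓ : ζ ^ ℓ = 1 := hζ.pow_eq_one
  have hξ2 : (ξ ^ ℓ) ^ ℓ = 1 := by rw [hξ, hζℓ]
  -- finiteness, separability, degree
  have hdeg' : Module.finrank ↥(F1Bar M) ↥(F1pBar M ℓ) = ℓ + 1 := hdeg
  haveI : Module.Finite ↥(F1Bar M) ↥(F1pBar M ℓ) :=
    Module.finite_of_finrank_pos (by rw [hdeg']; exact Nat.succ_pos ℓ)
  haveI : FiniteDimensional ↥(F1Bar M) ↥(F1pBar M ℓ) := this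
  haveI : Algebra.IsSeparable ↥(F1Bar M) ↥(F1pBar M ℓ) :=
    Algebra.IsAlgebraic.isSeparable_of_perfectField
  have hcard : Fintype.card (Option (Fin ℓ)) = Module.finrank ↥(F1Bar M) ↥(F1pBar M ℓ) := by
    rw [hdeg', Fintype.card_option, Fintype.card_fin]
  -- the base homomorphism
  set L0 : ↥(F1Bar M) →+* LaurentSeries Kb :=
    ((qExpand Kb ℓ).comp (qExpand Kb ℓ)).comp (F1Bar M).val with hL0
  have halg : ∀ y : ↥(F1Bar M),
      algebraMap ↥(F1Bar M) ↥(F1pBar M ℓ) y = alpha1 M ℓ Kb y := fun _ => rfl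
  have hbase : ∀ (q : Option (Fin ℓ)) (y : ↥(F1Bar M)),
      embA ρ ξ q (algebraMap ↥(F1Bar M) ↥(F1pBar M ℓ) y) = L0 y := by
    intro q y
    rw [halg]
    cases q with
    | none =>
      rw [embA_none, coe_alpha1]
      rfl
    | some b =>
      rw [embA_some, hρα, Fermat.Agent.S37.ES.NormAlpha.rescaleU_pow_qExpand_qExpand ℓ hξ2]
      rfl
  -- the values at `β J`
  have hval_none : embA ρ ξ none (beta1 M ℓ Kb (jF M)) =
      qExpand Kb ℓ (qExpand Kb ℓ (qExpand Kb ℓ (jqModC Kb))) := by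
    rw [embA_none, coe_beta1, coe_jF]
  have hval_some : ∀ b : Fin ℓ, embA ρ ξ (some b) (beta1 M ℓ Kb (jF M)) =
      qExpand Kb ℓ (rescaleU (ζ ^ (b : ℕ)) (jqModC Kb)) := by
    intro b
    rw [embA_some, hρβ, hδj, Fermat.Agent.S37.ES.NormAlpha.rescaleU_pow_qExpand ℓ hξ, coe_jF]
  have hinj : Function.Injective (embA ρ ξ) := by
    intro a b hab
    have h1 := congrArg (fun f : ↥(F1pBar M ℓ) →+* LaurentSeries Kb =>
      f (beta1 M ℓ Kb (jF M))) hab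
    beta_reduce at h1
    have hℓ2 : (2 : ℤ) ≤ ℓ := by exact_mod_cast hℓ.two_le
    have hord_some : ∀ b : Fin ℓ,
        (qExpand Kb ℓ (rescaleU (ζ ^ (b : ℕ)) (jqModC Kb))).order = -(ℓ : ℤ) := by
      intro b
      rw [order_qExpand, order_rescaleU_jqModC]
      ring
    have hord_none :
        (qExpand Kb ℓ (qExpand Kb ℓ (qExpand Kb ℓ (jqModC Kb)))).order
          = -((ℓ : ℤ) * ((ℓ : ℤ) * (ℓ : ℤ))) := by
      rw [order_qExpand, order_qExpand, order_qExpand, order_jqModC]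
      ring
    have hne : ∀ b : Fin ℓ, qExpand Kb ℓ (qExpand Kb ℓ (qExpand Kb ℓ (jqModC Kb))) ≠
        qExpand Kb ℓ (rescaleU (ζ ^ (b : ℕ)) (jqModC Kb)) := by
      intro b h
      have := congrArg HahnSeries.order h
      rw [hord_none, hord_some] at this
      nlinarith
    cases a with
    | none =>
      cases b with
      | none => rfl
      | some b =>
        rw [hval_none, hval_some] at h1
        exact absurd h1 (hne b)
    | some a =>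
      cases b with
      | none =>
        rw [hval_none, hval_some] at h1
        exact absurd h1.symm (hne a)
      | some b =>
        rw [hval_some, hval_some] at h1
        have h2 := qExpand_injective ℓ h1
        have h3 : ζ ^ (a : ℕ) = ζ ^ (b : ℕ) :=
          eq_of_rescaleU_eq (by rw [coeff_jqModC_neg_one Kb]; exact one_ne_zero) h2
        have h4 : (a : ℕ) = (b : ℕ) := hζ.pow_inj a.2 b.2 h3
        exact congrArg some (Fin.ext h4)
  have hnorm := Fermat.Agent.S24.AllPlaces.map_norm_eq_prod (embA ρ ξ) hinj hcard L0 hbase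
    (beta1 M ℓ Kb u)
  rw [Fintype.prod_option, embA_none, coe_beta1] at hnorm
  have hsome : ∀ b : Fin ℓ, embA ρ ξ (some b) (beta1 M ℓ Kb u) =
      qExpand Kb ℓ (rescaleU (ζ ^ (b : ℕ)) ((δ u : ↥(F1Bar M)) : LaurentSeries Kb)) := by
    intro b
    rw [embA_some, hρβ, Fermat.Agent.S37.ES.NormAlpha.rescaleU_pow_qExpand ℓ hξ]
  rw [Finset.prod_congr rfl (fun b _ => hsome b),
    Fin.prod_univ_eq_prod_range
      (fun b => qExpand Kb ℓ (rescaleU (ζ ^ b) ((δ u : ↥(F1Bar M)) : LaurentSeries Kb))) ℓ,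
    ← map_prod, ← map_mul] at hnorm
  exact qExpand_injective ℓ hnorm

/-- **The norm along `α` of `β u`** from the seam `HasRhoA` : `δ = ⟨ℓ⟩^*`. -/
theorem qExpand_normBeta1 (hℓ : ℓ.Prime) (hℓM : ℓ.Coprime M)
    (hdeg : finrankAlong Kb (alpha1 M ℓ Kb) = ℓ + 1) (hρ : HasRhoA M ℓ hℓM) :
    ∃ δ : ↥(F1Bar M) ≃ₐ[Kb] ↥(F1Bar M),
      IsDiamondAut M Kb (ZMod.unitOfCoprime ℓ hℓM) δ ∧
      ∀ (ζ : Kbˣ), IsPrimitiveRoot ζ ℓ → ∀ u : ↥(F1Bar M),
        qExpand Kb ℓ ((normBeta1 M ℓ u : ↥(F1Bar M)) : LaurentSeries Kb) =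
          qExpand Kb ℓ (qExpand Kb ℓ (u : LaurentSeries Kb)) *
            ∏ b ∈ Finset.range ℓ,
              rescaleU (ζ ^ b) ((δ u : ↥(F1Bar M)) : LaurentSeries Kb) := by
  obtain ⟨ρ, δ, hδ, hρα, hρβ⟩ := hρ
  exact ⟨δ, hδ, fun ζ hζ u =>
    qExpand_normBeta1_of hℓ hdeg ρ δ (isDiamondAut_jF hδ) hρα hρβ hζ u⟩

end Fermat.Agent.S48.B.ES.NormAlpha1

end
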