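import Mathlib
import Fermat.Agent.S48.B.B1.Seams
import Fermat.Agent.S48.B.B1.Seams2
import Fermat.Agent.S48.B.ES.AtkinLehner
import Fermat.Agent.S48.B.ES.DiamondUnique
import Fermat.Agent.S48.B.ES.RhoSeam

/-!
# PROJECT D (S48), part B, brick [B-ES] (helper8): the extra embeddings `HasRhoA`, `HasRhoB` from
the analytic Atkin-Lehner embeddings

Inputs (seams of block B1, helper7): `Seams.RepLe M` (every element of `ℂ·F1 M` is a quotient of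
forms on `Γ₁(M)`), `Seams2.DiamondAn M` (the analytic diamond automorphisms) and
`Seams.DiamondExists M` (used over `ℚ̄`).

* over `ℂ`: `ℂ·F1p M ℓ ≤ repFieldG (Γ₁(M) ⊓ Γ₀(ℓ))`, and `AtkinLehner.exists_rhoC` at
  `γ = (1, n; M, ℓ s)` resp. `γ = (a, m; M, ℓ)` gives the embeddings over `ℂ`;
* descent to `ℚ̄` along `ι : ℚ̄ →+* ℂ`: the values on the generators have coefficients in `ι ℚ̄`.
-/

set_option autoImplicit false
set_option linter.unusedSectionVars false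

noncomputable section

namespace Fermat.Agent.S48.B.ES.Descent

open UpperHalfPlane hiding I
open CongruenceSubgroup ModularForm ModularCurve Matrix.SpecialLinearGroup IntermediateField
open Fermat.Agent.S20 Fermat.Agent.S23.QRing
open Fermat.Agent.S24.RepHom (slash_ne_zero ofPS ofPS_injective)
open Fermat.Agent.S48.B.Defs.Model Fermat.Agent.S48.B.B1
open Fermat.Agent.S48.B.ES.RepG Fermat.Agent.S48.B.ES.AtkinLehner
open Fermat.Agent.S48.B.ES.DiamondUnique Fermat.Agent.S48.B.ES.RhoSeam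
open scoped ModularForm Manifold MatrixGroups

local notation "Kb" => AlgebraicClosure ℚ

variable (M ℓ : ℕ) [NeZero M] [NeZero ℓ]

/-! ### `ℂ·F1p M ℓ` consists of modular functions of level `Γ₁(M) ⊓ Γ₀(ℓ)` -/

theorem isRepOfG_of_isRepOf1 {x : LaurentSeries ℂ} {k : ℤ} {A B : ℍ → ℂ}
    (h : Seams.IsRepOf1 M x k A B) : IsRepOfG (Gamma1 M) x k A B :=
  ⟨h.ha, h.hb, h.hb0, h.eq⟩

theorem isRepOf1_of_isRepOfG {x : LaurentSeries ℂ} {k : ℤ} {A B : ℍ → ℂ}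
    (h : IsRepOfG (Gamma1 M) x k A B) : Seams.IsRepOf1 M x k A B :=
  ⟨h.ha, h.hb, h.hb0, h.eq⟩

variable {M ℓ}

theorem mem_repFieldG_of_mem (hle : Seams.RepLe M) {x : LaurentSeries ℂ}
    (hx : x ∈ laurentBaseChange ℂ (F1 M)) : x ∈ repFieldG (Gml M ℓ) := by
  obtain ⟨k, A, B, hr⟩ := hle hx
  exact ⟨k, A, B, isRepOfG_mono (Gml_le_Gamma1 M ℓ) (isRepOfG_of_isRepOf1 M hr)⟩

theorem qExpand_mem_repFieldG (hℓM : ℓ.Coprime M) (hle : Seams.RepLe M) {x : LaurentSeries ℂ}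
    (hx : x ∈ laurentBaseChange ℂ (F1 M)) : qExpand ℂ ℓ x ∈ repFieldG (Gml M ℓ) := by
  obtain ⟨k, A, B, hr⟩ := hle hx
  exact ⟨k, _, _, isRepOfG_raise hℓM (isRepOfG_of_isRepOf1 M hr)⟩

theorem algebraMap_mem_repFieldG (c : ℂ) :
    algebraMap ℂ (LaurentSeries ℂ) c ∈ repFieldG (Gml M ℓ) := by
  rw [algebraMap_laurentSeries_eq_single]
  exact const_mem_repFieldG c

theorem F1p_le_comap (hℓM : ℓ.Coprime M) (hle : Seams.RepLe M) :
    (F1p M ℓ).toSubfield ≤ (repFieldG (Gml M ℓ)).comap (coeffEmb ℂ) := by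
  show (F1 M ⊔ (F1 M).map (qExpandₐ ℓ)).toSubfield ≤ _
  rw [sup_toSubfield]
  refine sup_le ?_ ?_
  · intro y hy
    exact mem_repFieldG_of_mem hle (coeffEmb_mem_laurentBaseChange ℂ hy)
  · rintro _ ⟨y, hy, rfl⟩
    show coeffEmb ℂ (qExpand ℚ ℓ y) ∈ repFieldG (Gml M ℓ)
    rw [coeffEmb_qExpand]
    exact qExpand_mem_repFieldG hℓM hle (coeffEmb_mem_laurentBaseChange ℂ hy)

theorem baseChange_F1p_le (hℓM : ℓ.Coprime M) (hle : Seams.RepLe M) :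
    (laurentBaseChange ℂ (F1p M ℓ)).toSubfield ≤ repFieldG (Gml M ℓ) := by
  unfold laurentBaseChange
  refine adjoin_le_subfield ℂ _ ?_ ?_
  · rintro _ ⟨c, rfl⟩
    exact algebraMap_mem_repFieldG c
  · rintro _ ⟨y, hy, rfl⟩
    exact F1p_le_comap hℓM hle hy

/-- the inclusion of `ℂ·F1p M ℓ` into the field of modular functions of level `Γ₁(M) ⊓ Γ₀(ℓ)` -/
def inclE (hℓM : ℓ.Coprime M) (hle : Seams.RepLe M) :
    laurentBaseChange ℂ (F1p M ℓ) →+* repFieldG (Gml M ℓ) :=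
  Subfield.inclusion (baseChange_F1p_le hℓM hle)

theorem coe_inclE (hℓM : ℓ.Coprime M) (hle : Seams.RepLe M)
    (x : laurentBaseChange ℂ (F1p M ℓ)) :
    ((inclE hℓM hle x : repFieldG (Gml M ℓ)) : LaurentSeries ℂ) = (x : LaurentSeries ℂ) := rfl

/-! ### The values of the Atkin-Lehner embedding on `ℂ·F1 M` and on its `V`-translate -/

theorem ofPS_qx_slash_ne_zero {γ : SL(2, ℤ)} (hM : (M : ℤ) ∣ γ 1 0) {k : ℤ} {B : ℍ → ℂ}
    (hB : IsMF (GG (Gamma1 M)) k B) (hB0 : B ≠ 0) : ofPS (qx (B ∣[k] γ)) ≠ 0 := by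
  intro h0
  have h1 : qx (B ∣[k] γ) = 0 := ofPS_injective (by rw [h0, map_zero])
  exact slash_ne_zero γ hB0 ((qx_eq_zero_iff (isQ_slash_Gamma1 M hM hB)).mp h1)

theorem mem_Gamma0_of_dvd {γ : SL(2, ℤ)} (hM : (M : ℤ) ∣ γ 1 0) : γ ∈ Gamma0 M := by
  rw [Gamma0_mem]
  exact (ZMod.intCast_zmod_eq_zero_iff_dvd _ _).mpr hM

/-- **The Atkin-Lehner embedding over `ℂ` in terms of the diamond automorphisms.**  For
`γ = (a b; c ℓe)`, `M ∣ c`: `ρ x = (⟨a⟩^* x)(q^ℓ)` and `ρ (x(q^ℓ)) = ⟨ℓ a⟩^* x`. -/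
theorem exists_rhoC_diamond (hℓM : ℓ.Coprime M) (hle : Seams.RepLe M) (hdia : Seams2.DiamondAn M)
    (γ : SL(2, ℤ)) (hM : (M : ℤ) ∣ γ 1 0) (e : ℤ) (he : γ 1 1 = ℓ * e) (d d₁ : (ZMod M)ˣ)
    (hd : (d : ZMod M) = ((γ 0 0 : ℤ) : ZMod M))
    (hd₁ : (d₁ : ZMod M) = (((ℓ : ℤ) * γ 0 0 : ℤ) : ZMod M)) :
    ∃ (ρ : laurentBaseChange ℂ (F1p M ℓ) →+* LaurentSeries ℂ)
      (δ δ₁ : laurentBaseChange ℂ (F1 M) ≃ₐ[ℂ] laurentBaseChange ℂ (F1 M)),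
      IsDiamondAut M ℂ d δ ∧ IsDiamondAut M ℂ d₁ δ₁ ∧
      (∀ c : ℂ, ρ (algebraMap ℂ (laurentBaseChange ℂ (F1p M ℓ)) c) =
        algebraMap ℂ (LaurentSeries ℂ) c) ∧
      (∀ x : laurentBaseChange ℂ (F1 M), ρ (alpha1 M ℓ ℂ x) =
        qExpand ℂ ℓ ((δ x : laurentBaseChange ℂ (F1 M)) : LaurentSeries ℂ)) ∧
      (∀ x : laurentBaseChange ℂ (F1 M), ρ (beta1 M ℓ ℂ x) =
        ((δ₁ x : laurentBaseChange ℂ (F1 M)) : LaurentSeries ℂ)) := by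
  have hM1 : (M : ℤ) ∣ (alMatrix ℓ γ e he) 1 0 := by
    rw [alMatrix_apply_one_zero]
    exact hM
  obtain ⟨δ, hδ, hδan⟩ := hdia γ (mem_Gamma0_of_dvd hM) d hd
  obtain ⟨δ₁, hδ₁, hδ₁an⟩ := hdia (alMatrix ℓ γ e he) (mem_Gamma0_of_dvd hM1) d₁
    (by rw [hd₁, alMatrix_apply_zero_zero])
  obtain ⟨ρ₀, h1, h2, h3⟩ := exists_rhoC M ℓ hℓM γ hM e he
  refine ⟨ρ₀.comp (inclE hℓM hle), δ, δ₁, hδ, hδ₁, ?_, ?_, ?_⟩
  · intro c
    have e0 : inclE hℓM hle (algebraMap ℂ (laurentBaseChange ℂ (F1p M ℓ)) c) =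
        ⟨HahnSeries.C c, const_mem_repFieldG c⟩ := by
      apply Subtype.ext
      show algebraMap ℂ (LaurentSeries ℂ) c = HahnSeries.C c
      rw [algebraMap_laurentSeries_eq_single]
      rfl
    rw [RingHom.comp_apply, e0, h3 c, algebraMap_laurentSeries_eq_single]
    rfl
  · intro x
    obtain ⟨k, A, B, hr⟩ := hle x.2
    have hrG := isRepOfG_of_isRepOf1 M hr
    have e1 := h1 _ k A B hrG
    have e2 := hδan x k A B hr
    have e0 : inclE hℓM hle (alpha1 M ℓ ℂ x) =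
        ⟨(x : LaurentSeries ℂ), k, A, B, isRepOfG_mono (Gml_le_Gamma1 M ℓ) hrG⟩ :=
      Subtype.ext (coe_alpha1 M ℓ ℂ x)
    rw [RingHom.comp_apply, e0]
    have hne : qExpand ℂ ℓ (ofPS (qx (B ∣[k] γ))) ≠ 0 :=
      (map_ne_zero (qExpand ℂ ℓ)).mpr (ofPS_qx_slash_ne_zero hM hrG.hb hrG.hb0)
    apply mul_right_cancel₀ hne
    rw [e1, ← map_mul]
    exact congrArg (qExpand ℂ ℓ) e2
  · intro x
    obtain ⟨k, A, B, hr⟩ := hle x.2
    have hrG := isRepOfG_of_isRepOf1 M hr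
    have e1 := h2 _ k A B hrG
    have e2 := hδ₁an x k A B hr
    have e0 : inclE hℓM hle (beta1 M ℓ ℂ x) =
        ⟨qExpand ℂ ℓ (x : LaurentSeries ℂ), k, _, _, isRepOfG_raise hℓM hrG⟩ :=
      Subtype.ext rfl
    rw [RingHom.comp_apply, e0]
    have hne : ofPS (qx (B ∣[k] alMatrix ℓ γ e he)) ≠ 0 :=
      ofPS_qx_slash_ne_zero hM1 hrG.hb hrG.hb0
    apply mul_right_cancel₀ hne
    rw [e1]
    exact e2

/-! ### The two translates -/

theorem exists_bezout (hℓM : ℓ.Coprime M) : ∃ u v : ℤ, (ℓ : ℤ) * u + (M : ℤ) * v = 1 := by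
  have h := Int.gcd_eq_gcd_ab (ℓ : ℤ) (M : ℤ)
  rw [Int.gcd_natCast_natCast, hℓM, Nat.cast_one] at h
  exact ⟨_, _, h.symm⟩

theorem cast_mul_eq_one {u v : ℤ} (huv : (ℓ : ℤ) * u + (M : ℤ) * v = 1) :
    ((ℓ : ℕ) : ZMod M) * ((u : ℤ) : ZMod M) = 1 := by
  have h := congrArg (Int.cast : ℤ → ZMod M) huv
  push_cast at h
  rw [ZMod.natCast_self, zero_mul, add_zero] at h
  exact h

theorem qExpand_algebraMap (c : ℂ) :
    qExpand ℂ ℓ (algebraMap ℂ (LaurentSeries ℂ) c) = algebraMap ℂ (LaurentSeries ℂ) c := by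
  rw [algebraMap_laurentSeries_eq_single, qExpand_single, mul_zero]

/-- **`HasRhoA` over `ℂ`.** -/
theorem exists_rhoA_C (hℓM : ℓ.Coprime M) (hle : Seams.RepLe M) (hdia : Seams2.DiamondAn M) :
    ∃ (ρ : laurentBaseChange ℂ (F1p M ℓ) →+* LaurentSeries ℂ)
      (δ : laurentBaseChange ℂ (F1 M) ≃ₐ[ℂ] laurentBaseChange ℂ (F1 M)),
      IsDiamondAut M ℂ (ZMod.unitOfCoprime ℓ hℓM) δ ∧
      (∀ c : ℂ, ρ (algebraMap ℂ (laurentBaseChange ℂ (F1p M ℓ)) c) =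
        algebraMap ℂ (LaurentSeries ℂ) c) ∧
      (∀ x : laurentBaseChange ℂ (F1 M), ρ (alpha1 M ℓ ℂ x) =
        qExpand ℂ ℓ (qExpand ℂ ℓ (x : LaurentSeries ℂ))) ∧
      (∀ x : laurentBaseChange ℂ (F1 M), ρ (beta1 M ℓ ℂ x) =
        qExpand ℂ ℓ ((δ x : laurentBaseChange ℂ (F1 M)) : LaurentSeries ℂ)) := by
  obtain ⟨u, v, huv⟩ := exists_bezout hℓM
  let γ : SL(2, ℤ) := ⟨!![1, -v; (M : ℤ), (ℓ : ℤ) * u], by
    rw [Matrix.det_fin_two_of]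
    linarith⟩
  have hM : (M : ℤ) ∣ γ 1 0 := dvd_refl _
  have he : γ 1 1 = (ℓ : ℤ) * u := rfl
  obtain ⟨ρ₀, δ, δ₁, hδ, hδ₁, hc, hα, hβ⟩ := exists_rhoC_diamond hℓM hle hdia γ hM u he 1
    (ZMod.unitOfCoprime ℓ hℓM)
    (by
      show ((1 : (ZMod M)ˣ) : ZMod M) = (((1 : ℤ)) : ZMod M)
      rw [Units.val_one, Int.cast_one])
    (by
      show ((ZMod.unitOfCoprime ℓ hℓM : (ZMod M)ˣ) : ZMod M) = (((ℓ : ℤ) * (1 : ℤ) : ℤ) : ZMod M)
      rw [ZMod.coe_unitOfCoprime, mul_one, Int.cast_natCast])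
  refine ⟨(qExpand ℂ ℓ).comp ρ₀, δ₁, hδ₁, ?_, ?_, ?_⟩
  · intro c
    rw [RingHom.comp_apply, hc, qExpand_algebraMap]
  · intro x
    rw [RingHom.comp_apply, hα, apply_of_isDiamondAut_one hδ]
  · intro x
    rw [RingHom.comp_apply, hβ]

/-- **`HasRhoB` over `ℂ`.** -/
theorem exists_rhoB_C (hℓM : ℓ.Coprime M) (hle : Seams.RepLe M) (hdia : Seams2.DiamondAn M) :
    ∃ (ρ : laurentBaseChange ℂ (F1p M ℓ) →+* LaurentSeries ℂ)
      (δ : laurentBaseChange ℂ (F1 M) ≃ₐ[ℂ] laurentBaseChange ℂ (F1 M)),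
      IsDiamondAut M ℂ (ZMod.unitOfCoprime ℓ hℓM)⁻¹ δ ∧
      (∀ c : ℂ, ρ (algebraMap ℂ (laurentBaseChange ℂ (F1p M ℓ)) c) =
        algebraMap ℂ (LaurentSeries ℂ) c) ∧
      (∀ x : laurentBaseChange ℂ (F1 M), ρ (beta1 M ℓ ℂ x) =
        qExpand ℂ ℓ (x : LaurentSeries ℂ)) ∧
      (∀ x : laurentBaseChange ℂ (F1 M), ρ (alpha1 M ℓ ℂ x) =
        qExpand ℂ ℓ (qExpand ℂ ℓ ((δ x : laurentBaseChange ℂ (F1 M)) : LaurentSeries ℂ))) := by
  obtain ⟨u, v, huv⟩ := exists_bezout hℓM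
  have h1 := cast_mul_eq_one huv
  let γ : SL(2, ℤ) := ⟨!![u, -v; (M : ℤ), (ℓ : ℤ)], by
    rw [Matrix.det_fin_two_of]
    linarith⟩
  have hM : (M : ℤ) ∣ γ 1 0 := dvd_refl _
  have he : γ 1 1 = (ℓ : ℤ) * 1 := (mul_one _).symm
  obtain ⟨ρ₀, δ, δ₁, hδ, hδ₁, hc, hα, hβ⟩ := exists_rhoC_diamond hℓM hle hdia γ hM 1 he
    (ZMod.unitOfCoprime ℓ hℓM)⁻¹ 1
    (by
      show (((ZMod.unitOfCoprime ℓ hℓM)⁻¹ : (ZMod M)ˣ) : ZMod M) = ((u : ℤ) : ZMod M)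
      apply Units.inv_eq_of_mul_eq_one_right
      rw [ZMod.coe_unitOfCoprime]
      exact h1)
    (by
      show ((1 : (ZMod M)ˣ) : ZMod M) = (((ℓ : ℤ) * u : ℤ) : ZMod M)
      rw [Units.val_one, Int.cast_mul, Int.cast_natCast]
      exact h1.symm)
  refine ⟨(qExpand ℂ ℓ).comp ρ₀, δ, hδ, ?_, ?_, ?_⟩
  · intro c
    rw [RingHom.comp_apply, hc, qExpand_algebraMap]
  · intro x
    rw [RingHom.comp_apply, hβ, apply_of_isDiamondAut_one hδ₁]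
  · intro x
    rw [RingHom.comp_apply, hα]

/-! ### Descent along `ι : ℚ̄ →+* ℂ` -/

section DescentAlong

variable (ι : Kb →+* ℂ)

theorem baseChangeMap_alpha1 (x : laurentBaseChange Kb (F1 M)) :
    baseChangeMap ι (F1p M ℓ) (alpha1 M ℓ Kb x) = alpha1 M ℓ ℂ (baseChangeMap ι (F1 M) x) := by
  apply Subtype.ext
  rw [coe_baseChangeMap, coe_alpha1, coe_alpha1, coe_baseChangeMap]

theorem baseChangeMap_beta1 (x : laurentBaseChange Kb (F1 M)) :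
    baseChangeMap ι (F1p M ℓ) (beta1 M ℓ Kb x) = beta1 M ℓ ℂ (baseChangeMap ι (F1 M) x) := by
  apply Subtype.ext
  rw [coe_baseChangeMap, coe_beta1, coe_beta1, coe_baseChangeMap, coeffMap_qExpand]

/-- **Descent.**  A ring homomorphism on `ℂ·F1p M ℓ`, trivial on the constants, whose values on
`α F` and `β F` have coefficients in `ι ℚ̄`, comes from a ring homomorphism on `ℚ̄·F1p M ℓ`. -/
theorem exists_descent (ρC : laurentBaseChange ℂ (F1p M ℓ) →+* LaurentSeries ℂ)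
    (hc : ∀ c : ℂ, ρC (algebraMap ℂ (laurentBaseChange ℂ (F1p M ℓ)) c) =
      algebraMap ℂ (LaurentSeries ℂ) c)
    (fα fβ : laurentBaseChange Kb (F1 M) → LaurentSeries Kb)
    (hα : ∀ x : laurentBaseChange Kb (F1 M),
      ρC (alpha1 M ℓ ℂ (baseChangeMap ι (F1 M) x)) = coeffMap ι (fα x))
    (hβ : ∀ x : laurentBaseChange Kb (F1 M),
      ρC (beta1 M ℓ ℂ (baseChangeMap ι (F1 M) x)) = coeffMap ι (fβ x)) :
    ∃ ρ : laurentBaseChange Kb (F1p M ℓ) →+* LaurentSeries Kb,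
      (∀ x : laurentBaseChange Kb (F1 M), ρ (alpha1 M ℓ Kb x) = fα x) ∧
      (∀ x : laurentBaseChange Kb (F1 M), ρ (beta1 M ℓ Kb x) = fβ x) := by
  set φ : laurentBaseChange Kb (F1p M ℓ) →+* LaurentSeries ℂ :=
    ρC.comp (baseChangeMap ι (F1p M ℓ)) with hφ
  have hφα : ∀ x : laurentBaseChange Kb (F1 M), φ (alpha1 M ℓ Kb x) = coeffMap ι (fα x) := by
    intro x
    rw [hφ, RingHom.comp_apply, baseChangeMap_alpha1, hα]
  have hφβ : ∀ x : laurentBaseChange Kb (F1 M), φ (beta1 M ℓ Kb x) = coeffMap ι (fβ x) := by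
    intro x
    rw [hφ, RingHom.comp_apply, baseChangeMap_beta1, hβ]
  have hφc : ∀ c : Kb, φ (algebraMap Kb (laurentBaseChange Kb (F1p M ℓ)) c) =
      coeffMap ι (algebraMap Kb (LaurentSeries Kb) c) := by
    intro c
    rw [hφ, RingHom.comp_apply, baseChangeMap_algebraMap, hc, coeffMap_algebraMap_of_ringHom]
  set R : Subfield (LaurentSeries ℂ) := (coeffMap ι : LaurentSeries Kb →+* LaurentSeries ℂ).fieldRange
    with hR
  set S : Subfield (laurentBaseChange Kb (F1p M ℓ)) := R.comap φ with hS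
  set S' : Subfield (LaurentSeries Kb) :=
    S.map (algebraMap (laurentBaseChange Kb (F1p M ℓ)) (LaurentSeries Kb)) with hS'
  have hαS : ∀ x : laurentBaseChange Kb (F1 M), ((alpha1 M ℓ Kb x : laurentBaseChange Kb (F1p M ℓ)) :
      LaurentSeries Kb) ∈ S' := fun x =>
    ⟨alpha1 M ℓ Kb x, ⟨fα x, (hφα x).symm⟩, rfl⟩
  have hβS : ∀ x : laurentBaseChange Kb (F1 M), ((beta1 M ℓ Kb x : laurentBaseChange Kb (F1p M ℓ)) :
      LaurentSeries Kb) ∈ S' := fun x =>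
    ⟨beta1 M ℓ Kb x, ⟨fβ x, (hφβ x).symm⟩, rfl⟩
  have h1 : (F1p M ℓ).toSubfield ≤ S'.comap (coeffEmb Kb) := by
    show (F1 M ⊔ (F1 M).map (qExpandₐ ℓ)).toSubfield ≤ _
    rw [sup_toSubfield]
    refine sup_le ?_ ?_
    · intro y hy
      have := hαS ⟨coeffEmb Kb y, coeffEmb_mem_laurentBaseChange Kb hy⟩
      rwa [coe_alpha1] at this
    · rintro _ ⟨y, hy, rfl⟩
      have := hβS ⟨coeffEmb Kb y, coeffEmb_mem_laurentBaseChange Kb hy⟩
      rw [coe_beta1] at this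
      show coeffEmb Kb (qExpand ℚ ℓ y) ∈ S'
      rw [coeffEmb_qExpand]
      exact this
  have h2 : (laurentBaseChange Kb (F1p M ℓ)).toSubfield ≤ S' := by
    unfold laurentBaseChange
    refine adjoin_le_subfield Kb _ ?_ ?_
    · rintro _ ⟨c, rfl⟩
      exact ⟨algebraMap Kb (laurentBaseChange Kb (F1p M ℓ)) c, ⟨_, (hφc c).symm⟩, rfl⟩
    · rintro _ ⟨y, hy, rfl⟩
      exact h1 hy
  have hmem : ∀ y : laurentBaseChange Kb (F1p M ℓ), φ y ∈ R := by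
    intro y
    obtain ⟨y', hy', hyy'⟩ := h2 y.2
    have : y' = y := Subtype.ext hyy'
    rw [← this]
    exact hy'
  set ρ : laurentBaseChange Kb (F1p M ℓ) →+* LaurentSeries Kb :=
    ((coeffMap ι : LaurentSeries Kb →+* LaurentSeries ℂ).rangeRestrictFieldEquiv.symm :
      R →+* LaurentSeries Kb).comp (φ.codRestrict R hmem) with hρ
  have hspec : ∀ y, coeffMap ι (ρ y) = φ y := by
    intro y
    rw [hρ, RingHom.comp_apply]
    exact RingHom.rangeRestrictFieldEquiv_apply_symm_apply _ _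
  refine ⟨ρ, fun x => ?_, fun x => ?_⟩
  · apply (coeffMap ι).injective
    rw [hspec, hφα]
  · apply (coeffMap ι).injective
    rw [hspec, hφβ]

end DescentAlong

/-! ### The seams `HasRhoA`, `HasRhoB` -/

/-- an embedding of `ℚ̄` into `ℂ` -/
def iotaC : Kb →+* ℂ :=
  haveI : Algebra.IsAlgebraic ℚ (AlgebraicClosure ℚ) := AlgebraicClosure.isAlgebraic ℚ
  ((IsAlgClosed.lift (R := ℚ) (S := AlgebraicClosure ℚ) (M := ℂ) : AlgebraicClosure ℚ →ₐ[ℚ] ℂ) :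
    AlgebraicClosure ℚ →+* ℂ)

/-- **`HasRhoA` from the seams of block B1.** -/
theorem hasRhoA_of (hℓM : ℓ.Coprime M) (hle : Seams.RepLe M) (hdia : Seams2.DiamondAn M)
    (hex : Seams.DiamondExists M) : HasRhoA M ℓ hℓM := by
  obtain ⟨ρC, δC, hδC, hc, hα, hβ⟩ := exists_rhoA_C (ℓ := ℓ) hℓM hle hdia
  obtain ⟨δ, hδ⟩ := hex Kb (ZMod.unitOfCoprime ℓ hℓM)
  obtain ⟨ρ, h1, h2⟩ := exists_descent iotaC ρC hc
    (fun x => qExpand Kb ℓ (qExpand Kb ℓ (x : LaurentSeries Kb)))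
    (fun x => qExpand Kb ℓ ((δ x : laurentBaseChange Kb (F1 M)) : LaurentSeries Kb))
    (fun x => by
      rw [hα, coe_baseChangeMap, coeffMap_qExpand, coeffMap_qExpand])
    (fun x => by
      rw [hβ, coeffMap_qExpand, isDiamondAut_coeffMap_apply iotaC hδ hδC])
  exact ⟨ρ, δ, hδ, h1, h2⟩

/-- **`HasRhoB` from the seams of block B1.** -/
theorem hasRhoB_of (hℓM : ℓ.Coprime M) (hle : Seams.RepLe M) (hdia : Seams2.DiamondAn M)
    (hex : Seams.DiamondExists M) : HasRhoB M ℓ hℓM := by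
  obtain ⟨ρC, δC, hδC, hc, hβ, hα⟩ := exists_rhoB_C (ℓ := ℓ) hℓM hle hdia
  obtain ⟨δ, hδ⟩ := hex Kb (ZMod.unitOfCoprime ℓ hℓM)⁻¹
  obtain ⟨ρ, h1, h2⟩ := exists_descent iotaC ρC hc
    (fun x => qExpand Kb ℓ (qExpand Kb ℓ ((δ x : laurentBaseChange Kb (F1 M)) : LaurentSeries Kb)))
    (fun x => qExpand Kb ℓ (x : LaurentSeries Kb))
    (fun x => by
      rw [hα, coeffMap_qExpand, coeffMap_qExpand, isDiamondAut_coeffMap_apply iotaC hδ hδC])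
    (fun x => by
      rw [hβ, coe_baseChangeMap, coeffMap_qExpand])
  exact ⟨ρ, δ, hδ, h2, h1⟩

end Fermat.Agent.S48.B.ES.Descent

end
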