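import Mathlib
import Fermat.Agent.S37.ES.NormRed
import Fermat.Agent.S48.B.ES.NormAlpha1
import Fermat.Agent.S48.B.Red.CoeffAut1

/-!
# PROJECT D (S48), part B, brick [B-ES]: integrality and reduction of the two norms on `X₁(M)`
(the `Γ₁(M)` twin of main's `S37/ES/NormRed`, helper10)

`A : ValuationSubring ℚ̄`, `π : A →+* k`, `char k = ℓ`, `k` perfect.  Vocabulary of `Defs/Reduction`:
an integral element is `y : A((q))` with `coeffMap A.subtype y ∈ F1Bar M` and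
`coeffMap π y ∈ F1C M k`.

Pure series part: `mixSeries ζ ℓ z y = z(q^ℓ) * (∏_{b < ℓ} y(ζ^b q))(q^{1/ℓ})` (main's `normSeries` is
`mixSeries ζ ℓ y y`), compatible with coefficient maps; for `ζ = 1` in characteristic `ℓ`:
`mixSeries 1 ℓ z y = z(q^ℓ) * y^Frob`.

`ReducesTo A π δ δk` : `δ` preserves the integral elements and reduces to `δk` (HYPOTHESIS of this
file: block B3, bricks U + E0).

* (B) `exists_normAlphaI` : for `y` integral, `N_{E/βF} (α y)` is integral with reduction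
  `(δk ȳ)(q^ℓ) * ȳ^Frob`, `δ = ⟨ℓ⁻¹⟩^*`;
* (A) `exists_normBetaI` : `N_{E/αF} (β y)` is integral with reduction `ȳ(q^ℓ) * (δk ȳ)^Frob`,
  `δ = ⟨ℓ⟩^*`;
* `V1k`, `V1k_eq : x(q^ℓ) = (Frob⁻¹ x)^ℓ`, and the two reductions inside `F1C M k`
  (`red_normAlpha_eq`, `red_normBeta_eq`);
* `_of_seam` forms: from `HasRhoB` / `HasRhoA` and the degree.
-/

set_option autoImplicit false
set_option linter.unusedSectionVars false
set_option linter.style.haveILetI false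

noncomputable section

namespace Fermat.Agent.S48.B.ES.NormRed1

open ModularCurve HahnSeries AlgebraicCurve
open Fermat.Agent.S28.LaurentRescale
open Fermat.Agent.S37.ES.NormRed Fermat.Agent.S37.ES.KummerPoly
open Fermat.Agent.S37.Equivariance.CoeffAut (frobAut)
open Fermat.Agent.S48.B.Defs.Model Fermat.Agent.S48.B.ES.RhoSeam Fermat.Agent.S48.B.ES.NormAlpha1
open Fermat.Agent.S48.B.Red.CoeffAut1

/-! ### Series -/

section Series

variable {R : Type*} [CommRing R]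

/-- `z(q^ℓ) * (∏_b y(ζ^b q))(q^{1/ℓ})`. -/
def mixSeries (ζ : Rˣ) (ℓ : ℕ) [NeZero ℓ] (z y : LaurentSeries R) : LaurentSeries R :=
  qExpand R ℓ z * qContract ℓ (conjProd ζ ℓ y)

theorem mixSeries_self (ζ : Rˣ) (ℓ : ℕ) [NeZero ℓ] (y : LaurentSeries R) :
    mixSeries ζ ℓ y y = normSeries ζ ℓ y := rfl

theorem qExpand_mixSeries [IsDomain R] {ℓ : ℕ} [NeZero ℓ] {ζ : Rˣ} (hζ : orderOf ζ = ℓ)
    (z y : LaurentSeries R) :
    qExpand R ℓ (mixSeries ζ ℓ z y) = qExpand R ℓ (qExpand R ℓ z) * conjProd ζ ℓ y := by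
  unfold mixSeries
  rw [map_mul, qExpand_qContract ℓ ((mem_range_qExpand_iff ℓ _).mp (conjProd_mem_range hζ y))]

theorem coeffMap_mixSeries {S : Type*} [CommRing S] (φ : R →+* S) (ζ : Rˣ) (ℓ : ℕ) [NeZero ℓ]
    (z y : LaurentSeries R) :
    coeffMap φ (mixSeries ζ ℓ z y) =
      mixSeries (Units.map φ.toMonoidHom ζ) ℓ (coeffMap φ z) (coeffMap φ y) := by
  unfold mixSeries
  rw [map_mul, coeffMap_qExpand, coeffMap_qContract, coeffMap_conjProd]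

theorem mixSeries_one_char {k : Type*} [CommRing k] (ℓ : ℕ) [hℓ : Fact ℓ.Prime] [NeZero ℓ]
    [CharP k ℓ] (z y : LaurentSeries k) :
    mixSeries (1 : kˣ) ℓ z y = qExpand k ℓ z * coeffMap (frobenius k ℓ) y := by
  unfold mixSeries
  rw [conjProd_one, pow_char_eq_qExpand ℓ y, qContract_qExpand]

end Series

/-! ### The two norms -/

section Main

local notation "Kb" => AlgebraicClosure ℚ

variable {M ℓ : ℕ} [NeZero M] [NeZero ℓ] (A : ValuationSubring Kb) {k : Type*} [Field k]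
  (π : ↥A →+* k)

/-- In characteristic `ℓ` (perfect): `x(q^ℓ) ∈ k(X₁(M))` for `x ∈ k(X₁(M))`. -/
theorem qExpand_mem_F1C [hℓ : Fact ℓ.Prime] [CharP k ℓ] [PerfectField k] {x : LaurentSeries k}
    (hx : x ∈ F1C M k) : qExpand k ℓ x ∈ F1C M k := by
  set z : LaurentSeries k := coeffMap ((frobeniusEquiv k ℓ).symm : k →+* k) x with hz
  have hzmem : z ∈ F1C M k := coeffStable_F1C M k _ x hx
  have h1 : z ^ ℓ = qExpand k ℓ x := by
    rw [pow_char_eq_qExpand ℓ z, hz, coeffMap_coeffMap]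
    congr 1
    rw [coeffMap_congr (g := RingHom.id k) (RingHom.ext fun c => ?_), coeffMap_id]
    show frobenius k ℓ ((frobeniusEquiv k ℓ).symm c) = c
    exact frobenius_apply_frobeniusEquiv_symm k ℓ c
  rw [← h1]
  exact pow_mem hzmem ℓ

/-- `x^Frob ∈ k(X₁(M))` for `x ∈ k(X₁(M))`. -/
theorem coeffMap_frobenius_mem_F1C [Fact ℓ.Prime] [CharP k ℓ] {x : LaurentSeries k}
    (hx : x ∈ F1C M k) : coeffMap (frobenius k ℓ) x ∈ F1C M k :=
  coeffStable_F1C M k _ x hx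

/-- `q ↦ q^ℓ` as an endomorphism of `k(X₁(M))` (characteristic `ℓ`, `k` perfect). -/
def V1k (M ℓ : ℕ) [NeZero M] [NeZero ℓ] (k : Type*) [Field k] [Fact ℓ.Prime] [CharP k ℓ]
    [PerfectField k] : ↥(F1C M k) →+* ↥(F1C M k) where
  toFun x := ⟨qExpand k ℓ (x : LaurentSeries k), qExpand_mem_F1C x.2⟩
  map_one' := Subtype.ext (map_one (qExpand k ℓ))
  map_mul' _ _ := Subtype.ext (map_mul (qExpand k ℓ) _ _)
  map_zero' := Subtype.ext (map_zero (qExpand k ℓ))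
  map_add' _ _ := Subtype.ext (map_add (qExpand k ℓ) _ _)

@[simp]
theorem coe_V1k [Fact ℓ.Prime] [CharP k ℓ] [PerfectField k] (x : ↥(F1C M k)) :
    ((V1k M ℓ k x : ↥(F1C M k)) : LaurentSeries k) = qExpand k ℓ (x : LaurentSeries k) := rfl

/-- `x(q^ℓ) = (Frob⁻¹ x)^ℓ`. -/
theorem V1k_eq [Fact ℓ.Prime] [CharP k ℓ] [PerfectField k] (x : ↥(F1C M k)) :
    V1k M ℓ k x = (coeffRingAut₁ M k (frobAut k ℓ).symm x) ^ ℓ := by
  apply Subtype.ext
  rw [coe_V1k]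
  show qExpand k ℓ (x : LaurentSeries k) =
    (coeffMap (((frobAut k ℓ).symm : k ≃+* k) : k →+* k) (x : LaurentSeries k)) ^ ℓ
  rw [pow_char_eq_qExpand ℓ, coeffMap_coeffMap]
  congr 1
  rw [coeffMap_congr (g := RingHom.id k) (RingHom.ext fun c => ?_), coeffMap_id]
  show frobenius k ℓ ((frobeniusEquiv k ℓ).symm c) = c
  exact frobenius_apply_frobeniusEquiv_symm k ℓ c

theorem V1k_eq_inv [Fact ℓ.Prime] [CharP k ℓ] [PerfectField k] (x : ↥(F1C M k)) :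
    V1k M ℓ k x = (coeffRingAut₁ M k (frobAut k ℓ)⁻¹ x) ^ ℓ := V1k_eq x

/-- the coefficientwise Frobenius of `k(X₁(M))` on series -/
theorem coe_frob_apply [Fact ℓ.Prime] [CharP k ℓ] [PerfectField k] (x : ↥(F1C M k)) :
    ((coeffRingAut₁ M k (frobAut k ℓ) x : ↥(F1C M k)) : LaurentSeries k) =
      coeffMap (frobenius k ℓ) (x : LaurentSeries k) := rfl

/-- **`δ` preserves the integral elements and reduces to `δk`** (vocabulary of `Defs/Reduction`: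
an integral element is `y : A((q))` with `coeffMap A.subtype y ∈ F1Bar M`, `coeffMap π y ∈ F1C M k`).
-/
def ReducesTo (δ : ↥(F1Bar M) → ↥(F1Bar M)) (δk : ↥(F1C M k) → ↥(F1C M k)) : Prop :=
  ∀ (y : LaurentSeries ↥A) (hy : coeffMap A.subtype y ∈ F1Bar M)
    (hyk : coeffMap π y ∈ F1C M k),
    ∃ z : LaurentSeries ↥A,
      coeffMap A.subtype z = ((δ ⟨coeffMap A.subtype y, hy⟩ : ↥(F1Bar M)) : LaurentSeries Kb) ∧
      coeffMap π z = ((δk ⟨coeffMap π y, hyk⟩ : ↥(F1C M k)) : LaurentSeries k)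

/-- the identity reduces to the identity -/
theorem reducesTo_id : ReducesTo (M := M) A π id id :=
  fun y _ _ => ⟨y, rfl, rfl⟩

variable {A π}

/-- the primitive `ℓ`-th root of unity inside `A`, and its reduction -/
theorem exists_root [hℓF : Fact ℓ.Prime] [CharP k ℓ] :
    ∃ (ζ : Kbˣ) (ζA : (↥A)ˣ), IsPrimitiveRoot ζ ℓ ∧
      Units.map (A.subtype : ↥A →+* Kb).toMonoidHom ζA = ζ ∧ orderOf ζA = ℓ ∧
      Units.map (π : ↥A →+* k).toMonoidHom ζA = 1 := by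
  have hℓ : ℓ.Prime := hℓF.out
  have hℓk : ((ℓ : ℕ) : Kb) ≠ 0 := Nat.cast_ne_zero.mpr hℓ.ne_zero
  obtain ⟨ζ, hζ⟩ := Fermat.Agent.S28.StepDeg.exists_isPrimitiveRoot_units (k := Kb) (p := ℓ) hℓk
  obtain ⟨ζA, hζA, hord⟩ := exists_unit_of_isPrimitiveRoot A hℓ.pos hζ
  refine ⟨ζ, ζA, hζ, hζA, hord, ?_⟩
  apply Units.ext
  show π (ζA : ↥A) = 1
  refine eq_one_of_pow_char_eq_one ℓ ?_
  rw [← map_pow, ← Units.val_pow_eq_pow_val, ← hord, pow_orderOf_eq_one, Units.val_one, map_one]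

/-- the common engine: a characteristic-zero identity `V n = V (V w) * ∏_b v(ζ^b q)` with integral
models `yw`, `yv` of `w`, `v` gives an integral model of `n` with reduction `w̄(q^ℓ) * v̄^Frob`. -/
theorem exists_model_of_formula [hℓF : Fact ℓ.Prime] [CharP k ℓ]
    {n w v : LaurentSeries Kb}
    (hN : ∀ ζ : Kbˣ, IsPrimitiveRoot ζ ℓ →
      qExpand Kb ℓ n = qExpand Kb ℓ (qExpand Kb ℓ w) * ∏ b ∈ Finset.range ℓ, rescaleU (ζ ^ b) v)
    {yw yv : LaurentSeries ↥A} (hw : coeffMap A.subtype yw = w) (hv : coeffMap A.subtype yv = v) :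
    ∃ y' : LaurentSeries ↥A, coeffMap A.subtype y' = n ∧
      coeffMap π y' = qExpand k ℓ (coeffMap π yw) * coeffMap (frobenius k ℓ) (coeffMap π yv) := by
  obtain ⟨ζ, ζA, hζ, hζA, hord, hπζ⟩ := exists_root (A := A) (π := π) (ℓ := ℓ)
  refine ⟨mixSeries ζA ℓ yw yv, ?_, ?_⟩
  · apply qExpand_injective ℓ
    rw [← coeffMap_qExpand, qExpand_mixSeries hord, map_mul, coeffMap_qExpand, coeffMap_qExpand,
      coeffMap_conjProd, hζA, hw, hv, hN ζ hζ]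
    rfl
  · rw [coeffMap_mixSeries, hπζ, mixSeries_one_char]

variable (A π)

/-- **(B) Integrality and reduction of `N_{E/βF} (α y)`.** -/
theorem exists_normAlphaI [hℓF : Fact ℓ.Prime] [CharP k ℓ]
    {δ : ↥(F1Bar M) → ↥(F1Bar M)} {δk : ↥(F1C M k) → ↥(F1C M k)} (hδ : ReducesTo A π δ δk)
    (hN : ∀ ζ : Kbˣ, IsPrimitiveRoot ζ ℓ → ∀ u : ↥(F1Bar M),
      qExpand Kb ℓ ((normAlpha1 M ℓ u : ↥(F1Bar M)) : LaurentSeries Kb) =
        qExpand Kb ℓ (qExpand Kb ℓ ((δ u : ↥(F1Bar M)) : LaurentSeries Kb)) *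
          ∏ b ∈ Finset.range ℓ, rescaleU (ζ ^ b) (u : LaurentSeries Kb))
    (y : LaurentSeries ↥A) (hy : coeffMap A.subtype y ∈ F1Bar M)
    (hyk : coeffMap π y ∈ F1C M k) :
    ∃ y' : LaurentSeries ↥A,
      coeffMap A.subtype y' =
        ((normAlpha1 M ℓ ⟨coeffMap A.subtype y, hy⟩ : ↥(F1Bar M)) : LaurentSeries Kb) ∧
      coeffMap π y' =
        qExpand k ℓ ((δk ⟨coeffMap π y, hyk⟩ : ↥(F1C M k)) : LaurentSeries k) *
          coeffMap (frobenius k ℓ) (coeffMap π y) := by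
  obtain ⟨z, hz, hzk⟩ := hδ y hy hyk
  obtain ⟨y', h1, h2⟩ := exists_model_of_formula (A := A) (π := π)
    (fun ζ hζ => hN ζ hζ ⟨coeffMap A.subtype y, hy⟩) hz (rfl : coeffMap A.subtype y = _)
  exact ⟨y', h1, by rw [h2, hzk]⟩

/-- **(A) Integrality and reduction of `N_{E/αF} (β y)`.** -/
theorem exists_normBetaI [hℓF : Fact ℓ.Prime] [CharP k ℓ]
    {δ : ↥(F1Bar M) → ↥(F1Bar M)} {δk : ↥(F1C M k) → ↥(F1C M k)} (hδ : ReducesTo A π δ δk)
    (hN : ∀ ζ : Kbˣ, IsPrimitiveRoot ζ ℓ → ∀ u : ↥(F1Bar M),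
      qExpand Kb ℓ ((normBeta1 M ℓ u : ↥(F1Bar M)) : LaurentSeries Kb) =
        qExpand Kb ℓ (qExpand Kb ℓ (u : LaurentSeries Kb)) *
          ∏ b ∈ Finset.range ℓ, rescaleU (ζ ^ b) ((δ u : ↥(F1Bar M)) : LaurentSeries Kb))
    (y : LaurentSeries ↥A) (hy : coeffMap A.subtype y ∈ F1Bar M)
    (hyk : coeffMap π y ∈ F1C M k) :
    ∃ y' : LaurentSeries ↥A,
      coeffMap A.subtype y' =
        ((normBeta1 M ℓ ⟨coeffMap A.subtype y, hy⟩ : ↥(F1Bar M)) : LaurentSeries Kb) ∧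
      coeffMap π y' =
        qExpand k ℓ (coeffMap π y) *
          coeffMap (frobenius k ℓ)
            ((δk ⟨coeffMap π y, hyk⟩ : ↥(F1C M k)) : LaurentSeries k) := by
  obtain ⟨z, hz, hzk⟩ := hδ y hy hyk
  obtain ⟨y', h1, h2⟩ := exists_model_of_formula (A := A) (π := π)
    (fun ζ hζ => hN ζ hζ ⟨coeffMap A.subtype y, hy⟩) (rfl : coeffMap A.subtype y = _) hz
  exact ⟨y', h1, by rw [h2, hzk]⟩

/-- the reduction of `N (α y)` lies in `k(X₁(M))`, and inside it is `V (δk ȳ) * Frob ȳ` -/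
theorem red_normAlpha_eq [Fact ℓ.Prime] [CharP k ℓ] [PerfectField k]
    {δk : ↥(F1C M k) → ↥(F1C M k)} {y y' : LaurentSeries ↥A} (hyk : coeffMap π y ∈ F1C M k)
    (h : coeffMap π y' =
      qExpand k ℓ ((δk ⟨coeffMap π y, hyk⟩ : ↥(F1C M k)) : LaurentSeries k) *
        coeffMap (frobenius k ℓ) (coeffMap π y)) :
    ∃ hyk' : coeffMap π y' ∈ F1C M k,
      (⟨coeffMap π y', hyk'⟩ : ↥(F1C M k)) =
        V1k M ℓ k (δk ⟨coeffMap π y, hyk⟩) *
          coeffRingAut₁ M k (frobAut k ℓ) ⟨coeffMap π y, hyk⟩ := by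
  have hmem : coeffMap π y' ∈ F1C M k := by
    rw [h]
    exact mul_mem (qExpand_mem_F1C (δk ⟨coeffMap π y, hyk⟩).2) (coeffMap_frobenius_mem_F1C hyk)
  refine ⟨hmem, Subtype.ext ?_⟩
  show coeffMap π y' = _
  rw [h]
  rfl

/-- the reduction of `N (β y)` lies in `k(X₁(M))`, and inside it is `V ȳ * Frob (δk ȳ)` -/
theorem red_normBeta_eq [Fact ℓ.Prime] [CharP k ℓ] [PerfectField k]
    {δk : ↥(F1C M k) → ↥(F1C M k)} {y y' : LaurentSeries ↥A} (hyk : coeffMap π y ∈ F1C M k)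
    (h : coeffMap π y' =
      qExpand k ℓ (coeffMap π y) *
        coeffMap (frobenius k ℓ)
          ((δk ⟨coeffMap π y, hyk⟩ : ↥(F1C M k)) : LaurentSeries k)) :
    ∃ hyk' : coeffMap π y' ∈ F1C M k,
      (⟨coeffMap π y', hyk'⟩ : ↥(F1C M k)) =
        V1k M ℓ k ⟨coeffMap π y, hyk⟩ *
          coeffRingAut₁ M k (frobAut k ℓ) (δk ⟨coeffMap π y, hyk⟩) := by
  have hmem : coeffMap π y' ∈ F1C M k := by
    rw [h]
    exact mul_mem (qExpand_mem_F1C hyk) (coeffMap_frobenius_mem_F1C (δk ⟨coeffMap π y, hyk⟩).2)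
  refine ⟨hmem, Subtype.ext ?_⟩
  show coeffMap π y' = _
  rw [h]
  rfl

/-! ### From the seams -/

/-- **(B) from `HasRhoB`** : there is a diamond automorphism `δ = ⟨ℓ⁻¹⟩^*` such that, whenever `δ`
reduces to `δk`, the norm `N_{E/βF} (α y)` of an integral `y` is integral and reduces to
`V (δk ȳ) * Frob ȳ`. -/
theorem exists_normAlphaI_of_seam [hℓF : Fact ℓ.Prime] [CharP k ℓ] [PerfectField k]
    (hℓM : ℓ.Coprime M) (hdeg : finrankAlong Kb (beta1 M ℓ Kb) = ℓ + 1)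
    (hρ : HasRhoB M ℓ hℓM) :
    ∃ δ : ↥(F1Bar M) ≃ₐ[Kb] ↥(F1Bar M),
      IsDiamondAut M Kb (ZMod.unitOfCoprime ℓ hℓM)⁻¹ δ ∧
      ∀ δk : ↥(F1C M k) → ↥(F1C M k), ReducesTo A π δ δk →
        ∀ (y : LaurentSeries ↥A) (hy : coeffMap A.subtype y ∈ F1Bar M)
          (hyk : coeffMap π y ∈ F1C M k),
          ∃ (y' : LaurentSeries ↥A) (hyk' : coeffMap π y' ∈ F1C M k),
            coeffMap A.subtype y' =
              ((normAlpha1 M ℓ ⟨coeffMap A.subtype y, hy⟩ : ↥(F1Bar M)) : LaurentSeries Kb) ∧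
            (⟨coeffMap π y', hyk'⟩ : ↥(F1C M k)) =
              V1k M ℓ k (δk ⟨coeffMap π y, hyk⟩) *
                coeffRingAut₁ M k (frobAut k ℓ) ⟨coeffMap π y, hyk⟩ := by
  obtain ⟨δ, hδ, hN⟩ := qExpand_normAlpha1 hℓF.out hℓM hdeg hρ
  refine ⟨δ, hδ, fun δk hδk y hy hyk => ?_⟩
  obtain ⟨y', h1, h2⟩ := exists_normAlphaI A π hδk hN y hy hyk
  obtain ⟨hyk', h3⟩ := red_normAlpha_eq A π hyk h2
  exact ⟨y', hyk', h1, h3⟩

/-- **(A) from `HasRhoA`** : there is a diamond automorphism `δ = ⟨ℓ⟩^*` such that, whenever `δ`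
reduces to `δk`, the norm `N_{E/αF} (β y)` of an integral `y` is integral and reduces to
`V ȳ * Frob (δk ȳ)`. -/
theorem exists_normBetaI_of_seam [hℓF : Fact ℓ.Prime] [CharP k ℓ] [PerfectField k]
    (hℓM : ℓ.Coprime M) (hdeg : finrankAlong Kb (alpha1 M ℓ Kb) = ℓ + 1)
    (hρ : HasRhoA M ℓ hℓM) :
    ∃ δ : ↥(F1Bar M) ≃ₐ[Kb] ↥(F1Bar M),
      IsDiamondAut M Kb (ZMod.unitOfCoprime ℓ hℓM) δ ∧
      ∀ δk : ↥(F1C M k) → ↥(F1C M k), ReducesTo A π δ δk →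
        ∀ (y : LaurentSeries ↥A) (hy : coeffMap A.subtype y ∈ F1Bar M)
          (hyk : coeffMap π y ∈ F1C M k),
          ∃ (y' : LaurentSeries ↥A) (hyk' : coeffMap π y' ∈ F1C M k),
            coeffMap A.subtype y' =
              ((normBeta1 M ℓ ⟨coeffMap A.subtype y, hy⟩ : ↥(F1Bar M)) : LaurentSeries Kb) ∧
            (⟨coeffMap π y', hyk'⟩ : ↥(F1C M k)) =
              V1k M ℓ k ⟨coeffMap π y, hyk⟩ *
                coeffRingAut₁ M k (frobAut k ℓ) (δk ⟨coeffMap π y, hyk⟩) := by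
  obtain ⟨δ, hδ, hN⟩ := qExpand_normBeta1 hℓF.out hℓM hdeg hρ
  refine ⟨δ, hδ, fun δk hδk y hy hyk => ?_⟩
  obtain ⟨y', h1, h2⟩ := exists_normBetaI A π hδk hN y hy hyk
  obtain ⟨hyk', h3⟩ := red_normBeta_eq A π hyk h2
  exact ⟨y', hyk', h1, h3⟩

end Main

end Fermat.Agent.S48.B.ES.NormRed1

end
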