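import Mathlib
import Fermat.Agent.S48.B.ES.NormRed1
import Fermat.Agent.S48.B.Red.GaussG

/-!
# PROJECT D (S48), part B, brick [B-ES]: the reduction of the two norms on `X₁(M)` ON THE GAUSS RING
(helper10)

WHY THIS FILE.  `NormRed1.ReducesTo` asks that `δ` maps series with `A`-integral coefficients to
series with `A`-integral coefficients.  For a diamond automorphism this is FALSE in general: the
`q`-expansion of `δ f` is the expansion of `f` at another cusp, and `f = 1 / (ℓ x - 1)` (`x` regular at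
`∞` with a pole at that cusp) has integral coefficients while `δ f = q / (ℓ - q + ⋯)` has not.  What a
diamond automorphism does preserve is the GAUSS RING `Ow` of fractions `a / b` (`a`, `b` integral
series, `red b ≠ 0`; helper11's `Red/GaussG`), and this is what block B3 (bricks U + E0) delivers.

* `mem_Ow_of_series` (level-free): if `N ∈ FL`, `P, Q ∈ A((q))` (NOT necessarily in `FL`) with
  `N · P = Q` and `P̄ ≠ 0`, then `N ∈ Ow` and `redw N · P̄ = Q̄`;
* `redw_of_formula` : a characteristic-zero identity `V n = V (V w) * ∏_b v(ζ^b q)` with `w, v ∈ Ow`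
  gives `n ∈ Ow` and `redw n = V (redw w) * Frob (redw v)`;
* `ReducesOnOw A π δ δk` : `δ` preserves `Ow` and `redw ∘ δ = δk ∘ redw` (the HYPOTHESIS);
* (B) `redw_normAlpha1` : `redw (N_{E/βF} (α u)) = V (δk ū) * Frob ū` for every `u ∈ Ow`;
* (A) `redw_normBeta1` : `redw (N_{E/αF} (β u)) = V ū * Frob (δk ū)`;
* `_of_seam` forms from `HasRhoB` / `HasRhoA` and the degree.
-/

set_option autoImplicit false
set_option linter.unusedSectionVars false
set_option linter.style.haveILetI false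

noncomputable section

namespace Fermat.Agent.S48.B.ES.NormRedV1

open ModularCurve HahnSeries AlgebraicCurve
open Fermat.Agent.S28.LaurentRescale
open Fermat.Agent.S37.ES.NormRed
open Fermat.Agent.S37.Equivariance.CoeffAut (frobAut)
open Fermat.Agent.S48.B.Defs.Model Fermat.Agent.S48.B.ES.RhoSeam Fermat.Agent.S48.B.ES.NormAlpha1
open Fermat.Agent.S48.B.ES.NormRed1
open Fermat.Agent.S48.B.Red.CoeffAut1 Fermat.Agent.S48.B.Red.GaussG

/-! ### A series criterion for the Gauss ring -/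

section General

variable {L : Type*} [Field L] [Algebra ℚ L] {A : ValuationSubring L}
variable {k : Type*} [Field k] {π : A →+* k}
variable {F₀ : IntermediateField ℚ (LaurentSeries ℚ)} {Fk : IntermediateField k (LaurentSeries k)}

theorem coeffMap_subtype_single (c : A) :
    coeffMap A.subtype (HahnSeries.single (0 : ℤ) c : LaurentSeries A) =
      algebraMap L (LaurentSeries L) (c : L) := by
  rw [coeffMap_single, algebraMap_laurentSeries_eq_single]
  rfl

/-- **If `N ∈ FL` and `N · P = Q` for two series `P`, `Q` with coefficients in `A` (not necessarily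
in `FL`) and `P̄ ≠ 0`, then `N` lies in the Gauss ring and `redw N · P̄ = Q̄`.** -/
theorem mem_Ow_of_series (hrep : HasRep A π F₀ Fk) (hπ : ∀ a : A, ¬ IsUnit a → π a = 0)
    (N : ↥(laurentBaseChange L F₀)) {P Q : LaurentSeries ↥A} (hP : coeffMap π P ≠ 0)
    (h : (N : LaurentSeries L) * coeffMap A.subtype P = coeffMap A.subtype Q) :
    ∃ hN : N ∈ Ow A π F₀ Fk,
      ((redw A π F₀ Fk ⟨N, hN⟩ : ↥Fk) : LaurentSeries k) * coeffMap π P = coeffMap π Q := by
  rcases eq_or_ne N 0 with rfl | hN0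
  · have hQ : Q = 0 := by
      apply coeffMap_subtype_injective (A := A)
      rw [← h, map_zero]
      exact zero_mul _
    refine ⟨(Ow A π F₀ Fk).zero_mem, ?_⟩
    have h0 : (⟨0, (Ow A π F₀ Fk).zero_mem⟩ : ↥(Ow A π F₀ Fk)) = 0 := rfl
    rw [h0, map_zero, hQ, map_zero]
    exact zero_mul _
  obtain ⟨c, a, b, hc, ha, hb, hab⟩ := hrep N hN0
  have ha' : coeffMap π a.1 ≠ 0 := fun h0 => ha (Subtype.ext h0)
  have hb' : coeffMap π b.1 ≠ 0 := fun h0 => hb (Subtype.ext h0)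
  -- the relation in `L((q))`
  have habL : (N : LaurentSeries L) * coeffMap A.subtype b.1 =
      algebraMap L (LaurentSeries L) c * coeffMap A.subtype a.1 :=
    congrArg Subtype.val hab
  by_cases hcA : c ∈ A
  · -- `c ∈ A`
    have hrel : Q * b.1 = HahnSeries.single (0 : ℤ) (⟨c, hcA⟩ : ↥A) * a.1 * P := by
      apply coeffMap_subtype_injective (A := A)
      rw [map_mul, map_mul, map_mul, coeffMap_subtype_single, ← h]
      calc (N : LaurentSeries L) * coeffMap A.subtype P * coeffMap A.subtype b.1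
          = ((N : LaurentSeries L) * coeffMap A.subtype b.1) * coeffMap A.subtype P := by ring
        _ = _ := by rw [habL]
    have hmem : N ∈ Ow A π F₀ Fk := by
      refine ⟨constI ⟨c, hcA⟩ * a, b, hb, ?_⟩
      rw [map_mul, toFL_constI, hab]
    refine ⟨hmem, ?_⟩
    have hred : redw A π F₀ Fk ⟨N, hmem⟩ =
        red A π F₀ Fk (constI ⟨c, hcA⟩ * a) / red A π F₀ Fk b :=
      redw_eq ⟨N, hmem⟩ hb (by rw [map_mul, toFL_constI]; exact hab)
    have hred2 : redw A π F₀ Fk ⟨N, hmem⟩ * red A π F₀ Fk b =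
        red A π F₀ Fk (constI ⟨c, hcA⟩ * a) := by
      rw [hred, div_mul_cancel₀ _ hb]
    have hred3 : ((redw A π F₀ Fk ⟨N, hmem⟩ : ↥Fk) : LaurentSeries k) * coeffMap π b.1 =
        coeffMap π (HahnSeries.single (0 : ℤ) (⟨c, hcA⟩ : ↥A)) * coeffMap π a.1 := by
      have := congrArg Subtype.val hred2
      rw [map_mul] at this
      exact this
    have hk := congrArg (coeffMap π) hrel
    rw [map_mul, map_mul, map_mul] at hk
    apply mul_right_cancel₀ hb'
    calc ((redw A π F₀ Fk ⟨N, hmem⟩ : ↥Fk) : LaurentSeries k) * coeffMap π P * coeffMap π b.1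
        = (((redw A π F₀ Fk ⟨N, hmem⟩ : ↥Fk) : LaurentSeries k) * coeffMap π b.1) *
            coeffMap π P := by ring
      _ = coeffMap π Q * coeffMap π b.1 := by rw [hred3, hk]
  · -- `c ∉ A` is impossible
    exfalso
    have hci : c⁻¹ ∈ A := (A.mem_or_inv_mem c).resolve_left hcA
    have hnu : ¬ IsUnit (⟨c⁻¹, hci⟩ : ↥A) := by
      intro hu
      obtain ⟨v, hv⟩ := hu.exists_right_inv
      have hv' : c⁻¹ * (v : L) = 1 := congrArg Subtype.val hv
      apply hcA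
      have : (v : L) = c := by
        field_simp at hv'
        exact hv'
      rw [← this]
      exact v.2
    have hcc : algebraMap L (LaurentSeries L) c⁻¹ * algebraMap L (LaurentSeries L) c = 1 := by
      rw [← map_mul, inv_mul_cancel₀ hc, map_one]
    have hrel : a.1 * P = HahnSeries.single (0 : ℤ) (⟨c⁻¹, hci⟩ : ↥A) * Q * b.1 := by
      apply coeffMap_subtype_injective (A := A)
      rw [map_mul, map_mul, map_mul, coeffMap_subtype_single, ← h]
      calc coeffMap A.subtype a.1 * coeffMap A.subtype P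
          = algebraMap L (LaurentSeries L) c⁻¹ *
              (algebraMap L (LaurentSeries L) c * coeffMap A.subtype a.1) *
                coeffMap A.subtype P := by
            rw [← mul_assoc, hcc, one_mul]
        _ = algebraMap L (LaurentSeries L) c⁻¹ *
              ((N : LaurentSeries L) * coeffMap A.subtype P) * coeffMap A.subtype b.1 := by
            rw [← habL]; ring
    have hk := congrArg (coeffMap π) hrel
    rw [map_mul, map_mul, map_mul, coeffMap_single, hπ _ hnu, HahnSeries.single_eq_zero,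
      zero_mul, zero_mul] at hk
    exact mul_ne_zero ha' hP hk

end General

/-! ### Series lemmas -/

section Series

variable {R : Type*} [CommRing R]

theorem conjProd_mul (ζ : Rˣ) (ℓ : ℕ) (x y : LaurentSeries R) :
    conjProd ζ ℓ (x * y) = conjProd ζ ℓ x * conjProd ζ ℓ y := by
  unfold conjProd
  rw [← Finset.prod_mul_distrib]
  exact Finset.prod_congr rfl fun b _ => map_mul _ _ _

end Series

/-! ### The two norms on the Gauss ring of `X₁(M)` -/

section Main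

local notation "Kb" => AlgebraicClosure ℚ

variable {M ℓ : ℕ} [NeZero M] [NeZero ℓ] {A : ValuationSubring Kb} {k : Type*} [Field k]
  {π : ↥A →+* k}

/-- the Frobenius of `k(X₁(M))` is injective on series -/
theorem coeffMap_frobenius_ne_zero [Fact ℓ.Prime] [CharP k ℓ] {x : LaurentSeries k} (hx : x ≠ 0) :
    coeffMap (frobenius k ℓ) x ≠ 0 := by
  intro h0
  apply hx
  ext n
  have h1 := congrArg (fun z : LaurentSeries k => z.coeff n) h0
  simp only [coeffMap_coeff, HahnSeries.coeff_zero] at h1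
  rw [HahnSeries.coeff_zero]
  exact (map_eq_zero (frobenius k ℓ)).mp h1

/-- **The engine**: a characteristic-zero identity `V n = V (V w) * ∏_b v(ζ^b q)` with `w`, `v` in the
Gauss ring gives `n` in the Gauss ring with `redw n = V (redw w) * Frob (redw v)`. -/
theorem redw_of_formula [hℓF : Fact ℓ.Prime] [CharP k ℓ] [PerfectField k]
    (hrep : HasRep A π (F1 M) (F1C M k)) (hπ : ∀ a : ↥A, ¬ IsUnit a → π a = 0)
    {n w v : ↥(F1Bar M)}
    (hN : ∀ ζ : Kbˣ, IsPrimitiveRoot ζ ℓ →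
      qExpand Kb ℓ (n : LaurentSeries Kb) =
        qExpand Kb ℓ (qExpand Kb ℓ (w : LaurentSeries Kb)) *
          ∏ b ∈ Finset.range ℓ, rescaleU (ζ ^ b) (v : LaurentSeries Kb))
    (hw : w ∈ Ow A π (F1 M) (F1C M k)) (hv : v ∈ Ow A π (F1 M) (F1C M k)) :
    ∃ hn : n ∈ Ow A π (F1 M) (F1C M k),
      redw A π (F1 M) (F1C M k) ⟨n, hn⟩ =
        V1k M ℓ k (redw A π (F1 M) (F1C M k) ⟨w, hw⟩) *
          coeffRingAut₁ M k (frobAut k ℓ) (redw A π (F1 M) (F1C M k) ⟨v, hv⟩) := by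
  obtain ⟨ζ, ζA, hζ, hζA, hord, hπζ⟩ := exists_root (A := A) (π := π) (ℓ := ℓ)
  obtain ⟨aw, bw, hbw, habw⟩ := hw
  obtain ⟨av, bv, hbv, habv⟩ := hv
  have hbw' : coeffMap π bw.1 ≠ 0 := fun h0 => hbw (Subtype.ext h0)
  have hbv' : coeffMap π bv.1 ≠ 0 := fun h0 => hbv (Subtype.ext h0)
  have habwL : (w : LaurentSeries Kb) * coeffMap A.subtype bw.1 = coeffMap A.subtype aw.1 :=
    congrArg Subtype.val habw
  have habvL : (v : LaurentSeries Kb) * coeffMap A.subtype bv.1 = coeffMap A.subtype av.1 :=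
    congrArg Subtype.val habv
  set P : LaurentSeries ↥A := mixSeries ζA ℓ bw.1 bv.1 with hPdef
  set Q : LaurentSeries ↥A := mixSeries ζA ℓ aw.1 av.1 with hQdef
  -- the relation `n * P = Q`
  have hrel : (n : LaurentSeries Kb) * coeffMap A.subtype P = coeffMap A.subtype Q := by
    apply qExpand_injective ℓ
    rw [map_mul, ← coeffMap_qExpand, ← coeffMap_qExpand, hPdef, hQdef, qExpand_mixSeries hord,
      qExpand_mixSeries hord, map_mul, map_mul, coeffMap_qExpand, coeffMap_qExpand,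
      coeffMap_qExpand, coeffMap_qExpand, coeffMap_conjProd, coeffMap_conjProd, hζA, hN ζ hζ,
      ← habwL, ← habvL, conjProd_mul, map_mul, map_mul]
    unfold conjProd
    ring
  -- the reduction of `P`
  have hPk : coeffMap π P =
      qExpand k ℓ (coeffMap π bw.1) * coeffMap (frobenius k ℓ) (coeffMap π bv.1) := by
    rw [hPdef, coeffMap_mixSeries, hπζ, mixSeries_one_char]
  have hQk : coeffMap π Q =
      qExpand k ℓ (coeffMap π aw.1) * coeffMap (frobenius k ℓ) (coeffMap π av.1) := by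
    rw [hQdef, coeffMap_mixSeries, hπζ, mixSeries_one_char]
  have hP0 : coeffMap π P ≠ 0 := by
    rw [hPk]
    refine mul_ne_zero ?_ (coeffMap_frobenius_ne_zero hbv')
    intro h0
    exact hbw' (qExpand_injective ℓ (by rw [h0, map_zero]))
  obtain ⟨hn, hred⟩ := mem_Ow_of_series hrep hπ n hP0 hrel
  refine ⟨hn, ?_⟩
  -- inside `k(X₁(M))`
  have hVb : V1k M ℓ k (red A π (F1 M) (F1C M k) bw) ≠ 0 :=
    (map_ne_zero (V1k M ℓ k)).mpr hbw
  have hFb : coeffRingAut₁ M k (frobAut k ℓ) (red A π (F1 M) (F1C M k) bv) ≠ 0 :=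
    (map_ne_zero (coeffRingAut₁ M k (frobAut k ℓ))).mpr hbv
  have hkey : redw A π (F1 M) (F1C M k) ⟨n, hn⟩ *
      (V1k M ℓ k (red A π (F1 M) (F1C M k) bw) *
        coeffRingAut₁ M k (frobAut k ℓ) (red A π (F1 M) (F1C M k) bv)) =
      V1k M ℓ k (red A π (F1 M) (F1C M k) aw) *
        coeffRingAut₁ M k (frobAut k ℓ) (red A π (F1 M) (F1C M k) av) := by
    apply Subtype.ext
    rw [hPk, hQk] at hred
    exact hred
  rw [redw_eq ⟨w, ⟨aw, bw, hbw, habw⟩⟩ hbw habw, redw_eq ⟨v, ⟨av, bv, hbv, habv⟩⟩ hbv habv,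
    map_div₀, map_div₀, div_mul_div_comm, eq_div_iff (mul_ne_zero hVb hFb)]
  exact hkey

variable (A π)

/-- **`δ` preserves the Gauss ring and reduces to `δk`** (the output of block B3, bricks U + E0). -/
def ReducesOnOw (δ : ↥(F1Bar M) → ↥(F1Bar M)) (δk : ↥(F1C M k) → ↥(F1C M k)) : Prop :=
  ∀ (f : ↥(F1Bar M)) (hf : f ∈ Ow A π (F1 M) (F1C M k)),
    ∃ hδf : δ f ∈ Ow A π (F1 M) (F1C M k),
      redw A π (F1 M) (F1C M k) ⟨δ f, hδf⟩ = δk (redw A π (F1 M) (F1C M k) ⟨f, hf⟩)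

theorem reducesOnOw_id : ReducesOnOw (M := M) A π id id :=
  fun _ hf => ⟨hf, rfl⟩

variable {A π}

/-- **(B) The reduction of `N_{E/βF} (α u)` on the Gauss ring.** -/
theorem redw_normAlpha1 [Fact ℓ.Prime] [CharP k ℓ] [PerfectField k]
    (hrep : HasRep A π (F1 M) (F1C M k)) (hπ : ∀ a : ↥A, ¬ IsUnit a → π a = 0)
    {δ : ↥(F1Bar M) → ↥(F1Bar M)} {δk : ↥(F1C M k) → ↥(F1C M k)} (hδ : ReducesOnOw A π δ δk)
    (hN : ∀ ζ : Kbˣ, IsPrimitiveRoot ζ ℓ → ∀ u : ↥(F1Bar M),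
      qExpand Kb ℓ ((normAlpha1 M ℓ u : ↥(F1Bar M)) : LaurentSeries Kb) =
        qExpand Kb ℓ (qExpand Kb ℓ ((δ u : ↥(F1Bar M)) : LaurentSeries Kb)) *
          ∏ b ∈ Finset.range ℓ, rescaleU (ζ ^ b) (u : LaurentSeries Kb))
    (u : ↥(F1Bar M)) (hu : u ∈ Ow A π (F1 M) (F1C M k)) :
    ∃ hn : normAlpha1 M ℓ u ∈ Ow A π (F1 M) (F1C M k),
      redw A π (F1 M) (F1C M k) ⟨normAlpha1 M ℓ u, hn⟩ =
        V1k M ℓ k (δk (redw A π (F1 M) (F1C M k) ⟨u, hu⟩)) *
          coeffRingAut₁ M k (frobAut k ℓ) (redw A π (F1 M) (F1C M k) ⟨u, hu⟩) := by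
  obtain ⟨hδu, hδred⟩ := hδ u hu
  obtain ⟨hn, h⟩ := redw_of_formula hrep hπ (fun ζ hζ => hN ζ hζ u) hδu hu
  exact ⟨hn, by rw [h, hδred]⟩

/-- **(A) The reduction of `N_{E/αF} (β u)` on the Gauss ring.** -/
theorem redw_normBeta1 [Fact ℓ.Prime] [CharP k ℓ] [PerfectField k]
    (hrep : HasRep A π (F1 M) (F1C M k)) (hπ : ∀ a : ↥A, ¬ IsUnit a → π a = 0)
    {δ : ↥(F1Bar M) → ↥(F1Bar M)} {δk : ↥(F1C M k) → ↥(F1C M k)} (hδ : ReducesOnOw A π δ δk)
    (hN : ∀ ζ : Kbˣ, IsPrimitiveRoot ζ ℓ → ∀ u : ↥(F1Bar M),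
      qExpand Kb ℓ ((normBeta1 M ℓ u : ↥(F1Bar M)) : LaurentSeries Kb) =
        qExpand Kb ℓ (qExpand Kb ℓ (u : LaurentSeries Kb)) *
          ∏ b ∈ Finset.range ℓ, rescaleU (ζ ^ b) ((δ u : ↥(F1Bar M)) : LaurentSeries Kb))
    (u : ↥(F1Bar M)) (hu : u ∈ Ow A π (F1 M) (F1C M k)) :
    ∃ hn : normBeta1 M ℓ u ∈ Ow A π (F1 M) (F1C M k),
      redw A π (F1 M) (F1C M k) ⟨normBeta1 M ℓ u, hn⟩ =
        V1k M ℓ k (redw A π (F1 M) (F1C M k) ⟨u, hu⟩) *
          coeffRingAut₁ M k (frobAut k ℓ) (δk (redw A π (F1 M) (F1C M k) ⟨u, hu⟩)) := by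
  obtain ⟨hδu, hδred⟩ := hδ u hu
  obtain ⟨hn, h⟩ := redw_of_formula hrep hπ (fun ζ hζ => hN ζ hζ u) hu hδu
  exact ⟨hn, by rw [h, hδred]⟩

/-- **(B) from `HasRhoB`.** -/
theorem redw_normAlpha1_of_seam [hℓF : Fact ℓ.Prime] [CharP k ℓ] [PerfectField k]
    (hrep : HasRep A π (F1 M) (F1C M k)) (hπ : ∀ a : ↥A, ¬ IsUnit a → π a = 0)
    (hℓM : ℓ.Coprime M) (hdeg : finrankAlong Kb (beta1 M ℓ Kb) = ℓ + 1)
    (hρ : HasRhoB M ℓ hℓM) :
    ∃ δ : ↥(F1Bar M) ≃ₐ[Kb] ↥(F1Bar M),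
      IsDiamondAut M Kb (ZMod.unitOfCoprime ℓ hℓM)⁻¹ δ ∧
      ∀ δk : ↥(F1C M k) → ↥(F1C M k), ReducesOnOw A π δ δk →
        ∀ (u : ↥(F1Bar M)) (hu : u ∈ Ow A π (F1 M) (F1C M k)),
          ∃ hn : normAlpha1 M ℓ u ∈ Ow A π (F1 M) (F1C M k),
            redw A π (F1 M) (F1C M k) ⟨normAlpha1 M ℓ u, hn⟩ =
              V1k M ℓ k (δk (redw A π (F1 M) (F1C M k) ⟨u, hu⟩)) *
                coeffRingAut₁ M k (frobAut k ℓ) (redw A π (F1 M) (F1C M k) ⟨u, hu⟩) := by
  obtain ⟨δ, hδ, hN⟩ := qExpand_normAlpha1 hℓF.out hℓM hdeg hρ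
  exact ⟨δ, hδ, fun δk hδk u hu => redw_normAlpha1 hrep hπ hδk hN u hu⟩

/-- **(A) from `HasRhoA`.** -/
theorem redw_normBeta1_of_seam [hℓF : Fact ℓ.Prime] [CharP k ℓ] [PerfectField k]
    (hrep : HasRep A π (F1 M) (F1C M k)) (hπ : ∀ a : ↥A, ¬ IsUnit a → π a = 0)
    (hℓM : ℓ.Coprime M) (hdeg : finrankAlong Kb (alpha1 M ℓ Kb) = ℓ + 1)
    (hρ : HasRhoA M ℓ hℓM) :
    ∃ δ : ↥(F1Bar M) ≃ₐ[Kb] ↥(F1Bar M),
      IsDiamondAut M Kb (ZMod.unitOfCoprime ℓ hℓM) δ ∧
      ∀ δk : ↥(F1C M k) → ↥(F1C M k), ReducesOnOw A π δ δk →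
        ∀ (u : ↥(F1Bar M)) (hu : u ∈ Ow A π (F1 M) (F1C M k)),
          ∃ hn : normBeta1 M ℓ u ∈ Ow A π (F1 M) (F1C M k),
            redw A π (F1 M) (F1C M k) ⟨normBeta1 M ℓ u, hn⟩ =
              V1k M ℓ k (redw A π (F1 M) (F1C M k) ⟨u, hu⟩) *
                coeffRingAut₁ M k (frobAut k ℓ)
                  (δk (redw A π (F1 M) (F1C M k) ⟨u, hu⟩)) := by
  obtain ⟨δ, hδ, hN⟩ := qExpand_normBeta1 hℓF.out hℓM hdeg hρ
  exact ⟨δ, hδ, fun δk hδk u hu => redw_normBeta1 hrep hπ hδk hN u hu⟩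

end Main

end Fermat.Agent.S48.B.ES.NormRedV1

end
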