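/-
PROJECT D (S48), part B, brick [B-ES]: the abstract Eichler-Shimura relation on divisors of degree
zero, WITH TWO INDEPENDENT AUTOMORPHISMS (helper10).

Main's `S37/ES/RelationCore.relation_of_principal` is the case `h = g⁻¹`.  On `X₁(M)` the relation is
  `r_* (T_ℓ D) = Fr • r_* D + ℓ • (Fr⁻¹ * ⟨ℓ⟩) • r_* D`,
i.e. `h = g⁻¹ * d` with `d` the (base-trivial) diamond automorphism of the reduced function field.

If `r_* (T D) = g • r_* D + ℓ • h • r_* D` holds for all PRINCIPAL divisors `D`, then it holds for all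
divisors of DEGREE ZERO (`S37/ES/RigidityDegZero`: the difference of the two sides is a bounded
additive map killing principal divisors).
-/
import Mathlib
import Fermat.Prelude.Def_AlgebraicCurve_BaseChangeGalois
import Fermat.Agent.S37.ES.RigidityDegZero
import Fermat.Agent.S37.ES.RelationCore

set_option autoImplicit false
set_option linter.unusedSectionVars false

noncomputable section

namespace Fermat.Agent.S48.B.ES.RelationCore1

open AlgebraicCurve Fermat.Agent.S18.NonSpecial Fermat.Agent.S37.ES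
open Fermat.Agent.S37.ES.RelationCore

variable {K : Type*} [Field K] {F : Type*} [Field F] [Algebra K F]
variable {K' : Type*} [Field K'] {F' : Type*} [Field F'] [Algebra K' F']

/-- **Abstract Eichler-Shimura relation with two automorphisms**: from principal divisors to all
divisors of degree `0`. -/
theorem relation_of_principal_two {gen : ℕ} (hR : RiemannHyp K F gen) [HasPrincipalDivisors K F]
    (T : Divisor K F →+ Divisor K F) (n : ℤ)
    (hTeff : ∀ P : Place K F, 0 ≤ T (Finsupp.single P 1))
    (hTdeg : ∀ P : Place K F, Divisor.degree (T (Finsupp.single P 1)) ≤ n)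
    (r : Place K F → Place K' F') (hrdeg : ∀ P, (r P).deg = P.deg)
    (hdeg' : ∀ Q : Place K' F', Q.deg = 1)
    (g h : SemilinearAut K' F') (ℓ : ℕ)
    (hprin : ∀ D ∈ Divisor.principal (K := K) (F := F),
      Finsupp.mapDomain r (T D) =
        g • Finsupp.mapDomain r D + ℓ • (h • Finsupp.mapDomain r D))
    (D : Divisor K F) (hD : Divisor.degree D = 0) :
    Finsupp.mapDomain r (T D) = g • Finsupp.mapDomain r D + ℓ • (h • Finsupp.mapDomain r D) := by
  classical
  set Rm : Divisor K F →+ Divisor K' F' := Finsupp.mapDomain.addMonoidHom r with hRm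
  set G : Divisor K' F' →+ Divisor K' F' :=
    DistribSMul.toAddMonoidHom (Divisor K' F') g +
      ℓ • DistribSMul.toAddMonoidHom (Divisor K' F') h with hG
  set Ψ : Divisor K F →+ Divisor K' F' := Rm.comp T - G.comp Rm with hΨ
  have hΨapp : ∀ E, Ψ E = Finsupp.mapDomain r (T E) -
      (g • Finsupp.mapDomain r E + ℓ • (h • Finsupp.mapDomain r E)) := fun E => rfl
  have hΨprin : ∀ E ∈ Divisor.principal (K := K) (F := F), Ψ E = 0 := by
    intro E hE
    rw [hΨapp, hprin E hE, sub_self]
  have hn0 : 0 ≤ n := by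
    have := hR.infinite
    obtain ⟨P₀⟩ : Nonempty (Place K F) := inferInstance
    have h1 := hTdeg P₀
    have h2 : 0 ≤ Divisor.degree (T (Finsupp.single P₀ 1)) := by
      have := apply_le_degree hR.deg_one (hTeff P₀) P₀
      exact (Finsupp.le_def.1 (hTeff P₀) P₀).trans this
    exact h2.trans h1
  have hbound : ∀ (P : Place K F) (Q : Place K' F'),
      |Ψ (Finsupp.single P 1) Q| ≤ n + 1 + ℓ := by
    intro P Q
    rw [hΨapp, Finsupp.mapDomain_single, SemilinearAut.smul_single, SemilinearAut.smul_single,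
      Finsupp.sub_apply, Finsupp.add_apply, Finsupp.smul_apply]
    have h1 : |Finsupp.mapDomain r (T (Finsupp.single P 1)) Q| ≤ n := by
      have hE := mapDomain_nonneg r (hTeff P)
      refine (abs_apply_le_degree hdeg' hE Q).trans ?_
      rw [degree_mapDomain r hrdeg]
      exact hTdeg P
    have h2 : |(Finsupp.single (g • r P) (1 : ℤ)) Q| ≤ 1 := by
      rw [Finsupp.single_apply]
      split_ifs <;> simp
    have h3 : |(Finsupp.single (h • r P) (1 : ℤ)) Q| ≤ 1 := by
      rw [Finsupp.single_apply]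
      split_ifs <;> simp
    have h4 : |ℓ • (Finsupp.single (h • r P) (1 : ℤ)) Q| ≤ ℓ := by
      rw [nsmul_eq_mul, abs_mul, Nat.abs_cast]
      calc (ℓ : ℤ) * |(Finsupp.single (h • r P) (1 : ℤ)) Q| ≤ ℓ * 1 :=
            mul_le_mul_of_nonneg_left h3 (Int.natCast_nonneg ℓ)
        _ = ℓ := mul_one _
    calc |Finsupp.mapDomain r (T (Finsupp.single P 1)) Q -
          ((Finsupp.single (g • r P) (1 : ℤ)) Q + ℓ • (Finsupp.single (h • r P) (1 : ℤ)) Q)|
        ≤ |Finsupp.mapDomain r (T (Finsupp.single P 1)) Q| +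
          |(Finsupp.single (g • r P) (1 : ℤ)) Q + ℓ • (Finsupp.single (h • r P) (1 : ℤ)) Q| :=
          abs_sub _ _
      _ ≤ n + (1 + ℓ) := add_le_add h1 ((abs_add_le _ _).trans (add_le_add h2 h4))
      _ = n + 1 + ℓ := by ring
  have h0 := RigidityDegZero.eq_zero_of_degree_eq_zero hR Ψ hΨprin (n + 1 + ℓ) hbound D hD
  rw [hΨapp, sub_eq_zero] at h0
  exact h0

/-- the twisted form: `h = g⁻¹ * d`. -/
theorem relation_of_principal_twisted {gen : ℕ} (hR : RiemannHyp K F gen)
    [HasPrincipalDivisors K F]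
    (T : Divisor K F →+ Divisor K F) (n : ℤ)
    (hTeff : ∀ P : Place K F, 0 ≤ T (Finsupp.single P 1))
    (hTdeg : ∀ P : Place K F, Divisor.degree (T (Finsupp.single P 1)) ≤ n)
    (r : Place K F → Place K' F') (hrdeg : ∀ P, (r P).deg = P.deg)
    (hdeg' : ∀ Q : Place K' F', Q.deg = 1)
    (g d : SemilinearAut K' F') (ℓ : ℕ)
    (hprin : ∀ D ∈ Divisor.principal (K := K) (F := F),
      Finsupp.mapDomain r (T D) =
        g • Finsupp.mapDomain r D + ℓ • (g⁻¹ • (d • Finsupp.mapDomain r D)))
    (D : Divisor K F) (hD : Divisor.degree D = 0) :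
    Finsupp.mapDomain r (T D) =
      g • Finsupp.mapDomain r D + ℓ • (g⁻¹ • (d • Finsupp.mapDomain r D)) := by
  have h := relation_of_principal_two hR T n hTeff hTdeg r hrdeg hdeg' g (g⁻¹ * d) ℓ
    (fun E hE => by rw [mul_smul]; exact hprin E hE) D hD
  rw [mul_smul] at h
  exact h

end Fermat.Agent.S48.B.ES.RelationCore1

end
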