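/-
PROJECT D (S48), part B, brick [B-ES]: the Eichler-Shimura relation for `T_ℓ = β_* α^*` on `X₁(M)`, ON
DIVISORS (helper10; twin of the divisor half of main's `S37/ES/Relation`).

`A : ValuationSubring ℚ̄`, `π : A →+* k`, `char k = ℓ`, `k` perfect, `r` a place reduction for
`(F1 M, F1C M k)`, `T = Divisor.correspondence α₁ β₁` (`α₁ = alpha1`, `β₁ = beta1`),
`g = coeffAut₁ (frobAut k ℓ)` the Frobenius, `d` a `k`-semilinear automorphism of `F1C M k` (the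
reduction of the diamond automorphism `δ = ⟨ℓ⁻¹⟩^*`: `ReducesOnOw A π δ (d • ·)`).

  `r_* (T D) = g • r_* D + ℓ • (g⁻¹ • (d • r_* D))`

* `mapDomain_hecke1_integral`  : for `D` the divisor of an integral element with nonzero reduction
  (`NormRedV1.redw_normAlpha1` + `GaussG.mapDomain_div_eq`);
* `mapDomain_hecke1_principal` : for all principal `D` (`PrincipalGeneratedByIntegralG`);
* `mapDomain_hecke1_degZero`   : for all `D` of degree zero (`RelationCore1`).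

HYPOTHESES (all produced elsewhere): the components of `CorrInputs α₁ β₁`, the degree `ℓ + 1` of `α₁`,
`HasRep`, the characteristic-zero norm formula (B) of `NormAlpha1`, `ReducesOnOw`.
-/
import Mathlib
import Fermat.Agent.S37.ES.Relation
import Fermat.Agent.S48.B.ES.NormRedV1
import Fermat.Agent.S48.B.ES.RelationCore1

set_option autoImplicit false
set_option linter.unusedSectionVars false
set_option linter.style.haveILetI false

noncomputable section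

namespace Fermat.Agent.S48.B.ES.RelStep1

open ModularCurve HahnSeries AlgebraicCurve
open Fermat.Agent.S18.NonSpecial
open Fermat.Agent.S28.LaurentRescale
open Fermat.Agent.S37.Equivariance.CoeffAut (frobAut)
open Fermat.Agent.S48.B.Defs.Model Fermat.Agent.S48.B.Defs.Reduction
open Fermat.Agent.S48.B.ES.NormAlpha1 Fermat.Agent.S48.B.ES.NormRed1
open Fermat.Agent.S48.B.ES.NormRedV1 Fermat.Agent.S48.B.ES.DegreeBeta1
open Fermat.Agent.S48.B.Red.CoeffAut1 Fermat.Agent.S48.B.Red.GaussG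

local notation "Kb" => AlgebraicClosure ℚ

variable {M ℓ : ℕ} [NeZero M] [NeZero ℓ] {A : ValuationSubring Kb} {k : Type*} [Field k]
  {π : ↥A →+* k}

/-- the Hecke correspondence `T_ℓ = β_* α^*` on divisors of `ℚ̄(X₁(M))` -/
abbrev heckeDiv1 [HasPrincipalDivisors Kb ↥(F1pBar M ℓ)]
    (hα : (alpha1 M ℓ Kb).toRingHom.IsIntegral)
    (hβ : (beta1 M ℓ Kb).toRingHom.IsIntegral) :
    Divisor Kb ↥(F1Bar M) →+ Divisor Kb ↥(F1Bar M) :=
  Divisor.correspondence (alpha1 M ℓ Kb) (beta1 M ℓ Kb) hα hβ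

/-- `T_ℓ (div u) = div N_{E/βF}(α u)`. -/
theorem heckeDiv1_principal [HasPrincipalDivisors Kb ↥(F1pBar M ℓ)]
    (hα : (alpha1 M ℓ Kb).toRingHom.IsIntegral) (hβ : (beta1 M ℓ Kb).toRingHom.IsIntegral)
    (hfin : FiniteAlong Kb (beta1 M ℓ Kb)) (hNF : NormFormulaAlong Kb (beta1 M ℓ Kb) hfin)
    {u : ↥(F1Bar M)} (hu : u ≠ 0) {D : Divisor Kb ↥(F1Bar M)} (hD : ∀ v, D v = v.ord u)
    (v : Place Kb ↥(F1Bar M)) :
    heckeDiv1 hα hβ D v = v.ord (normAlpha1 M ℓ u) :=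
  Fermat.Agent.S37.ES.Relation.correspondence_apply_of_principal _ _ hα hβ hfin hNF hu hD v

/-- `T_ℓ P` is effective. -/
theorem heckeDiv1_single_nonneg [HasPrincipalDivisors Kb ↥(F1pBar M ℓ)]
    (hα : (alpha1 M ℓ Kb).toRingHom.IsIntegral)
    (hβ : (beta1 M ℓ Kb).toRingHom.IsIntegral) (P : Place Kb ↥(F1Bar M)) :
    0 ≤ heckeDiv1 hα hβ (Finsupp.single P 1) := by
  classical
  refine Fermat.Agent.S37.ES.Relation.correspondence_nonneg _ _ hα hβ ?_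
  rw [Finsupp.le_def]
  intro Q
  rw [Finsupp.single_apply]
  split_ifs <;> simp

/-- **On the divisor of an integral element with nonzero reduction.** -/
theorem mapDomain_hecke1_integral [hℓF : Fact ℓ.Prime] [CharP k ℓ] [PerfectField k]
    [HasPrincipalDivisors Kb ↥(F1Bar M)] [HasPrincipalDivisors Kb ↥(F1pBar M ℓ)]
    (hrep : HasRep A π (F1 M) (F1C M k)) (hπ : ∀ a : ↥A, ¬ IsUnit a → π a = 0)
    (hα : (alpha1 M ℓ Kb).toRingHom.IsIntegral) (hβ : (beta1 M ℓ Kb).toRingHom.IsIntegral)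
    (hfin : FiniteAlong Kb (beta1 M ℓ Kb)) (hNF : NormFormulaAlong Kb (beta1 M ℓ Kb) hfin)
    {δ : ↥(F1Bar M) → ↥(F1Bar M)} (d : SemilinearAut k ↥(F1C M k))
    (hδ : ReducesOnOw A π δ (fun x => d • x))
    (hN : ∀ ζ : Kbˣ, IsPrimitiveRoot ζ ℓ → ∀ u : ↥(F1Bar M),
      qExpand Kb ℓ ((normAlpha1 M ℓ u : ↥(F1Bar M)) : LaurentSeries Kb) =
        qExpand Kb ℓ (qExpand Kb ℓ ((δ u : ↥(F1Bar M)) : LaurentSeries Kb)) *
          ∏ b ∈ Finset.range ℓ, rescaleU (ζ ^ b) (u : LaurentSeries Kb))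
    {r : Place Kb ↥(F1Bar M) → Place k ↥(F1C M k)}
    (hr : IsPlaceReductionAlongG A π (F1 M) (F1C M k) r)
    {E : Divisor Kb ↥(F1Bar M)} (hE : E ∈ integralPrincipalDivisorsG A π (F1 M) (F1C M k)) :
    Finsupp.mapDomain r (heckeDiv1 hα hβ E) =
      coeffAut₁ M k (frobAut k ℓ) • Finsupp.mapDomain r E +
        ℓ • ((coeffAut₁ M k (frobAut k ℓ))⁻¹ • (d • Finsupp.mapDomain r E)) := by
  obtain ⟨y, hy, hyk, hne, hEy⟩ := hE
  set a : ↥(intRing A π (F1 M) (F1C M k)) := ⟨y, hy, hyk⟩ with ha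
  set g : SemilinearAut k ↥(F1C M k) := coeffAut₁ M k (frobAut k ℓ) with hg
  have hginv : g⁻¹ = coeffAut₁ M k (frobAut k ℓ)⁻¹ := (map_inv _ _).symm
  have hane : red A π (F1 M) (F1C M k) a ≠ 0 := fun h => hne (congrArg Subtype.val h)
  have hu0 : toFL A π (F1 M) (F1C M k) a ≠ 0 := toFL_ne_zero_of_red_ne_zero hane
  have hu : toFL A π (F1 M) (F1C M k) a ∈ Ow A π (F1 M) (F1C M k) := toFL_mem_Ow a
  have hredu : redw A π (F1 M) (F1C M k) ⟨toFL A π (F1 M) (F1C M k) a, hu⟩ =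
      red A π (F1 M) (F1C M k) a := redw_toFL a
  obtain ⟨hn, hredN⟩ := redw_normAlpha1 hrep hπ hδ hN (toFL A π (F1 M) (F1C M k) a) hu
  rw [hredu, V1k_eq_inv] at hredN
  -- the two factors
  have h1 : g • red A π (F1 M) (F1C M k) a ≠ 0 := by
    rw [Ne, smul_eq_zero_iff_eq]
    exact hane
  have h2 : g⁻¹ • (d • red A π (F1 M) (F1C M k) a) ≠ 0 := by
    rw [Ne, smul_eq_zero_iff_eq, smul_eq_zero_iff_eq]
    exact hane
  have hred' : redw A π (F1 M) (F1C M k) ⟨normAlpha1 M ℓ (toFL A π (F1 M) (F1C M k) a), hn⟩ =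
      (g⁻¹ • (d • red A π (F1 M) (F1C M k) a)) ^ ℓ * (g • red A π (F1 M) (F1C M k) a) := by
    rw [hredN, hginv]
    rfl
  have hneN : redw A π (F1 M) (F1C M k)
      ⟨normAlpha1 M ℓ (toFL A π (F1 M) (F1C M k) a), hn⟩ ≠ 0 := by
    rw [hred']
    exact mul_ne_zero (pow_ne_zero _ h2) h1
  -- `T E = div N`
  have hEy' : ∀ P, E P = P.ord (toFL A π (F1 M) (F1C M k) a) := hEy
  have hTE : ∀ P, heckeDiv1 hα hβ E P =
      P.ord (normAlpha1 M ℓ (toFL A π (F1 M) (F1C M k) a)) :=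
    fun P => heckeDiv1_principal hα hβ hfin hNF hu0 hEy' P
  have hrE := hr.2 y hy hyk hne E hEy
  ext Q
  rw [mapDomain_div_eq hr ⟨_, hn⟩ hneN _ hTE Q, Finsupp.add_apply, Finsupp.smul_apply,
    Fermat.Agent.S37.ES.Relation.smul_div_apply g hrE,
    Fermat.Agent.S37.ES.Relation.smul_div_apply g⁻¹
      (Fermat.Agent.S37.ES.Relation.smul_div_apply d hrE)]
  rw [hred', Q.ord_mul (pow_ne_zero _ h2) h1, ← zpow_natCast, Q.ord_zpow, add_comm,
    nsmul_eq_mul]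
  rfl

/-- **On all principal divisors.** -/
theorem mapDomain_hecke1_principal [hℓF : Fact ℓ.Prime] [CharP k ℓ] [PerfectField k]
    [HasPrincipalDivisors Kb ↥(F1Bar M)] [HasPrincipalDivisors Kb ↥(F1pBar M ℓ)]
    (hrep : HasRep A π (F1 M) (F1C M k)) (hπ : ∀ a : ↥A, ¬ IsUnit a → π a = 0)
    (hα : (alpha1 M ℓ Kb).toRingHom.IsIntegral) (hβ : (beta1 M ℓ Kb).toRingHom.IsIntegral)
    (hfin : FiniteAlong Kb (beta1 M ℓ Kb)) (hNF : NormFormulaAlong Kb (beta1 M ℓ Kb) hfin)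
    {δ : ↥(F1Bar M) → ↥(F1Bar M)} (d : SemilinearAut k ↥(F1C M k))
    (hδ : ReducesOnOw A π δ (fun x => d • x))
    (hN : ∀ ζ : Kbˣ, IsPrimitiveRoot ζ ℓ → ∀ u : ↥(F1Bar M),
      qExpand Kb ℓ ((normAlpha1 M ℓ u : ↥(F1Bar M)) : LaurentSeries Kb) =
        qExpand Kb ℓ (qExpand Kb ℓ ((δ u : ↥(F1Bar M)) : LaurentSeries Kb)) *
          ∏ b ∈ Finset.range ℓ, rescaleU (ζ ^ b) (u : LaurentSeries Kb))
    {r : Place Kb ↥(F1Bar M) → Place k ↥(F1C M k)}
    (hr : IsPlaceReductionAlongG A π (F1 M) (F1C M k) r)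
    (hgen : PrincipalGeneratedByIntegralG A π (F1 M) (F1C M k))
    {D : Divisor Kb ↥(F1Bar M)}
    (hD : D ∈ Divisor.principal (K := Kb) (F := ↥(F1Bar M))) :
    Finsupp.mapDomain r (heckeDiv1 hα hβ D) =
      coeffAut₁ M k (frobAut k ℓ) • Finsupp.mapDomain r D +
        ℓ • ((coeffAut₁ M k (frobAut k ℓ))⁻¹ • (d • Finsupp.mapDomain r D)) := by
  set g : SemilinearAut k ↥(F1C M k) := coeffAut₁ M k (frobAut k ℓ) with hg
  set Rm : Divisor Kb ↥(F1Bar M) →+ Divisor k ↥(F1C M k) :=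
    Finsupp.mapDomain.addMonoidHom r with hRm
  set G : Divisor k ↥(F1C M k) →+ Divisor k ↥(F1C M k) :=
    DistribSMul.toAddMonoidHom _ g + ℓ • DistribSMul.toAddMonoidHom _ (g⁻¹ * d) with hG
  have key : Set.EqOn (Rm.comp (heckeDiv1 hα hβ)) (G.comp Rm)
      (AddSubgroup.closure (integralPrincipalDivisorsG A π (F1 M) (F1C M k))) :=
    AddMonoidHom.eqOn_closure fun E hE => by
      have := mapDomain_hecke1_integral hrep hπ hα hβ hfin hNF d hδ hN hr hE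
      show Finsupp.mapDomain r (heckeDiv1 hα hβ E) =
        g • Finsupp.mapDomain r E + ℓ • ((g⁻¹ * d) • Finsupp.mapDomain r E)
      rw [mul_smul]
      exact this
  have h := key (hgen hD)
  have h' : Finsupp.mapDomain r (heckeDiv1 hα hβ D) =
      g • Finsupp.mapDomain r D + ℓ • ((g⁻¹ * d) • Finsupp.mapDomain r D) := h
  rw [mul_smul] at h'
  exact h'

/-- **Eichler-Shimura on divisors of degree zero**:
`r_* (T_ℓ D) = Fr • r_* D + ℓ • Fr⁻¹ • d • r_* D`. -/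
theorem mapDomain_hecke1_degZero [hℓF : Fact ℓ.Prime] [CharP k ℓ] [PerfectField k]
    [HasPrincipalDivisors Kb ↥(F1Bar M)] [HasPrincipalDivisors Kb ↥(F1pBar M ℓ)]
    {gen : ℕ} (hR : RiemannHyp Kb ↥(F1Bar M) gen)
    (hdegk : ∀ Q : Place k ↥(F1C M k), Q.deg = 1)
    (hrep : HasRep A π (F1 M) (F1C M k)) (hπ : ∀ a : ↥A, ¬ IsUnit a → π a = 0)
    (hα : (alpha1 M ℓ Kb).toRingHom.IsIntegral) (hβ : (beta1 M ℓ Kb).toRingHom.IsIntegral)
    (hFI : FundamentalIdentityAlong Kb (alpha1 M ℓ Kb) hα)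
    (hdegα : finrankAlong Kb (alpha1 M ℓ Kb) = ℓ + 1)
    (hfin : FiniteAlong Kb (beta1 M ℓ Kb)) (hNF : NormFormulaAlong Kb (beta1 M ℓ Kb) hfin)
    {δ : ↥(F1Bar M) → ↥(F1Bar M)} (d : SemilinearAut k ↥(F1C M k))
    (hδ : ReducesOnOw A π δ (fun x => d • x))
    (hN : ∀ ζ : Kbˣ, IsPrimitiveRoot ζ ℓ → ∀ u : ↥(F1Bar M),
      qExpand Kb ℓ ((normAlpha1 M ℓ u : ↥(F1Bar M)) : LaurentSeries Kb) =
        qExpand Kb ℓ (qExpand Kb ℓ ((δ u : ↥(F1Bar M)) : LaurentSeries Kb)) *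
          ∏ b ∈ Finset.range ℓ, rescaleU (ζ ^ b) (u : LaurentSeries Kb))
    {r : Place Kb ↥(F1Bar M) → Place k ↥(F1C M k)}
    (hr : IsPlaceReductionAlongG A π (F1 M) (F1C M k) r)
    (hgen : PrincipalGeneratedByIntegralG A π (F1 M) (F1C M k))
    (D : Divisor Kb ↥(F1Bar M)) (hD : Divisor.degree D = 0) :
    Finsupp.mapDomain r (heckeDiv1 hα hβ D) =
      coeffAut₁ M k (frobAut k ℓ) • Finsupp.mapDomain r D +
        ℓ • ((coeffAut₁ M k (frobAut k ℓ))⁻¹ • (d • Finsupp.mapDomain r D)) := by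
  refine Fermat.Agent.S48.B.ES.RelationCore1.relation_of_principal_twisted hR
    (heckeDiv1 hα hβ) ((ℓ : ℤ) + 1) (fun P => heckeDiv1_single_nonneg hα hβ P) (fun P => ?_)
    r hr.1 hdegk (coeffAut₁ M k (frobAut k ℓ)) d ℓ
    (fun E hE => mapDomain_hecke1_principal hrep hπ hα hβ hfin hNF d hδ hN hr hgen hE) D hD
  show Divisor.degree (Divisor.correspondence (alpha1 M ℓ Kb) (beta1 M ℓ Kb) hα hβ
    (Finsupp.single P 1)) ≤ (ℓ : ℤ) + 1
  rw [Divisor.degree_correspondence _ _ hα hβ hFI, hdegα, Divisor.degree_single, hR.deg_one]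
  push_cast
  ring_nf
  exact le_rfl

end Fermat.Agent.S48.B.ES.RelStep1

end
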