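/-
PROJECT D (S48), part B, brick [B-ES]: the Eichler-Shimura relation (R3') for `X₁(M)` ON CLASSES
(helper10; twin of the class half of main's `S37/ES/Relation`, the wrapper of `ES/RelStep1`).

`A : ValuationSubring ℚ̄` over `ℓ ∤ M`, `κ = κ(A)`, `red = reduction1 A M`, `u = unitOfCoprime ℓ`,
`δ = diamondAut M ℚ̄ u⁻¹` (so that `⟨ℓ⟩_* = diamond1Bar M u` is the action of `δ` on `Pic0`),
`δ̄ = Diamond1.redAut₁ hrep δ hδO` its reduction (helper3's bricks U + E0):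

  `red (T_ℓ x) = Fb (red x) + V (red (⟨ℓ⟩_* x))`,   `Fb = frobPic0₁`, `V = verPic0₁ = ℓ ∘ Fb⁻¹`,

which is the display of helper11's `Red/Glue1.ES1`.

* `reducesOnOw_redAut`  : `δ` reduces to `δ̄` on the Gauss ring (the hypothesis of `RelStep1`);
* `hecke1Bar_mk`        : `T_ℓ` on the class of a divisor;
* `reduction1_hecke_of` : (R3') at one `A`, all inputs explicit;
* `es1_of`              : `Glue1.ES1 M` from the producers' hypotheses.

The seam-level corollary `es1_of_seams` is in `ES/RelPic1/Final.lean`.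
-/
import Mathlib
import Fermat.Agent.S18.ResidueBasics
import Fermat.Agent.S48.B.ES.RelStep1
import Fermat.Agent.S48.B.ES.DegreeBridge1
import Fermat.Agent.S48.B.Red.Diamond1
import Fermat.Agent.S48.B.Red.Glue1

set_option autoImplicit false
set_option linter.unusedSectionVars false
set_option linter.style.haveILetI false

noncomputable section

namespace Fermat.Agent.S48.B.ES.RelPic1

open ModularCurve AlgebraicCurve AlgebraicCurve.SemilinearAut IsLocalRing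
open Fermat.Agent.S18.NonSpecial
open Fermat.Agent.S37.Equivariance.CoeffAut (frobAut)
open Fermat.Agent.S48.B.Defs.Model Fermat.Agent.S48.B.Defs.Reduction
open Fermat.Agent.S48.B.ES.RhoSeam Fermat.Agent.S48.B.ES.NormAlpha1
open Fermat.Agent.S48.B.ES.NormRedV1 Fermat.Agent.S48.B.ES.RelStep1
open Fermat.Agent.S48.B.ES.DiamondUnique
open Fermat.Agent.S48.B.Red.CoeffAut1 Fermat.Agent.S48.B.Red.GaussG
open Fermat.Agent.S48.B.Red.Inputs1 (datum₁)
open Fermat.Agent.S48.B.Red.Equiv1.PlaceEquiv1 (FibreHyp1)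
open Fermat.Agent.S48.B.Red.Diamond1
open Fermat.Agent.S48.B.B1.Seams (jgen1 Deg1 DiamondExists)
open Fermat.Agent.S48.B.B1.Seams2 (jgen1p Deg1p)
open scoped Pointwise

local notation "Kb" => AlgebraicClosure ℚ

variable {M ℓ : ℕ} [NeZero M] [NeZero ℓ] {A : ValuationSubring Kb}

/-! ### The reduced automorphism, in the spelling of `NormRedV1` -/

/-- **an automorphism preserving the Gauss valuation ring reduces on the Gauss ring** -/
theorem reducesOnOw_redAut (hrep : HasRep A (residue A) (F1 M) (F1C M (ResidueField A)))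
    (δ : ↥(F1Bar M) ≃ₐ[Kb] ↥(F1Bar M)) (hδO : δ • (datum₁ hrep).O = (datum₁ hrep).O) :
    ReducesOnOw A (residue A) (fun f => δ f)
      (fun x => ofAlgAut (redAut₁ hrep δ hδO) • x) := by
  intro f hf
  have hf' : f ∈ (datum₁ hrep).O := hf
  have h1 : δ f ∈ (datum₁ hrep).O := (Fermat.Agent.S48.B.Red.Unique1.apply_mem_iff hδO f).2 hf'
  exact ⟨h1, (redAut₁_red hrep δ hδO ⟨f, hf'⟩).symm⟩

/-! ### The operators on classes -/

/-- `T_ℓ` on the class of a divisor of degree zero -/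
theorem hecke1Bar_mk (hℓ : ℓ.Prime) (hα : (alpha1 M ℓ Kb).toRingHom.IsIntegral)
    (hβ : (beta1 M ℓ Kb).toRingHom.IsIntegral)
    [HasPrincipalDivisors Kb ↥(laurentBaseChange Kb (F1p M ℓ))]
    (hFI : FundamentalIdentityAlong Kb (alpha1 M ℓ Kb) hα)
    (hfin : FiniteAlong Kb (beta1 M ℓ Kb)) (hN : NormFormulaAlong Kb (beta1 M ℓ Kb) hfin)
    (D : Divisor.degZero (K := Kb) (F := ↥(F1Bar M))) :
    hecke1Bar M ⟨ℓ, hℓ⟩ (Pic0.mk D) =
      Pic0.mk (Pic0.degZeroCorrespondence (alpha1 M ℓ Kb) (beta1 M ℓ Kb) hα hβ hFI D) := by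
  have h : hecke1 M ℓ Kb = Pic0.correspondence (alpha1 M ℓ Kb) (beta1 M ℓ Kb) hα hβ hFI hfin hN :=
    corrOp_eq hα hβ hFI hfin hN
  show hecke1 M ℓ Kb (Pic0.mk D) = _
  rw [h]
  rfl

/-- **(R3') for `X₁(M)` at one `A`, with all inputs explicit.** -/
theorem reduction1_hecke_of [hℓF : Fact ℓ.Prime] (hℓM : ℓ.Coprime M)
    [CharP (ResidueField A) ℓ] [PerfectField (ResidueField A)]
    (h : ReductionInputs1 A M)
    (hc : CorrInputs (alpha1 M ℓ Kb) (beta1 M ℓ Kb))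
    (hdegα : finrankAlong Kb (alpha1 M ℓ Kb) = ℓ + 1)
    (hdegβ : finrankAlong Kb (beta1 M ℓ Kb) = ℓ + 1)
    (hρ : HasRhoB M ℓ hℓM) (hDia : DiamondExists M)
    (hcδ : CorrInputs (diamondAut M Kb (ZMod.unitOfCoprime ℓ hℓM)⁻¹).toAlgHom
      (AlgHom.id Kb ↥(F1Bar M)))
    (hF : FibreHyp1 M A)
    (hrep : HasRep A (residue A) (F1 M) (F1C M (ResidueField A)))
    (hδO : diamondAut M Kb (ZMod.unitOfCoprime ℓ hℓM)⁻¹ • (datum₁ hrep).O = (datum₁ hrep).O)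
    (hdegk : ∀ Q : Place (ResidueField A) ↥(F1C M (ResidueField A)), Q.deg = 1)
    (x : J1 M) :
    reduction1 A M (hecke1Bar M ⟨ℓ, hℓF.out⟩ x) =
      frobPic0₁ M (ResidueField A) ℓ (reduction1 A M x) +
        verPic0₁ M (ResidueField A) ℓ
          (reduction1 A M (diamond1Bar M (ZMod.unitOfCoprime ℓ hℓM) x)) := by
  obtain ⟨hα, hβ, hP, hfin, hFI, hN⟩ := hc
  haveI := hP
  haveI := hF.pd
  obtain ⟨gen, hR⟩ := hF.riemann
  set δ : ↥(F1Bar M) ≃ₐ[Kb] ↥(F1Bar M) := diamondAut M Kb (ZMod.unitOfCoprime ℓ hℓM)⁻¹ with hδdef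
  have hδ : IsDiamondAut M Kb (ZMod.unitOfCoprime ℓ hℓM)⁻¹ δ :=
    isDiamondAut_diamondAut M Kb (hDia Kb (ZMod.unitOfCoprime ℓ hℓM)⁻¹)
  have hδj : δ (jgen1 M) = jgen1 M := diamondAut_jgen1 hDia (ZMod.unitOfCoprime ℓ hℓM)⁻¹
  -- the norm formula (B) in characteristic zero, for `δ`
  have hNB : ∀ ζ : Kbˣ, IsPrimitiveRoot ζ ℓ → ∀ u : ↥(F1Bar M),
      qExpand Kb ℓ ((normAlpha1 M ℓ u : ↥(F1Bar M)) : LaurentSeries Kb) =
        qExpand Kb ℓ (qExpand Kb ℓ (((fun f => δ f) u : ↥(F1Bar M)) : LaurentSeries Kb)) *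
          ∏ b ∈ Finset.range ℓ,
            Fermat.Agent.S28.LaurentRescale.rescaleU (ζ ^ b) (u : LaurentSeries Kb) := by
    obtain ⟨ρ, δ', hδ', hρβ, hρα⟩ := hρ
    have he : δ = δ' := diamondAut_eq_of hδ'
    intro ζ hζ u
    exact qExpand_normAlpha1_of hℓF.out hdegβ ρ (fun f => δ f) (isDiamondAut_jF hδ) hρβ
      (fun x => by rw [hρα x, he]) hζ u
  have hπ : ∀ a : ↥A, ¬ IsUnit a → residue A a = 0 :=
    fun a ha => Fermat.Agent.S18.GaussFromHBar.residue_eq_zero_of_not_isUnit a ha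
  obtain ⟨D, rfl⟩ := Pic0.mk_surjective x
  have hrel := mapDomain_hecke1_degZero hR hdegk hrep hπ hα hβ hFI hdegα hfin hN
    (ofAlgAut (redAut₁ hrep δ hδO)) (reducesOnOw_redAut hrep δ hδO) hNB h.choose_spec.1
    h.choose_spec.2 (D : Divisor Kb ↥(F1Bar M)) (Divisor.mem_degZero.mp D.2)
  have hdia : reduction1 A M (diamond1Bar M (ZMod.unitOfCoprime ℓ hℓM) (Pic0.mk D)) =
      ofAlgAut (redAut₁ hrep δ hδO) • reduction1 A M (Pic0.mk D) :=
    (congrArg (reduction1 A M) (diamond1Bar_eq_smul (ZMod.unitOfCoprime ℓ hℓM) hcδ _)).trans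
      (reduction1_smul_aut hrep δ hδO hF hδj (Pic0.mk D))
  have hfrob : frobPic0₁ M (ResidueField A) ℓ =
      pic0Equiv₁ M (ResidueField A) (frobAut (ResidueField A) ℓ) := rfl
  rw [hdia, hecke1Bar_mk hℓF.out hα hβ hFI hfin hN, reductionAlongG_mk h, reductionAlongG_mk h,
    pic0_smul_mk, verPic0₁_apply, hfrob, pic0Equiv_symm_apply, pic0Equiv_mk, pic0Equiv_mk,
    map_inv]
  show _ = Pic0.mk _ + Pic0.mk (ℓ • _)
  rw [← Pic0.mk_add]
  congr 1
  apply Subtype.ext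
  exact hrel

/-! ### Assembly: `ES1 M` from the producers' hypotheses -/

section Assembly

open Fermat.Agent.S48.B.Red.Seams (IgusaDeg RedInputs1)
open IntermediateField

/-- `j` is a separating variable of `ℚ̄(X₁(M; ℓ))` -/
theorem isFF_jgen1p (hℓ : ℓ.Prime) (hℓM : ¬ ℓ ∣ M) (h1 : Deg1 M) (hp : Deg1p M ℓ) :
    Fermat.Agent.S24.FF.IsFF Kb (jgen1p M ℓ) := by
  have hj : jqModC Kb ∈ laurentBaseChange Kb (F1p M ℓ) := by
    rw [← DegreeBridge1.coe_jgen1p M ℓ]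
    exact (jgen1p M ℓ).2
  have he : jgen1p M ℓ = Fermat.Agent.S48.B.Inj.Basics.jC hj :=
    Subtype.ext (DegreeBridge1.coe_jgen1p M ℓ)
  have hpos : 0 < Module.finrank ↥Kb⟮jgen1p M ℓ⟯ ↥(laurentBaseChange Kb (F1p M ℓ)) := by
    rw [hp hℓ hℓM]
    exact Nat.mul_pos (DegreeBridge1.card_Q1_pos h1) (Nat.succ_pos ℓ)
  refine ⟨?_, Module.finite_of_finrank_pos hpos⟩
  rw [he]
  exact Fermat.Agent.S48.B.Inj.Basics.transcendental_jC hj

/-- the places of `κ(A)(X₁(M))` have degree one -/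
theorem deg_eq_one_F1C (hig : IgusaDeg M) {ℓ' : ℕ} (hℓ : ℓ'.Prime) (hℓM : ¬ ℓ' ∣ M)
    (hA : A.LiesOverPrime ℓ') (Q : Place (ResidueField A) ↥(F1C M (ResidueField A))) :
    Q.deg = 1 := by
  haveI : IsAlgClosed (ResidueField A) :=
    Fermat.Agent.S18.ResidueBasics.isAlgClosed_residueField A
  haveI : FiniteDimensional
      ↥(ResidueField A)⟮Fermat.Agent.S48.B.Inj.Basics.jC
        (Fermat.Agent.S48.B.Red.Seams.jqModC_mem_F1C M (ResidueField A))⟯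
      ↥(F1C M (ResidueField A)) := (hig ℓ' hℓ hℓM A hA).1
  exact Fermat.Agent.S48.B.Inj.Basics.deg_eq_one
    (Fermat.Agent.S48.B.Inj.Basics.isFF_jC
      (Fermat.Agent.S48.B.Red.Seams.jqModC_mem_F1C M (ResidueField A))) Q

variable (M) in
/-- **`Glue1.ES1 M` from the producers' hypotheses**: the degrees `Deg1`, `Deg1p` (B1), the
embedding `HasRhoB` ([B-ES], `Descent`), the diamond automorphisms (B1), `IgusaDeg` (B2),
`RedInputs1`, the fibre hypothesis and brick U (B3). -/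
theorem es1_of (h1 : Deg1 M) (hp : ∀ (ℓ : ℕ) [NeZero ℓ], Deg1p M ℓ)
    (hρ : ∀ (ℓ : ℕ) [NeZero ℓ] (hℓM : ℓ.Coprime M), ℓ.Prime → HasRhoB M ℓ hℓM)
    (hDia : DiamondExists M) (hig : IgusaDeg M) (hri : RedInputs1 M)
    (hF : ∀ ℓ : ℕ, ℓ.Prime → ¬ ℓ ∣ M → ∀ A : ValuationSubring Kb, A.LiesOverPrime ℓ →
      FibreHyp1 M A)
    (hU : ∀ ℓ : ℕ, ℓ.Prime → ¬ ℓ ∣ M → ∀ A : ValuationSubring Kb, A.LiesOverPrime ℓ →
      StableHyp1 M A) :
    Fermat.Agent.S48.B.Red.Glue1.ES1 M := by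
  intro ℓ hℓF hℓM A hA _ _ x
  haveI : NeZero ℓ := ⟨hℓF.out.ne_zero⟩
  have hndvd : ¬ ℓ ∣ M := fun h => hℓF.out.ne_one (Nat.Coprime.eq_one_of_dvd hℓM h)
  have hxp := isFF_jgen1p hℓF.out hndvd h1 (hp ℓ)
  obtain ⟨hrep, hst⟩ := (hU ℓ hℓF.out hndvd A hA).exists_rep
  exact reduction1_hecke_of hℓM (hri ℓ hℓF.out hndvd A hA)
    (Fermat.Agent.S48.B.Inj.Basics.corrInputs_of_isFF _ _ h1.1 hxp)
    (DegreeBridge1.finrankAlong_alpha1_of_seams hℓF.out hndvd h1 (hp ℓ))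
    (DegreeBridge1.finrankAlong_beta1_of_seams hℓF.out hndvd h1 (hp ℓ))
    (hρ ℓ hℓM hℓF.out) hDia
    (Fermat.Agent.S48.B.Inj.Basics.corrInputs_of_isFF _ _ h1.1 h1.1)
    (hF ℓ hℓF.out hndvd A hA) hrep
    (hst _ (diamondAut_jgen1 hDia (ZMod.unitOfCoprime ℓ hℓM)⁻¹))
    (fun Q => deg_eq_one_F1C hig hℓF.out hndvd hA Q) x

end Assembly

end Fermat.Agent.S48.B.ES.RelPic1

end
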